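/-
Programme JAC, S27 track, brick C3 (helper9): the adelic `H¹(D)` of a function field `F / K`
(Prelude: repartitions modulo `A(D) + F`) is the Čech `H¹` of the two-chart cover attached to a
transcendental generator `x`:

  `H¹(D) ≃ I₀₁(D) / (I₀(D) + I₁(D))`,

where `I₀(D)` (`latFin`), `I₁(D)` (`latInf`), `I₀₁(D)` (`latBoth`) are the `K`-subspaces of `F` of
functions which are `D`-integral at all places with `x` finite, `x⁻¹` finite, both finite.
For `D = 0` these are the rings `A₀`, `A₁`, `A₀₁` of the two charts, and

  `genusFF K F = dim_K A₀₁ / (A₀ + A₁)`.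

Everything is proved inside the adelic library (`Agent/RR`): no Dedekind domains, no CRT.
-/
import Mathlib
import Fermat.Agent.RR.InstPrep
import Fermat.Agent.RR.Riemann

set_option autoImplicit false
set_option linter.unusedSectionVars false

open AlgebraicCurve WithZero

namespace Fermat.Agent.JAC.FF.CechAdelic9

open Fermat.Agent.X0.FF Fermat.Agent.RR Fermat.Agent.RR.LSpace Fermat.Agent.RR.H1Finite
open Fermat.Agent.RR.Riemann

variable {K F : Type*} [Field K] [Field F] [Algebra K F]

/-! ### The three lattices -/

/-- `I₀(D)`: functions `D`-integral at every place where `x` is finite. -/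
def latFin (x : F) (D : Divisor K F) : Submodule K F where
  carrier := {f | ∀ v : Place K F, x ∈ v.toValuationSubring → v.adicValuation f ≤ exp (D v)}
  zero_mem' := by
    intro v _
    simp
  add_mem' := by
    intro f g hf hg v hv
    exact (Valuation.map_add _ _ _).trans (max_le (hf v hv) (hg v hv))
  smul_mem' := by
    intro c f hf v hv
    show v.adicValuation (c • f) ≤ exp (D v)
    rw [Algebra.smul_def, map_mul]
    exact (mul_le_of_le_one_left' (v.adicValuation_algebraMap_le_one c)).trans (hf v hv)

/-- `I₁(D)`: functions `D`-integral at every place where `x⁻¹` is finite. -/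
def latInf (x : F) (D : Divisor K F) : Submodule K F where
  carrier := {f | ∀ v : Place K F, x⁻¹ ∈ v.toValuationSubring → v.adicValuation f ≤ exp (D v)}
  zero_mem' := by
    intro v _
    simp
  add_mem' := by
    intro f g hf hg v hv
    exact (Valuation.map_add _ _ _).trans (max_le (hf v hv) (hg v hv))
  smul_mem' := by
    intro c f hf v hv
    show v.adicValuation (c • f) ≤ exp (D v)
    rw [Algebra.smul_def, map_mul]
    exact (mul_le_of_le_one_left' (v.adicValuation_algebraMap_le_one c)).trans (hf v hv)

/-- `I₀₁(D)`: functions `D`-integral at every place where both `x` and `x⁻¹` are finite. -/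
def latBoth (x : F) (D : Divisor K F) : Submodule K F where
  carrier := {f | ∀ v : Place K F, x ∈ v.toValuationSubring → x⁻¹ ∈ v.toValuationSubring →
    v.adicValuation f ≤ exp (D v)}
  zero_mem' := by
    intro v _ _
    simp
  add_mem' := by
    intro f g hf hg v hv hv'
    exact (Valuation.map_add _ _ _).trans (max_le (hf v hv hv') (hg v hv hv'))
  smul_mem' := by
    intro c f hf v hv hv'
    show v.adicValuation (c • f) ≤ exp (D v)
    rw [Algebra.smul_def, map_mul]
    exact (mul_le_of_le_one_left' (v.adicValuation_algebraMap_le_one c)).trans (hf v hv hv')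

theorem mem_latFin {x : F} {D : Divisor K F} {f : F} :
    f ∈ latFin x D ↔ ∀ v : Place K F, x ∈ v.toValuationSubring →
      v.adicValuation f ≤ exp (D v) := Iff.rfl

theorem mem_latInf {x : F} {D : Divisor K F} {f : F} :
    f ∈ latInf x D ↔ ∀ v : Place K F, x⁻¹ ∈ v.toValuationSubring →
      v.adicValuation f ≤ exp (D v) := Iff.rfl

theorem mem_latBoth {x : F} {D : Divisor K F} {f : F} :
    f ∈ latBoth x D ↔ ∀ v : Place K F, x ∈ v.toValuationSubring → x⁻¹ ∈ v.toValuationSubring →
      v.adicValuation f ≤ exp (D v) := Iff.rfl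

theorem latFin_le_latBoth (x : F) (D : Divisor K F) : latFin x D ≤ latBoth x D :=
  fun _ hf v hv _ => hf v hv

theorem latInf_le_latBoth (x : F) (D : Divisor K F) : latInf x D ≤ latBoth x D :=
  fun _ hf v _ hv' => hf v hv'

theorem latFin_sup_latInf_le (x : F) (D : Divisor K F) :
    latFin x D ⊔ latInf x D ≤ latBoth x D :=
  sup_le (latFin_le_latBoth x D) (latInf_le_latBoth x D)

/-- **`H⁰`**: `L(D) = I₀(D) ∩ I₁(D)`. -/
theorem riemannRochSpace_eq_inf (x : F) (D : Divisor K F) :
    riemannRochSpace D = latFin x D ⊓ latInf x D := by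
  ext f
  rw [Submodule.mem_inf]
  constructor
  · intro hf
    exact ⟨fun v _ => hf v, fun v _ => hf v⟩
  · rintro ⟨h0, h1⟩ v
    rcases v.toValuationSubring.mem_or_inv_mem x with hx | hx
    · exact h0 v hx
    · exact h1 v hx


/-! ### Vanishing of `H¹` for large twists -/

section Vanish

variable (H : FF1Data K F) (HL : LHyp K F)
  (hR : ∃ γ : ℤ, ∀ D : Divisor K F,
    Divisor.degree D + 1 - γ ≤ (Module.finrank K (riemannRochSpace D) : ℤ))

include H HL hR

/-- Riemann's inequality with the true genus. -/
theorem le_finrank_L (E : Divisor K F) :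
    Divisor.degree E + 1 - (genusFF K F : ℤ) ≤ (Module.finrank K (riemannRochSpace E) : ℤ) := by
  have h := finrank_L_sub_finrank_H1 H HL hR E
  have h0 : (0 : ℤ) ≤ (Module.finrank K (H1 E) : ℤ) := Int.natCast_nonneg _
  linarith

omit H hR in
/-- `r` is invariant under linear equivalence. -/
theorem r_add_divOf (D : Divisor K F) {f : F} (hf : f ≠ 0) : r (D + divOf HL hf) = r D := by
  unfold r
  rw [map_add, degree_divOf, add_zero, (mulEquiv HL D hf).finrank_eq]

/-- If `deg D` is large then `A(D) + F` is everything. -/
theorem AP_eq_top_of_degree_ge {D₀ : Divisor K F} (hmax : ∀ D : Divisor K F, r D ≤ r D₀)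
    (D : Divisor K F) (hD : (genusFF K F : ℤ) + Divisor.degree D₀ ≤ Divisor.degree D) :
    repartitionsOf D ⊔ principalRepartitions K F = ⊤ := by
  -- a nonzero function in `L(D - D₀)`
  have h1 := le_finrank_L H HL hR (D - D₀)
  rw [map_sub] at h1
  have hpos : 0 < Module.finrank K (riemannRochSpace (D - D₀)) := by
    have : (0 : ℤ) < (Module.finrank K (riemannRochSpace (D - D₀)) : ℤ) := by linarith
    exact_mod_cast this
  have := finiteDimensional_L HL (D - D₀)
  obtain ⟨⟨f, hfL⟩, hf0⟩ := Module.finrank_pos_iff_exists_ne_zero.mp hpos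
  have hf : f ≠ 0 := fun h => hf0 (Subtype.ext h)
  -- `D₀ ≤ D + div f`
  have hle : D₀ ≤ D + divOf HL hf := by
    intro v
    have := (mem_L_iff hf).mp hfL v
    rw [Finsupp.sub_apply] at this
    rw [Finsupp.add_apply, divOf_apply]
    omega
  have hmax' : ∀ E : Divisor K F, r E ≤ r D := by
    intro E
    calc r E ≤ r D₀ := hmax E
      _ ≤ r (D + divOf HL hf) := r_mono H HL hle
      _ = r D := r_add_divOf HL D hf
  exact AP_eq_top_of_max H HL hmax'

/-- For an effective divisor `P` of positive degree, `H¹(D + m P) = 0` for all large `m`. -/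
theorem exists_forall_AP_nsmul_eq_top (D P : Divisor K F) (hP : 0 < Divisor.degree P) :
    ∃ m₀ : ℕ, ∀ m : ℕ, m₀ ≤ m →
      repartitionsOf (D + m • P) ⊔ principalRepartitions K F = ⊤ := by
  obtain ⟨D₀, hmax⟩ := exists_r_max hR
  refine ⟨((genusFF K F : ℤ) + Divisor.degree D₀ - Divisor.degree D).toNat, fun m hm => ?_⟩
  apply AP_eq_top_of_degree_ge H HL hR hmax
  rw [map_add, map_nsmul, nsmul_eq_mul]
  have h1 : (genusFF K F : ℤ) + Divisor.degree D₀ - Divisor.degree D ≤ m := by
    have := Int.self_le_toNat ((genusFF K F : ℤ) + Divisor.degree D₀ - Divisor.degree D)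
    have hm' : (((genusFF K F : ℤ) + Divisor.degree D₀ - Divisor.degree D).toNat : ℤ) ≤ m := by
      exact_mod_cast hm
    linarith
  have h2 : (m : ℤ) ≤ m * Divisor.degree P := by
    have : (0 : ℤ) ≤ m := Int.natCast_nonneg _
    nlinarith
  linarith

end Vanish


/-! ### Strong approximation on the two affine pieces -/

section Approx

variable (H : FF1Data K F) (HL : LHyp K F)
  (hR : ∃ γ : ℤ, ∀ D : Divisor K F,
    Divisor.degree D + 1 - γ ≤ (Module.finrank K (riemannRochSpace D) : ℤ))

/-- The pole divisor of `y` vanishes at the places where `y` is finite. -/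
theorem poleDiv_eq_zero_of_mem {y : F} (hy : y ≠ 0) {v : Place K F}
    (hv : y ∈ v.toValuationSubring) : poleDiv HL hy v = 0 := by
  rw [poleDiv_apply]
  have := ffp_ord_nonneg_of_mem v hv
  omega

include H HL hR in
/-- **Strong approximation.**  Let `y` be a nonconstant function.  Every repartition can be
approximated by a function `h`, `D`-integrally at all places where `y` is finite. -/
theorem exists_approx {y : F} (hy : y ≠ 0) (hnc : ¬ ∃ c : K, y = algebraMap K F c)
    (D : Divisor K F) (α : ↥(repartitions K F)) :
    ∃ h : F, ∀ v : Place K F, y ∈ v.toValuationSubring →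
      v.adicValuation ((α : Place K F → F) v - h) ≤ exp (D v) := by
  obtain ⟨m₀, hm₀⟩ := exists_forall_AP_nsmul_eq_top H HL hR D (poleDiv HL hy)
    (degree_poleDiv_pos HL hy hnc)
  have hα : α ∈ repartitionsOf (D + m₀ • poleDiv HL hy) ⊔ principalRepartitions K F := by
    rw [hm₀ m₀ le_rfl]; exact Submodule.mem_top
  obtain ⟨β, hβ, p, hp, hsum⟩ := Submodule.mem_sup.mp hα
  obtain ⟨h, hh⟩ := mem_principalRepartitions_iff.mp hp
  refine ⟨h, fun v hv => ?_⟩
  have h1 : (α : Place K F → F) v - h = (β : Place K F → F) v := by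
    have h2 : (α : Place K F → F) v = (β : Place K F → F) v + (p : Place K F → F) v := by
      rw [← hsum]; rfl
    rw [h2, hh]; ring
  rw [h1]
  have h3 := hβ v
  rwa [Finsupp.add_apply, Finsupp.smul_apply, poleDiv_eq_zero_of_mem HL hy hv, smul_zero,
    add_zero] at h3

end Approx


/-! ### The cut-off repartition -/

open Classical in
/-- The indicator function of the set of places where `y` has a pole. -/
noncomputable def indFun (y : F) : Place K F → F :=
  fun v => if y ∈ v.toValuationSubring then 0 else 1

theorem indFun_of_mem {y : F} {v : Place K F} (hv : y ∈ v.toValuationSubring) :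
    indFun y v = 0 := by
  unfold indFun; rw [if_pos hv]

theorem indFun_of_not_mem {y : F} {v : Place K F} (hv : y ∉ v.toValuationSubring) :
    indFun y v = 1 := by
  unfold indFun; rw [if_neg hv]

theorem indFun_mem (y : F) : indFun (K := K) y ∈ repartitions K F := by
  apply mem_repartitions_of_finite_ord
  convert Set.finite_empty
  ext v
  simp only [Set.mem_ofPred_eq, Set.mem_empty_iff_false, iff_false, not_lt]
  by_cases hv : y ∈ v.toValuationSubring
  · rw [indFun_of_mem hv]; simp
  · rw [indFun_of_not_mem hv]; simp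

/-- The indicator of the poles of `y`, as a repartition. -/
noncomputable def indRep (y : F) : ↥(repartitions K F) := ⟨indFun y, indFun_mem y⟩

/-- The constant repartition. -/
noncomputable def constRep (f : F) : ↥(repartitions K F) := algebraMap F ↥(repartitions K F) f

@[simp] theorem constRep_apply (f : F) (v : Place K F) :
    ((constRep f : ↥(repartitions K F)) : Place K F → F) v = f := rfl

theorem mem_principal_iff {α : ↥(repartitions K F)} :
    α ∈ principalRepartitions K F ↔ ∃ f : F, α = constRep f := by
  rw [mem_principalRepartitions_iff]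
  constructor
  · rintro ⟨f, hf⟩
    exact ⟨f, Subtype.ext hf⟩
  · rintro ⟨f, rfl⟩
    exact ⟨f, rfl⟩

theorem constRep_mem_principal (f : F) : constRep f ∈ principalRepartitions K F :=
  mem_principal_iff.mpr ⟨f, rfl⟩

/-- `f ↦ (f at the poles of y, 0 elsewhere)`. -/
noncomputable def cutLin (y : F) : F →ₗ[K] ↥(repartitions K F) :=
  (LinearMap.mulLeft K (indRep y)).comp
    ((Algebra.linearMap F ↥(repartitions K F)).restrictScalars K)

theorem cutLin_apply_of_mem {y : F} (f : F) {v : Place K F} (hv : y ∈ v.toValuationSubring) :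
    ((cutLin (K := K) y f : ↥(repartitions K F)) : Place K F → F) v = 0 := by
  show indFun y v * f = 0
  rw [indFun_of_mem hv, zero_mul]

theorem cutLin_apply_of_not_mem {y : F} (f : F) {v : Place K F}
    (hv : y ∉ v.toValuationSubring) :
    ((cutLin (K := K) y f : ↥(repartitions K F)) : Place K F → F) v = f := by
  show indFun y v * f = f
  rw [indFun_of_not_mem hv, one_mul]


/-! ### The comparison map -/

/-- A valuation ring contains `y` or `y⁻¹`. -/
theorem inv_mem_of_not_mem {y : F} {v : Place K F} (hv : y ∉ v.toValuationSubring) :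
    y⁻¹ ∈ v.toValuationSubring :=
  (v.toValuationSubring.mem_or_inv_mem y).resolve_left hv

/-- **Kernel of the comparison map**: for `f ∈ I₀₁(D)`, the cut-off repartition of `f` lies in
`A(D) + F` iff `f ∈ I₀(D) + I₁(D)`. -/
theorem cutLin_mem_AP_iff {x : F} {D : Divisor K F} {f : F} (hf : f ∈ latBoth x D) :
    cutLin (K := K) x f ∈ repartitionsOf D ⊔ principalRepartitions K F ↔
      f ∈ latFin x D ⊔ latInf x D := by
  constructor
  · intro h
    obtain ⟨β, hβ, p, hp, hsum⟩ := Submodule.mem_sup.mp h
    obtain ⟨h, rfl⟩ := mem_principal_iff.mp hp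
    have hpt : ∀ v : Place K F, (β : Place K F → F) v + h =
        ((cutLin (K := K) x f : ↥(repartitions K F)) : Place K F → F) v := by
      intro v
      rw [← hsum]; rfl
    have hh : h ∈ latFin x D := by
      intro v hv
      have h1 := hpt v
      rw [cutLin_apply_of_mem f hv] at h1
      have h2 : h = -(β : Place K F → F) v := by linear_combination h1
      rw [h2, Valuation.map_neg]
      exact hβ v
    have hfh : f - h ∈ latInf x D := by
      intro v hv'
      by_cases hv : x ∈ v.toValuationSubring
      · exact (Valuation.map_sub _ _ _).trans (max_le (hf v hv hv') (hh v hv))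
      · have h1 := hpt v
        rw [cutLin_apply_of_not_mem f hv] at h1
        have h2 : f - h = (β : Place K F → F) v := by linear_combination -h1
        rw [h2]
        exact hβ v
    have : f = h + (f - h) := by ring
    rw [this]
    exact Submodule.add_mem_sup hh hfh
  · intro h
    obtain ⟨a, ha, b, hb, rfl⟩ := Submodule.mem_sup.mp h
    have hβ : cutLin (K := K) x (a + b) - constRep a ∈ repartitionsOf D := by
      intro v
      show v.adicValuation (((cutLin (K := K) x (a + b) : ↥(repartitions K F)) :
        Place K F → F) v - a) ≤ exp (D v)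
      by_cases hv : x ∈ v.toValuationSubring
      · rw [cutLin_apply_of_mem _ hv, zero_sub, Valuation.map_neg]
        exact ha v hv
      · rw [cutLin_apply_of_not_mem _ hv, add_sub_cancel_left]
        exact hb v (inv_mem_of_not_mem hv)
    have : cutLin (K := K) x (a + b) = (cutLin (K := K) x (a + b) - constRep a) + constRep a := by
      ring
    rw [this]
    exact Submodule.add_mem_sup hβ (constRep_mem_principal a)

/-- The comparison map `I₀₁(D) → H¹(D)`. -/
noncomputable def compMap (x : F) (D : Divisor K F) : ↥(latBoth x D) →ₗ[K] H1 D :=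
  ((repartitionsOf D ⊔ principalRepartitions K F).mkQ.comp (cutLin x)).comp (latBoth x D).subtype

theorem compMap_apply (x : F) (D : Divisor K F) (f : ↥(latBoth x D)) :
    compMap x D f = Submodule.Quotient.mk (cutLin (K := K) x (f : F)) := rfl

theorem ker_compMap (x : F) (D : Divisor K F) :
    LinearMap.ker (compMap x D) = (latFin x D ⊔ latInf x D).comap (latBoth x D).subtype := by
  ext f
  rw [LinearMap.mem_ker, compMap_apply, Submodule.Quotient.mk_eq_zero, Submodule.mem_comap,
    cutLin_mem_AP_iff f.2]
  rfl



/-! ### Surjectivity of the comparison map -/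

section Surj

variable (H : FF1Data K F) (HL : LHyp K F)
  (hR : ∃ γ : ℤ, ∀ D : Divisor K F,
    Divisor.degree D + 1 - γ ≤ (Module.finrank K (riemannRochSpace D) : ℤ))

theorem inv_not_const {x : F} (hnc : ¬ ∃ c : K, x = algebraMap K F c) :
    ¬ ∃ c : K, x⁻¹ = algebraMap K F c := by
  rintro ⟨c, hc⟩
  apply hnc
  refine ⟨c⁻¹, ?_⟩
  rw [map_inv₀, ← hc, inv_inv]

include H HL hR in
/-- **Surjectivity**: every class in `H¹(D)` is represented by a cut-off repartition of a function
in `I₀₁(D)`. -/
theorem compMap_surjective {x : F} (hx0 : x ≠ 0) (hnc : ¬ ∃ c : K, x = algebraMap K F c)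
    (D : Divisor K F) : Function.Surjective (compMap x D) := by
  intro ξ
  obtain ⟨α, rfl⟩ := Submodule.Quotient.mk_surjective _ ξ
  -- first approximation, on the chart `x` finite
  obtain ⟨h, hh⟩ := exists_approx H HL hR hx0 hnc D α
  -- second approximation, on the chart `x⁻¹` finite, of the cut-off of `α - h`
  obtain ⟨f, hf⟩ := exists_approx H HL hR (inv_ne_zero hx0) (inv_not_const hnc) D
    (indRep x * (α - constRep h))
  have hγ_mem : ∀ v : Place K F, x ∈ v.toValuationSubring →
      ((indRep x * (α - constRep h) : ↥(repartitions K F)) : Place K F → F) v = 0 := by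
    intro v hv
    show indFun x v * ((α : Place K F → F) v - h) = 0
    rw [indFun_of_mem hv, zero_mul]
  have hγ_not_mem : ∀ v : Place K F, x ∉ v.toValuationSubring →
      ((indRep x * (α - constRep h) : ↥(repartitions K F)) : Place K F → F) v =
        (α : Place K F → F) v - h := by
    intro v hv
    show indFun x v * ((α : Place K F → F) v - h) = _
    rw [indFun_of_not_mem hv, one_mul]
  have hfB : f ∈ latBoth x D := by
    intro v hv hv'
    have := hf v hv'
    rwa [hγ_mem v hv, zero_sub, Valuation.map_neg] at this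
  refine ⟨⟨f, hfB⟩, ?_⟩
  rw [compMap_apply]
  symm
  rw [Submodule.Quotient.eq]
  have hβ : α - cutLin (K := K) x f - constRep h ∈ repartitionsOf D := by
    intro v
    show v.adicValuation ((α : Place K F → F) v -
      ((cutLin (K := K) x f : ↥(repartitions K F)) : Place K F → F) v - h) ≤ exp (D v)
    by_cases hv : x ∈ v.toValuationSubring
    · rw [cutLin_apply_of_mem f hv, sub_zero]
      exact hh v hv
    · rw [cutLin_apply_of_not_mem f hv]
      have := hf v (inv_mem_of_not_mem hv)
      rw [hγ_not_mem v hv] at this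
      have e : (α : Place K F → F) v - f - h = (α : Place K F → F) v - h - f := by ring
      rw [e]
      exact this
  have : α - cutLin (K := K) x f = (α - cutLin (K := K) x f - constRep h) + constRep h := by
    ring
  rw [this]
  exact Submodule.add_mem_sup hβ (constRep_mem_principal h)

/-- **`H¹(D)` is the Čech `H¹` of the two-chart cover**: `H¹(D) ≃ I₀₁(D) / (I₀(D) + I₁(D))`. -/
noncomputable def h1EquivAux (H : FF1Data K F) (HL : LHyp K F)
    (hR : ∃ γ : ℤ, ∀ D : Divisor K F,
      Divisor.degree D + 1 - γ ≤ (Module.finrank K (riemannRochSpace D) : ℤ))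
    {x : F} (hx0 : x ≠ 0) (hnc : ¬ ∃ c : K, x = algebraMap K F c)
    (D : Divisor K F) :
    (↥(latBoth x D) ⧸ (latFin x D ⊔ latInf x D).comap (latBoth x D).subtype) ≃ₗ[K] H1 D :=
  (Submodule.quotEquivOfEq _ _ (ker_compMap x D).symm).trans
    ((compMap x D).quotKerEquivOfSurjective (compMap_surjective H HL hR hx0 hnc D))

end Surj

/-! ### Function fields with a transcendental generator -/

section Gen

variable [IsAlgClosed K] [CharZero K] {x : F}

theorem not_const_of_isGen (hx : IsGen K x) : ¬ ∃ c : K, x = algebraMap K F c := by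
  rintro ⟨c, hc⟩
  apply hx.transcendental
  rw [hc]
  exact isAlgebraic_algebraMap c

/-- **`H¹(D) ≃ I₀₁(D) / (I₀(D) + I₁(D))`** for a function field with a transcendental generator
`x` over an algebraically closed field of characteristic zero. -/
noncomputable def h1Equiv (hx : IsGen K x) (D : Divisor K F) :
    (↥(latBoth x D) ⧸ (latFin x D ⊔ latInf x D).comap (latBoth x D).subtype) ≃ₗ[K] H1 D :=
  h1EquivAux (Fermat.Agent.X0.FFGenus.ff1Data hx) (LHypGen.lHyp_of_isGen hx)
    (LHypGen.riemann_inequality_of_isGen hx) hx.ne_zero (not_const_of_isGen hx) D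

theorem h1Equiv_mk (hx : IsGen K x) (D : Divisor K F) (f : ↥(latBoth x D)) :
    h1Equiv hx D (Submodule.Quotient.mk f) = Submodule.Quotient.mk (cutLin (K := K) x (f : F)) :=
  rfl

/-- The adelic genus is the dimension of the Čech `H¹` of the structure sheaf:
`g = dim_K A₀₁ / (A₀ + A₁)`. -/
theorem genusFF_eq_finrank (hx : IsGen K x) :
    genusFF K F = Module.finrank K
      (↥(latBoth x (0 : Divisor K F)) ⧸
        (latFin x (0 : Divisor K F) ⊔ latInf x 0).comap (latBoth x (0 : Divisor K F)).subtype) :=
  (h1Equiv hx 0).finrank_eq.symm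

/-- `dim H¹(D) = dim I₀₁(D) / (I₀(D) + I₁(D))`. -/
theorem finrank_H1_eq (hx : IsGen K x) (D : Divisor K F) :
    Module.finrank K (H1 D) = Module.finrank K
      (↥(latBoth x D) ⧸ (latFin x D ⊔ latInf x D).comap (latBoth x D).subtype) :=
  (h1Equiv hx D).finrank_eq.symm

/-- The Čech `H¹` is finite-dimensional. -/
theorem finite_cech (hx : IsGen K x) (D : Divisor K F) :
    Module.Finite K
      (↥(latBoth x D) ⧸ (latFin x D ⊔ latInf x D).comap (latBoth x D).subtype) :=
  haveI := InstPrep.hfin_of_isGen hx D
  Module.Finite.equiv (h1Equiv hx D).symm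

/-- **Euler characteristic in Čech form**: `dim (I₀ ∩ I₁) - dim I₀₁/(I₀ + I₁) = deg D + 1 - g`. -/
theorem cech_euler (hx : IsGen K x) (D : Divisor K F) :
    (Module.finrank K ↥(latFin x D ⊓ latInf x D) : ℤ) -
      Module.finrank K
        (↥(latBoth x D) ⧸ (latFin x D ⊔ latInf x D).comap (latBoth x D).subtype) =
      Divisor.degree D + 1 - genusFF K F := by
  rw [← finrank_H1_eq hx D, ← riemannRochSpace_eq_inf x D]
  exact InstPrep.heuler_of_isGen hx D

end Gen

end Fermat.Agent.JAC.FF.CechAdelic9
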