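/-
Programme JAC, S27 track, brick C3 part 2 (helper9): the three `K`-subalgebras `A₀`, `A₁`, `A₀₁` of
the two-chart cover of a function field `F / K` attached to a transcendental generator `x`,

  `A₀ = ⋂_{x ∈ O_v} O_v`,  `A₁ = ⋂_{x⁻¹ ∈ O_v} O_v`,  `A₀₁ = ⋂_{x, x⁻¹ ∈ O_v} O_v`,

are the integral closures of `K[x]`, `K[x⁻¹]` in `F` and their compositum `A₀ ⊔ A₁ = A₀[x⁻¹]`;
consequently (with `CechAdelic9`)

  `genusFF K F = dim_K A₀₁ / (A₀ + A₁)`

for ANY pair of subalgebras `A₀`, `A₁` of `F` whose elements are exactly the elements of `F`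
integral over `K[x]`, resp. `K[x⁻¹]`.  Also: the dictionary between the lattices `I₀(D)` and the
valuations at the height-one primes of a Dedekind model of the chart.
-/
import Mathlib
import Fermat.Agent.JAC.FF.CechAdelic9
import Fermat.Agent.X0.FFDedekind
import Fermat.Agent.X0.FFSum
import Fermat.Agent.X0.FFDict

set_option autoImplicit false
set_option linter.unusedSectionVars false

open AlgebraicCurve WithZero IsDedekindDomain

namespace Fermat.Agent.JAC.FF.CechRings9

open Fermat.Agent.X0.FF Fermat.Agent.X0.FFDedekind Fermat.Agent.RR Fermat.Agent.RR.LSpace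
open Fermat.Agent.JAC.FF.CechAdelic9

variable {K F : Type*} [Field K] [Field F] [Algebra K F]

/-! ### Membership in a valuation ring versus the adic valuation -/

theorem adicValuation_le_one_iff_mem (v : Place K F) {f : F} :
    v.adicValuation f ≤ 1 ↔ f ∈ v.toValuationSubring := by
  constructor
  · intro h
    rcases (v.adicValuation_le_one_iff).mp h with rfl | h0
    · exact zero_mem _
    · exact ffp_mem_of_ord_nonneg v h0
  · exact v.adicValuation_le_one_of_mem

theorem adicValuation_le_exp_zero_iff_mem (v : Place K F) {f : F} :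
    v.adicValuation f ≤ exp (0 : ℤ) ↔ f ∈ v.toValuationSubring := by
  rw [WithZero.exp_zero]
  exact adicValuation_le_one_iff_mem v

/-! ### The three rings -/

/-- `A₀`: the functions regular at every place where `x` is finite. -/
def ringFin (K : Type*) {F : Type*} [Field K] [Field F] [Algebra K F] (x : F) : Subalgebra K F where
  carrier := {f | ∀ v : Place K F, x ∈ v.toValuationSubring → f ∈ v.toValuationSubring}
  mul_mem' := fun ha hb v hv => mul_mem (ha v hv) (hb v hv)
  add_mem' := fun ha hb v hv => add_mem (ha v hv) (hb v hv)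
  algebraMap_mem' := fun c v _ => v.algebraMap_mem' c

/-- `A₁`: the functions regular at every place where `x⁻¹` is finite. -/
def ringInf (K : Type*) {F : Type*} [Field K] [Field F] [Algebra K F] (x : F) : Subalgebra K F :=
  ringFin K x⁻¹

/-- `A₀₁`: the functions regular at every place where `x` and `x⁻¹` are finite. -/
def ringBoth (K : Type*) {F : Type*} [Field K] [Field F] [Algebra K F] (x : F) :
    Subalgebra K F where
  carrier := {f | ∀ v : Place K F, x ∈ v.toValuationSubring → x⁻¹ ∈ v.toValuationSubring →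
    f ∈ v.toValuationSubring}
  mul_mem' := fun ha hb v hv hv' => mul_mem (ha v hv hv') (hb v hv hv')
  add_mem' := fun ha hb v hv hv' => add_mem (ha v hv hv') (hb v hv hv')
  algebraMap_mem' := fun c v _ _ => v.algebraMap_mem' c

theorem mem_ringFin {x f : F} :
    f ∈ ringFin K x ↔ ∀ v : Place K F, x ∈ v.toValuationSubring → f ∈ v.toValuationSubring :=
  Iff.rfl

theorem mem_ringInf {x f : F} :
    f ∈ ringInf K x ↔ ∀ v : Place K F, x⁻¹ ∈ v.toValuationSubring → f ∈ v.toValuationSubring :=
  Iff.rfl

theorem mem_ringBoth {x f : F} :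
    f ∈ ringBoth K x ↔ ∀ v : Place K F, x ∈ v.toValuationSubring → x⁻¹ ∈ v.toValuationSubring →
      f ∈ v.toValuationSubring :=
  Iff.rfl

theorem self_mem_ringFin (x : F) : x ∈ ringFin K x := fun _ hv => hv

theorem inv_mem_ringInf (x : F) : x⁻¹ ∈ ringInf K x := fun _ hv => hv

theorem ringFin_le_ringBoth (x : F) : ringFin K x ≤ ringBoth K x := fun _ hf v hv _ => hf v hv

theorem ringInf_le_ringBoth (x : F) : ringInf K x ≤ ringBoth K x := fun _ hf v _ hv' => hf v hv'

theorem self_mem_ringBoth (x : F) : x ∈ ringBoth K x := fun _ hv _ => hv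

theorem inv_mem_ringBoth (x : F) : x⁻¹ ∈ ringBoth K x := fun _ _ hv' => hv'

theorem toSubmodule_ringFin (x : F) :
    Subalgebra.toSubmodule (ringFin K x) = latFin x (0 : Divisor K F) := by
  ext f
  rw [Subalgebra.mem_toSubmodule, mem_ringFin, mem_latFin]
  refine forall_congr' fun v => imp_congr_right fun _ => ?_
  rw [Finsupp.zero_apply, adicValuation_le_exp_zero_iff_mem]

theorem toSubmodule_ringInf (x : F) :
    Subalgebra.toSubmodule (ringInf K x) = latInf x (0 : Divisor K F) := by
  ext f
  rw [Subalgebra.mem_toSubmodule, mem_ringInf, mem_latInf]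
  refine forall_congr' fun v => imp_congr_right fun _ => ?_
  rw [Finsupp.zero_apply, adicValuation_le_exp_zero_iff_mem]

theorem toSubmodule_ringBoth (x : F) :
    Subalgebra.toSubmodule (ringBoth K x) = latBoth x (0 : Divisor K F) := by
  ext f
  rw [Subalgebra.mem_toSubmodule, mem_ringBoth, mem_latBoth]
  refine forall_congr' fun v => imp_congr_right fun _ => imp_congr_right fun _ => ?_
  rw [Finsupp.zero_apply, adicValuation_le_exp_zero_iff_mem]

/-- `A₀ ∩ A₁ = L(0)`. -/
theorem toSubmodule_ringFin_inf_ringInf (x : F) :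
    Subalgebra.toSubmodule (ringFin K x ⊓ ringInf K x) = riemannRochSpace (0 : Divisor K F) := by
  rw [riemannRochSpace_eq_inf x, ← toSubmodule_ringFin, ← toSubmodule_ringInf]
  rfl

/-! ### `A₀₁ = A₀ ⊔ A₁ = A₀[x⁻¹]` -/

/-- Clearing the poles at the zeros of `x`: for `f ∈ A₀₁` some `xⁿ f` lies in `A₀`. -/
theorem exists_pow_mul_mem_ringFin (H : FF1Data K F) {x f : F} (hx0 : x ≠ 0)
    (hf : f ∈ ringBoth K x) : ∃ n : ℕ, x ^ n * f ∈ ringFin K x := by
  rcases eq_or_ne f 0 with rfl | hf0
  · exact ⟨0, by rw [mul_zero]; exact zero_mem _⟩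
  have hfin : {v : Place K F | v.ord f < 0}.Finite :=
    (ffq_finite_support_ord H hf0).subset fun v hv => ne_of_lt hv
  refine ⟨∑ v ∈ hfin.toFinset, (-(v.ord f)).toNat, fun v hv => ?_⟩
  apply ffp_mem_of_ord_nonneg
  have hxn : x ^ (∑ v ∈ hfin.toFinset, (-(v.ord f)).toNat) ≠ 0 := pow_ne_zero _ hx0
  rw [v.ord_mul hxn hf0, Fermat.Agent.X0.FF.ord_pow]
  have hx_nonneg : 0 ≤ v.ord x := ffp_ord_nonneg_of_mem v hv
  by_cases hneg : v.ord f < 0
  · -- a pole of `f` where `x` is finite: `x` vanishes there
    have hx_pos : 0 < v.ord x := by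
      rcases lt_or_eq_of_le hx_nonneg with h | h
      · exact h
      · exfalso
        have hinv : x⁻¹ ∈ v.toValuationSubring := by
          apply ffp_mem_of_ord_nonneg
          rw [v.ord_inv, ← h]
          simp
        have := ffp_ord_nonneg_of_mem v (hf v hv hinv)
        omega
    have hle : (-(v.ord f)).toNat ≤ ∑ w ∈ hfin.toFinset, (-(w.ord f)).toNat :=
      Finset.single_le_sum (f := fun w : Place K F => (-(w.ord f)).toNat)
        (fun _ _ => Nat.zero_le _) (hfin.mem_toFinset.mpr hneg)
    have h1 : -(v.ord f) ≤ ((-(v.ord f)).toNat : ℤ) := Int.self_le_toNat _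
    have h2 : ((-(v.ord f)).toNat : ℤ) ≤
        ((∑ w ∈ hfin.toFinset, (-(w.ord f)).toNat : ℕ) : ℤ) := by exact_mod_cast hle
    have h3 : ((∑ w ∈ hfin.toFinset, (-(w.ord f)).toNat : ℕ) : ℤ) ≤
        ((∑ w ∈ hfin.toFinset, (-(w.ord f)).toNat : ℕ) : ℤ) * v.ord x := by
      have : (0 : ℤ) ≤ ((∑ w ∈ hfin.toFinset, (-(w.ord f)).toNat : ℕ) : ℤ) :=
        Int.natCast_nonneg _
      nlinarith
    linarith
  · have h0 : 0 ≤ v.ord f := not_lt.mp hneg
    have : (0 : ℤ) ≤ ((∑ w ∈ hfin.toFinset, (-(w.ord f)).toNat : ℕ) : ℤ) * v.ord x :=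
      mul_nonneg (Int.natCast_nonneg _) hx_nonneg
    linarith

/-- **`A₀₁ = A₀ ⊔ A₁`** (as subalgebras of `F`). -/
theorem ringFin_sup_ringInf (H : FF1Data K F) {x : F} (hx0 : x ≠ 0) :
    ringFin K x ⊔ ringInf K x = ringBoth K x := by
  apply le_antisymm (sup_le (ringFin_le_ringBoth x) (ringInf_le_ringBoth x))
  intro f hf
  obtain ⟨n, hn⟩ := exists_pow_mul_mem_ringFin H hx0 hf
  have h1 : f = (x⁻¹) ^ n * (x ^ n * f) := by
    rw [← mul_assoc, ← mul_pow, inv_mul_cancel₀ hx0, one_pow, one_mul]
  rw [h1]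
  exact mul_mem (pow_mem ((le_sup_right : ringInf K x ≤ _) (inv_mem_ringInf x)) n)
    ((le_sup_left : ringFin K x ≤ _) hn)

/-- `f ∈ A₀₁ ↔ xⁿ f ∈ A₀` for some `n`. -/
theorem mem_ringBoth_iff_exists_pow (H : FF1Data K F) {x f : F} (hx0 : x ≠ 0) :
    f ∈ ringBoth K x ↔ ∃ n : ℕ, x ^ n * f ∈ ringFin K x := by
  refine ⟨exists_pow_mul_mem_ringFin H hx0, ?_⟩
  rintro ⟨n, hn⟩
  have h1 : f = (x⁻¹) ^ n * (x ^ n * f) := by
    rw [← mul_assoc, ← mul_pow, inv_mul_cancel₀ hx0, one_pow, one_mul]
  rw [h1]
  exact mul_mem (pow_mem (inv_mem_ringBoth x) n) (ringFin_le_ringBoth x hn)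

/-! ### Dictionary with a Dedekind model of the chart -/

section Dedekind

variable {B : Type*} [CommRing B] [IsDedekindDomain B] [Algebra B F] [IsFractionRing B F]
  [Algebra K B] [IsScalarTower K B F]

/-- The adic valuation of the place of a height-one prime `w` is the `w`-adic valuation. -/
theorem adicValuation_ofHeightOneSpectrum (w : HeightOneSpectrum B) (f : F) :
    (Place.ofHeightOneSpectrum (K := K) (F := F) w).adicValuation f = w.valuation F f := by
  rcases eq_or_ne f 0 with rfl | hf
  · simp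
  have h := ord_ofHeightOneSpectrum (K := K) w f
  unfold Place.ord at h
  have h1 : (Place.ofHeightOneSpectrum (K := K) (F := F) w).adicValuation f ≠ 0 :=
    Place.adicValuation_ne_zero _ hf
  have h2 : w.valuation F f ≠ 0 := (Valuation.ne_zero_iff _).mpr hf
  rw [← WithZero.exp_log h1, ← WithZero.exp_log h2]
  congr 1
  omega

/-- **Dictionary**: if the places where `x` is finite are exactly the places centred on the
Dedekind domain `B` (with fraction field `F`), then `I₀(D)` is cut out by the valuations at the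
height-one primes of `B`. -/
theorem mem_latFin_iff_valuation {x : F}
    (hB : ∀ v : Place K F, x ∈ v.toValuationSubring ↔
      ∀ b : B, algebraMap B F b ∈ v.toValuationSubring)
    {D : Divisor K F} {f : F} :
    f ∈ latFin x D ↔ ∀ w : HeightOneSpectrum B,
      w.valuation F f ≤ exp (D (Place.ofHeightOneSpectrum (K := K) (F := F) w)) := by
  constructor
  · intro hf w
    rw [← adicValuation_ofHeightOneSpectrum (K := K) w f]
    exact hf _ ((hB _).mpr (algebraMap_mem_ofHeightOneSpectrum w))
  · intro h v hv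
    have hBv := (hB v).mp hv
    have h1 := h (centreSpec v hBv)
    rw [ofHeightOneSpectrum_centreSpec v hBv] at h1
    have h2 := adicValuation_ofHeightOneSpectrum (K := K) (centreSpec v hBv) f
    rw [ofHeightOneSpectrum_centreSpec v hBv] at h2
    rw [h2]
    exact h1

/-- `A₀ = B`. -/
theorem mem_ringFin_iff_mem_range {x : F}
    (hB : ∀ v : Place K F, x ∈ v.toValuationSubring ↔
      ∀ b : B, algebraMap B F b ∈ v.toValuationSubring) {f : F} :
    f ∈ ringFin K x ↔ f ∈ (algebraMap B F).range := by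
  constructor
  · intro hf
    apply HeightOneSpectrum.mem_integers_of_valuation_le_one F f
    intro w
    have h1 : f ∈ latFin x (0 : Divisor K F) := by
      rw [← toSubmodule_ringFin]; exact hf
    have := (mem_latFin_iff_valuation hB).mp h1 w
    rwa [Finsupp.zero_apply, WithZero.exp_zero] at this
  · rintro ⟨b, rfl⟩ v hv
    exact (hB v).mp hv b

end Dedekind

/-! ### The rings are the integral closures of `K[x]`, `K[x⁻¹]` -/

section Gen

variable [IsAlgClosed K] [CharZero K] {x : F}

/-- The places where `x` is finite are the places centred on the integral closure of `K[x]`. -/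
theorem mem_iff_intRing_le (x : F) (v : Place K F) :
    x ∈ v.toValuationSubring ↔
      ∀ b : intRing K x, algebraMap (intRing K x) F b ∈ v.toValuationSubring := by
  constructor
  · exact fun hv => intRing_le_of_mem v hv
  · intro h
    have hx : x ∈ intRing K x := by
      have : IsIntegral (polyRing K x) (algebraMap (polyRing K x) F (genA K x)) :=
        isIntegral_algebraMap
      exact this
    exact h ⟨x, hx⟩

/-- **`A₀` is the integral closure of `K[x]` in `F`.** -/
theorem mem_ringFin_iff_isIntegral (hx : IsGen K x) {f : F} :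
    f ∈ ringFin K x ↔ IsIntegral (Algebra.adjoin K {x}) f := by
  haveI := isDedekindDomain_intRing hx
  haveI := isFractionRing_intRing hx
  rw [mem_ringFin_iff_mem_range (B := intRing K x) (mem_iff_intRing_le x)]
  constructor
  · rintro ⟨b, rfl⟩
    exact b.2
  · intro hf
    exact ⟨⟨f, hf⟩, rfl⟩

theorem isGen_inv (hx : IsGen K x) : IsGen K x⁻¹ := by
  apply (Fermat.Agent.X0.FFGenus.ff1Data hx).isGen_of_transcendental
  intro h
  apply hx.transcendental
  have := h.inv
  rwa [inv_inv] at this

/-- **`A₁` is the integral closure of `K[x⁻¹]` in `F`.** -/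
theorem mem_ringInf_iff_isIntegral (hx : IsGen K x) {f : F} :
    f ∈ ringInf K x ↔ IsIntegral (Algebra.adjoin K {x⁻¹}) f :=
  mem_ringFin_iff_isIntegral (isGen_inv hx)

/-- `A₀₁ = A₀ ⊔ A₁`. -/
theorem ringFin_sup_ringInf_of_isGen (hx : IsGen K x) :
    ringFin K x ⊔ ringInf K x = ringBoth K x :=
  ringFin_sup_ringInf (Fermat.Agent.X0.FFGenus.ff1Data hx) hx.ne_zero

/-- Transport of the Čech quotient along equalities of the submodules. -/
theorem finrank_quot_congr {M M' N N' : Submodule K F} (hM : M = M') (hN : N = N') :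
    Module.finrank K (↥M ⧸ N.comap M.subtype) = Module.finrank K (↥M' ⧸ N'.comap M'.subtype) := by
  subst hM
  subst hN
  rfl

/-- The adelic genus, in terms of the three rings. -/
theorem genusFF_eq_finrank_rings (hx : IsGen K x) :
    genusFF K F = Module.finrank K
      (↥(Subalgebra.toSubmodule (ringBoth K x)) ⧸
        (Subalgebra.toSubmodule (ringFin K x) ⊔ Subalgebra.toSubmodule (ringInf K x)).comap
          (Subalgebra.toSubmodule (ringBoth K x)).subtype) := by
  rw [genusFF_eq_finrank hx]
  exact finrank_quot_congr (toSubmodule_ringBoth x).symm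
    (by rw [toSubmodule_ringFin, toSubmodule_ringInf])

/-- **The genus is `dim_K A₀₁ / (A₀ + A₁)`**, for any subalgebras `A₀`, `A₁` of `F` consisting of
the elements integral over `K[x]`, resp. `K[x⁻¹]`; `A₀₁ := A₀ ⊔ A₁` is their compositum. -/
theorem genusFF_eq_finrank_of_subalgebras (hx : IsGen K x) (A0 A1 : Subalgebra K F)
    (h0 : ∀ f : F, f ∈ A0 ↔ IsIntegral (Algebra.adjoin K {x}) f)
    (h1 : ∀ f : F, f ∈ A1 ↔ IsIntegral (Algebra.adjoin K {x⁻¹}) f) :
    genusFF K F = Module.finrank K
      (↥(Subalgebra.toSubmodule (A0 ⊔ A1)) ⧸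
        (Subalgebra.toSubmodule A0 ⊔ Subalgebra.toSubmodule A1).comap
          (Subalgebra.toSubmodule (A0 ⊔ A1)).subtype) := by
  have e0 : A0 = ringFin K x := by
    ext f; rw [h0, mem_ringFin_iff_isIntegral hx]
  have e1 : A1 = ringInf K x := by
    ext f; rw [h1, mem_ringInf_iff_isIntegral hx]
  subst e0
  subst e1
  rw [ringFin_sup_ringInf_of_isGen hx]
  exact genusFF_eq_finrank_rings hx

end Gen

/-! ### Variant for integrally closed subalgebras -/

section Closed

variable [IsAlgClosed K] [CharZero K] {x : F}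

/-- An integrally closed subalgebra `A` of `F` with fraction field `F`, containing `y` and integral
over `K[y]`, consists exactly of the elements of `F` integral over `K[y]`. -/
theorem mem_iff_isIntegral_of_integrallyClosed (A : Subalgebra K F) [IsIntegrallyClosed ↥A]
    [IsFractionRing ↥A F] {y : F} (hyA : y ∈ A)
    (hint : ∀ a ∈ A, IsIntegral (Algebra.adjoin K {y}) a) (f : F) :
    f ∈ A ↔ IsIntegral (Algebra.adjoin K {y}) f := by
  constructor
  · exact hint f
  · intro hf
    have hle : Algebra.adjoin K {y} ≤ A := Algebra.adjoin_le (by simpa using hyA)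
    obtain ⟨p, hmonic, hp⟩ := hf
    let φ : ↥(Algebra.adjoin K {y}) →+* ↥A := (Subalgebra.inclusion hle).toRingHom
    have h1 : IsIntegral ↥A f := by
      refine ⟨p.map φ, hmonic.map φ, ?_⟩
      rw [Polynomial.eval₂_map]
      exact hp
    obtain ⟨a, ha⟩ := (IsIntegrallyClosed.isIntegral_iff (R := ↥A) (K := F)).mp h1
    rw [← ha]
    exact a.2

/-- **The genus is `dim_K A₀₁ / (A₀ + A₁)`** for a two-chart presentation by integrally closed
subalgebras `A₀ ∋ x`, `A₁ ∋ x⁻¹` of `F` with fraction field `F`, integral over `K[x]`, `K[x⁻¹]`. -/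
theorem genusFF_eq_finrank_of_integrallyClosed (hx : IsGen K x) (A0 A1 : Subalgebra K F)
    [IsIntegrallyClosed ↥A0] [IsFractionRing ↥A0 F] [IsIntegrallyClosed ↥A1] [IsFractionRing ↥A1 F]
    (hx0 : x ∈ A0) (hx1 : x⁻¹ ∈ A1)
    (hint0 : ∀ a ∈ A0, IsIntegral (Algebra.adjoin K {x}) a)
    (hint1 : ∀ a ∈ A1, IsIntegral (Algebra.adjoin K {x⁻¹}) a) :
    genusFF K F = Module.finrank K
      (↥(Subalgebra.toSubmodule (A0 ⊔ A1)) ⧸
        (Subalgebra.toSubmodule A0 ⊔ Subalgebra.toSubmodule A1).comap
          (Subalgebra.toSubmodule (A0 ⊔ A1)).subtype) :=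
  genusFF_eq_finrank_of_subalgebras hx A0 A1
    (mem_iff_isIntegral_of_integrallyClosed A0 hx0 hint0)
    (mem_iff_isIntegral_of_integrallyClosed A1 hx1 hint1)

end Closed

end Fermat.Agent.JAC.FF.CechRings9
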