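/-
Programme JAC, S27 track (helper9), Mathlib only: membership in a nonzero fractional ideal of a
Dedekind domain by the adic valuations,

  `f ∈ I ↔ ∀ v, v.valuation K f ≤ exp (-(count K v I))`,

comparison of fractional ideals by exponents, and the ideal `∏ v ^ e(v)` of a finitely supported
exponent function (`idealOfExps`), with `f ∈ idealOfExps K e ↔ ∀ v, |f|_v ≤ exp (-e v)`.
-/
import Mathlib

set_option autoImplicit false

open scoped nonZeroDivisors
open IsDedekindDomain IsDedekindDomain.HeightOneSpectrum WithZero

namespace Fermat.Agent.JAC.FF.FracVal9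

variable {R : Type*} [CommRing R] [IsDedekindDomain R] {K : Type*} [Field K] [Algebra R K]
  [IsFractionRing R K]

/-- Membership in a nonzero integral ideal, by valuations. -/
theorem mem_ideal_iff_forall_intValuation_le {J : Ideal R} (hJ : J ≠ 0) (r : R) :
    r ∈ J ↔ ∀ v : HeightOneSpectrum R, v.intValuation r ≤
      exp (-((Associates.mk v.asIdeal).count (Associates.mk J).factors : ℤ)) := by
  conv_lhs => rw [← Ideal.iInf_maxPowDividing_eq hJ]
  rw [Ideal.mem_iInf]
  refine forall_congr' fun v => ?_
  rw [intValuation_le_pow_iff_mem]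
  rfl

/-- **Membership in a nonzero fractional ideal of a Dedekind domain, by valuations.** -/
theorem mem_iff_forall_valuation_le {I : FractionalIdeal R⁰ K} (hI : I ≠ 0) (f : K) :
    f ∈ I ↔ ∀ v : HeightOneSpectrum R,
      v.valuation K f ≤ exp (-(FractionalIdeal.count K v I)) := by
  obtain ⟨a, J, ha, haJ⟩ := FractionalIdeal.exists_eq_spanSingleton_mul I
  have hJ : J ≠ 0 := FractionalIdeal.ideal_factor_ne_zero hI haJ
  have haK : algebraMap R K a ≠ 0 := by
    rwa [Ne, IsFractionRing.to_map_eq_zero_iff]
  have hcount : ∀ v : HeightOneSpectrum R, FractionalIdeal.count K v I =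
      ((Associates.mk v.asIdeal).count (Associates.mk J).factors -
        (Associates.mk v.asIdeal).count (Associates.mk (Ideal.span {a})).factors : ℤ) :=
    fun v => FractionalIdeal.count_well_defined K v hI haJ
  have hvala : ∀ v : HeightOneSpectrum R, v.valuation K (algebraMap R K a) =
      exp (-((Associates.mk v.asIdeal).count (Associates.mk (Ideal.span {a})).factors : ℤ)) := by
    intro v
    rw [valuation_of_algebraMap, intValuation_if_neg v ha]
  -- `f ∈ I ↔ a f ∈ J`
  have hmem : f ∈ I ↔ ∃ r ∈ J, algebraMap R K r = algebraMap R K a * f := by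
    rw [haJ, FractionalIdeal.mem_singleton_mul]
    constructor
    · rintro ⟨y, hy, rfl⟩
      obtain ⟨r, hr, rfl⟩ := (FractionalIdeal.mem_coeIdeal _).mp hy
      exact ⟨r, hr, by rw [mul_inv_cancel_left₀ haK]⟩
    · rintro ⟨r, hr, hrf⟩
      refine ⟨algebraMap R K r, (FractionalIdeal.mem_coeIdeal _).mpr ⟨r, hr, rfl⟩, ?_⟩
      rw [hrf, inv_mul_cancel_left₀ haK]
  -- the valuation inequality for `f` and for `a f`
  have hineq : ∀ v : HeightOneSpectrum R,
      v.valuation K f ≤ exp (-(FractionalIdeal.count K v I)) ↔
      v.valuation K (algebraMap R K a * f) ≤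
        exp (-((Associates.mk v.asIdeal).count (Associates.mk J).factors : ℤ)) := by
    intro v
    rw [map_mul, hvala v, hcount v]
    have hexp : exp (-((Associates.mk v.asIdeal).count (Associates.mk J).factors : ℤ)) =
        exp (-((Associates.mk v.asIdeal).count (Associates.mk (Ideal.span {a})).factors : ℤ)) *
        exp (-(((Associates.mk v.asIdeal).count (Associates.mk J).factors : ℤ) -
          ((Associates.mk v.asIdeal).count (Associates.mk (Ideal.span {a})).factors : ℤ))) := by
      rw [← exp_add]
      congr 1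
      ring
    rw [hexp]
    exact (mul_le_mul_iff_right₀ (by simp)).symm
  rw [hmem]
  constructor
  · rintro ⟨r, hr, hrf⟩ v
    rw [hineq v, ← hrf, valuation_of_algebraMap]
    exact (mem_ideal_iff_forall_intValuation_le hJ r).mp hr v
  · intro h
    have h1 : ∀ v : HeightOneSpectrum R, v.valuation K (algebraMap R K a * f) ≤ 1 := by
      intro v
      refine ((hineq v).mp (h v)).trans ?_
      rw [← exp_zero, exp_le_exp]
      omega
    obtain ⟨r, hr⟩ := mem_integers_of_valuation_le_one K _ h1
    refine ⟨r, ?_, hr⟩
    rw [mem_ideal_iff_forall_intValuation_le hJ]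
    intro v
    have h2 := (hineq v).mp (h v)
    rw [← hr, valuation_of_algebraMap] at h2
    exact h2

/-- Comparison of nonzero fractional ideals by their exponents. -/
theorem le_iff_forall_count_le {I J : FractionalIdeal R⁰ K} (hI : I ≠ 0) (hJ : J ≠ 0) :
    I ≤ J ↔ ∀ v : HeightOneSpectrum R,
      FractionalIdeal.count K v J ≤ FractionalIdeal.count K v I := by
  constructor
  · intro h v
    exact FractionalIdeal.count_mono K v hI h
  · intro h f hf
    rw [mem_iff_forall_valuation_le hJ]
    intro v
    refine ((mem_iff_forall_valuation_le hI f).mp hf v).trans ?_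
    rw [exp_le_exp]
    have := h v
    omega

/-- A nonzero fractional ideal of a Dedekind domain is determined by its exponents. -/
theorem eq_of_forall_count_eq {I J : FractionalIdeal R⁰ K} (hI : I ≠ 0) (hJ : J ≠ 0)
    (h : ∀ v : HeightOneSpectrum R, FractionalIdeal.count K v I = FractionalIdeal.count K v J) :
    I = J :=
  le_antisymm ((le_iff_forall_count_le hI hJ).mpr fun v => (h v).ge)
    ((le_iff_forall_count_le hJ hI).mpr fun v => (h v).le)

/-- The fractional ideal `∏ v ^ e(v)` attached to a finitely supported exponent function. -/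
noncomputable def idealOfExps (K : Type*) [Field K] [Algebra R K] [IsFractionRing R K]
    (e : HeightOneSpectrum R →₀ ℤ) : FractionalIdeal R⁰ K :=
  e.prod fun w n => (w.asIdeal : FractionalIdeal R⁰ K) ^ n

theorem idealOfExps_ne_zero (e : HeightOneSpectrum R →₀ ℤ) : idealOfExps K e ≠ 0 := by
  unfold idealOfExps Finsupp.prod
  rw [Finset.prod_ne_zero_iff]
  intro w _
  exact zpow_ne_zero _ (FractionalIdeal.coeIdeal_ne_zero.mpr w.ne_bot)

theorem count_idealOfExps (e : HeightOneSpectrum R →₀ ℤ) (v : HeightOneSpectrum R) :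
    FractionalIdeal.count K v (idealOfExps K e) = e v :=
  FractionalIdeal.count_finsuppProd K v e

/-- `f ∈ ∏ v ^ e(v) ↔ ∀ v, |f|_v ≤ exp (-e(v))`. -/
theorem mem_idealOfExps_iff (e : HeightOneSpectrum R →₀ ℤ) (f : K) :
    f ∈ idealOfExps K e ↔ ∀ v : HeightOneSpectrum R, v.valuation K f ≤ exp (-(e v)) := by
  rw [mem_iff_forall_valuation_le (idealOfExps_ne_zero e)]
  simp_rw [count_idealOfExps]

/-- Every nonzero fractional ideal is `∏ v ^ count_v`. -/
theorem exists_exps_eq {I : FractionalIdeal R⁰ K} (hI : I ≠ 0) :
    ∃ e : HeightOneSpectrum R →₀ ℤ, idealOfExps K e = I ∧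
      ∀ v, e v = FractionalIdeal.count K v I := by
  have hfin : (Function.support fun v : HeightOneSpectrum R =>
      FractionalIdeal.count K v I).Finite := by
    have := FractionalIdeal.finite_factors I
    rw [Filter.eventually_cofinite] at this
    exact this
  refine ⟨Finsupp.ofSupportFinite _ hfin, ?_, fun v => rfl⟩
  apply eq_of_forall_count_eq (idealOfExps_ne_zero _) hI
  intro v
  rw [count_idealOfExps]
  rfl

end Fermat.Agent.JAC.FF.FracVal9
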