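/-
Programme JAC, S27 track (helper9): the lattices `I₀(D)` (`CechAdelic9.latFin x D`) of a function
field are exactly the nonzero fractional ideals of a Dedekind model `B` of the chart `{x finite}`:

  `latFin x D = ∏ w ^ (-D(w))`  (`idealOfDiv`),     `I = latFin x (divOfIdeal I)`,

with `idealOfDiv (D + D') = idealOfDiv D * idealOfDiv D'`, `idealOfDiv 0 = 1`.
Here `B` is any Dedekind `K`-algebra with fraction field `F` such that the places of `F / K` where
`x` is finite are the places centred on `B` (e.g. the integral closure of `K[x]`, see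
`CechRings9.mem_iff_intRing_le`, or any integrally closed subalgebra integral over `K[x]`,
`mem_iff_subalgebra_le` below).
-/
import Mathlib
import Fermat.Agent.JAC.FF.CechRings9
import Fermat.Agent.JAC.FF.FracVal9

set_option autoImplicit false
set_option linter.unusedSectionVars false

open AlgebraicCurve WithZero IsDedekindDomain
open scoped nonZeroDivisors

namespace Fermat.Agent.JAC.FF.LatIdeal9

open Fermat.Agent.X0.FF Fermat.Agent.X0.FFDedekind
open Fermat.Agent.JAC.FF.CechAdelic9 Fermat.Agent.JAC.FF.CechRings9 Fermat.Agent.JAC.FF.FracVal9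

variable {K F : Type*} [Field K] [Field F] [Algebra K F]

/-! ### Charts given by integrally closed subalgebras (any characteristic) -/

/-- If `A` is a subalgebra of `F` containing `x` and integral over `K[x]`, the places where `x` is
finite are the places centred on `A`. -/
theorem mem_iff_subalgebra_le (A : Subalgebra K F) {x : F} (hxA : x ∈ A)
    (hint : ∀ a ∈ A, IsIntegral (Algebra.adjoin K {x}) a) (v : Place K F) :
    x ∈ v.toValuationSubring ↔ ∀ b : A, algebraMap A F b ∈ v.toValuationSubring := by
  constructor
  · intro hv b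
    have hA : ∀ a : Algebra.adjoin K {x}, algebraMap (Algebra.adjoin K {x}) F a ∈
        v.toValuationSubring := by
      intro a
      have h1 : Algebra.adjoin K {x} ≤ placeSubalgebra v :=
        Algebra.adjoin_le (by simpa using hv)
      exact h1 a.2
    exact mem_of_isIntegral_of_algebraMap_mem v hA (hint b b.2)
  · intro h
    exact h ⟨x, hxA⟩

section Dedekind

variable (B : Type*) [CommRing B] [IsDedekindDomain B] [Algebra B F] [IsFractionRing B F]
  [Algebra K B] [IsScalarTower K B F]

/-- Restriction of a divisor of `F / K` to the height-one primes of `B`. -/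
noncomputable def resDiv (D : Divisor K F) : HeightOneSpectrum B →₀ ℤ :=
  Finsupp.comapDomain (Place.ofHeightOneSpectrum (K := K) (F := F) (R := B)) D
    (ofHeightOneSpectrum_injective (K := K) (F := F) (B := B)).injOn

@[simp] theorem resDiv_apply (D : Divisor K F) (w : HeightOneSpectrum B) :
    resDiv B D w = D (Place.ofHeightOneSpectrum (K := K) (F := F) w) :=
  Finsupp.comapDomain_apply _ _ _ _

theorem resDiv_add (D D' : Divisor K F) : resDiv B (D + D') = resDiv B D + resDiv B D' := by
  ext w
  simp

theorem resDiv_zero : resDiv B (0 : Divisor K F) = 0 := by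
  ext w
  simp

/-- The fractional ideal `∏ w ^ (-D(w))` of `B` attached to a divisor. -/
noncomputable def idealOfDiv (D : Divisor K F) : FractionalIdeal B⁰ F :=
  idealOfExps F (-(resDiv B D))

theorem idealOfDiv_ne_zero (D : Divisor K F) : idealOfDiv B D ≠ 0 := idealOfExps_ne_zero _

theorem count_idealOfDiv (D : Divisor K F) (w : HeightOneSpectrum B) :
    FractionalIdeal.count F w (idealOfDiv B D) =
      -(D (Place.ofHeightOneSpectrum (K := K) (F := F) w)) := by
  unfold idealOfDiv
  rw [count_idealOfExps, Finsupp.neg_apply, resDiv_apply]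

variable {B}

/-- **`I₀(D)` is the fractional ideal `∏ w ^ (-D(w))`.** -/
theorem mem_idealOfDiv_iff {x : F}
    (hB : ∀ v : Place K F, x ∈ v.toValuationSubring ↔
      ∀ b : B, algebraMap B F b ∈ v.toValuationSubring)
    (D : Divisor K F) (f : F) : f ∈ idealOfDiv B D ↔ f ∈ latFin x D := by
  unfold idealOfDiv
  rw [mem_idealOfExps_iff, mem_latFin_iff_valuation hB]
  refine forall_congr' fun w => ?_
  rw [Finsupp.neg_apply, resDiv_apply, neg_neg]

/-- The same, as an equality of `K`-subspaces of `F`. -/
theorem restrictScalars_idealOfDiv {x : F}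
    (hB : ∀ v : Place K F, x ∈ v.toValuationSubring ↔
      ∀ b : B, algebraMap B F b ∈ v.toValuationSubring)
    (D : Divisor K F) :
    ((idealOfDiv B D : FractionalIdeal B⁰ F) : Submodule B F).restrictScalars K = latFin x D := by
  ext f
  rw [Submodule.restrictScalars_mem, FractionalIdeal.mem_coe]
  exact mem_idealOfDiv_iff hB D f

theorem idealOfDiv_add (D D' : Divisor K F) :
    idealOfDiv B (D + D') = idealOfDiv B D * idealOfDiv B D' := by
  apply eq_of_forall_count_eq (idealOfDiv_ne_zero B _)
    (mul_ne_zero (a := idealOfDiv (K := K) (F := F) B D) (b := idealOfDiv B D')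
      (idealOfDiv_ne_zero B _) (idealOfDiv_ne_zero B _))
  intro w
  rw [FractionalIdeal.count_mul F w (idealOfDiv_ne_zero B _) (idealOfDiv_ne_zero B _),
    count_idealOfDiv, count_idealOfDiv, count_idealOfDiv, Finsupp.add_apply]
  ring

theorem idealOfDiv_zero : idealOfDiv B (0 : Divisor K F) = 1 := by
  apply eq_of_forall_count_eq (idealOfDiv_ne_zero B _)
    (one_ne_zero (α := FractionalIdeal B⁰ F))
  intro w
  rw [count_idealOfDiv, FractionalIdeal.count_one, Finsupp.zero_apply, neg_zero]

theorem idealOfDiv_neg (D : Divisor K F) : idealOfDiv B (-D) = (idealOfDiv B D)⁻¹ := by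
  apply eq_of_forall_count_eq (idealOfDiv_ne_zero B _)
    (inv_ne_zero (idealOfDiv_ne_zero B _))
  intro w
  rw [FractionalIdeal.count_inv, count_idealOfDiv, count_idealOfDiv, Finsupp.neg_apply]

/-- Two divisors give the same fractional ideal iff they agree on the chart. -/
theorem idealOfDiv_eq_iff (D D' : Divisor K F) :
    idealOfDiv B D = idealOfDiv B D' ↔ ∀ w : HeightOneSpectrum B,
      D (Place.ofHeightOneSpectrum (K := K) (F := F) w) =
        D' (Place.ofHeightOneSpectrum (K := K) (F := F) w) := by
  constructor
  · intro h w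
    have := congrArg (FractionalIdeal.count F w) h
    rw [count_idealOfDiv, count_idealOfDiv] at this
    omega
  · intro h
    apply eq_of_forall_count_eq (idealOfDiv_ne_zero B _) (idealOfDiv_ne_zero B _)
    intro w
    rw [count_idealOfDiv, count_idealOfDiv, h w]

variable (K) in
/-- The divisor (supported on the chart of `B`) of a fractional ideal: `D(w) = -count_w I`. -/
noncomputable def divOfIdeal (I : FractionalIdeal B⁰ F) : Divisor K F :=
  Finsupp.mapDomain (Place.ofHeightOneSpectrum (K := K) (F := F) (R := B))
    (-(Finsupp.ofSupportFinite (fun w : HeightOneSpectrum B => FractionalIdeal.count F w I)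
      (by
        have := FractionalIdeal.finite_factors I
        rw [Filter.eventually_cofinite] at this
        exact this)))

theorem divOfIdeal_apply (I : FractionalIdeal B⁰ F) (w : HeightOneSpectrum B) :
    divOfIdeal K I (Place.ofHeightOneSpectrum (K := K) (F := F) w) =
      -(FractionalIdeal.count F w I) := by
  unfold divOfIdeal
  rw [Finsupp.mapDomain_apply (ofHeightOneSpectrum_injective (K := K) (F := F) (B := B))]
  rfl

theorem divOfIdeal_apply_of_not_mem (I : FractionalIdeal B⁰ F) {v : Place K F}
    (hv : ¬ ∀ b : B, algebraMap B F b ∈ v.toValuationSubring) : divOfIdeal K I v = 0 := by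
  unfold divOfIdeal
  apply Finsupp.mapDomain_of_notMem_range
  rintro ⟨w, rfl⟩
  exact hv (algebraMap_mem_ofHeightOneSpectrum w)

/-- Every nonzero fractional ideal of `B` is the ideal of its divisor. -/
theorem idealOfDiv_divOfIdeal {I : FractionalIdeal B⁰ F} (hI : I ≠ 0) :
    idealOfDiv B (divOfIdeal K I) = I := by
  apply eq_of_forall_count_eq (idealOfDiv_ne_zero B _) hI
  intro w
  rw [count_idealOfDiv, divOfIdeal_apply, neg_neg]

/-- **Every nonzero fractional ideal of `B` is a lattice `I₀(D)`.** -/
theorem mem_latFin_divOfIdeal_iff {x : F}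
    (hB : ∀ v : Place K F, x ∈ v.toValuationSubring ↔
      ∀ b : B, algebraMap B F b ∈ v.toValuationSubring)
    {I : FractionalIdeal B⁰ F} (hI : I ≠ 0) (f : F) :
    f ∈ latFin x (divOfIdeal K I) ↔ f ∈ I := by
  rw [← mem_idealOfDiv_iff hB, idealOfDiv_divOfIdeal hI]

end Dedekind

end Fermat.Agent.JAC.FF.LatIdeal9
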