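/-
Programme JAC, S27 track, brick C1b (helper9): the two-chart algebra data of a function field
`F / K` with a transcendental generator `x` (`K` algebraically closed of characteristic zero):

  `A₀ = ringFin K x`, `A₁ = ringInf K x`, `A₀₁ = ringBoth K x` (subalgebras of `F`, `CechRings9`)

are Dedekind domains with fraction field `F`; `A₀₁ = A₀[1/x] = A₁[1/x⁻¹]` (`IsLocalization.Away`
for the inclusion algebra structures); `A₀ ∩ A₁ = K`; the chart dictionary
`f ∈ idealOfDiv B D ↔ f is D-integral at the places centred on B` without reference to a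
coordinate; and `xⁿ f ∈ I₀(D)` for `f ∈ I₀₁(D)`, `n ≫ 0`.
-/
import Mathlib
import Fermat.Agent.JAC.FF.LatIdeal9

set_option autoImplicit false
set_option linter.unusedSectionVars false

open AlgebraicCurve WithZero IsDedekindDomain
open scoped nonZeroDivisors

namespace Fermat.Agent.JAC.FF.ChartAlg9

open Fermat.Agent.X0.FF Fermat.Agent.X0.FFDedekind
open Fermat.Agent.JAC.FF.CechAdelic9 Fermat.Agent.JAC.FF.CechRings9 Fermat.Agent.JAC.FF.FracVal9
open Fermat.Agent.JAC.FF.LatIdeal9

variable {K F : Type*} [Field K] [Field F] [Algebra K F]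

/-! ### The chart of a Dedekind model, without reference to a coordinate -/

section Chart

variable (K) (B : Type*) [CommRing B] [IsDedekindDomain B] [Algebra B F] [IsFractionRing B F]
  [Algebra K B] [IsScalarTower K B F]

/-- The set of places of `F / K` centred on `B`. -/
def chartSet : Set (Place K F) := {v | ∀ b : B, algebraMap B F b ∈ v.toValuationSubring}

variable {K B}

theorem mem_chartSet {v : Place K F} :
    v ∈ chartSet K B ↔ ∀ b : B, algebraMap B F b ∈ v.toValuationSubring := Iff.rfl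

theorem ofHeightOneSpectrum_mem_chartSet (w : HeightOneSpectrum B) :
    Place.ofHeightOneSpectrum (K := K) (F := F) w ∈ chartSet K B :=
  algebraMap_mem_ofHeightOneSpectrum w

/-- **Chart dictionary**: the fractional ideal `∏ w ^ (-D(w))` of `B` consists of the functions
which are `D`-integral at all places centred on `B`. -/
theorem mem_idealOfDiv_iff_chart (D : Divisor K F) (f : F) :
    f ∈ idealOfDiv B D ↔ ∀ v ∈ chartSet K B, v.adicValuation f ≤ exp (D v) := by
  unfold idealOfDiv
  rw [mem_idealOfExps_iff]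
  constructor
  · intro h v hv
    have h1 := h (centreSpec v hv)
    rw [Finsupp.neg_apply, resDiv_apply, neg_neg, ofHeightOneSpectrum_centreSpec v hv] at h1
    have h2 := adicValuation_ofHeightOneSpectrum (K := K) (centreSpec v hv) f
    rw [ofHeightOneSpectrum_centreSpec v hv] at h2
    rw [h2]
    exact h1
  · intro h w
    rw [Finsupp.neg_apply, resDiv_apply, neg_neg,
      ← adicValuation_ofHeightOneSpectrum (K := K) w f]
    exact h _ (ofHeightOneSpectrum_mem_chartSet w)

end Chart

/-! ### The charts of the three rings -/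

theorem exists_pow_mul_mem_latFin (H : FF1Data K F) {x f : F} (hx0 : x ≠ 0) (D : Divisor K F)
    (hf : f ∈ latBoth x D) : ∃ n : ℕ, x ^ n * f ∈ latFin x D := by
  rcases eq_or_ne f 0 with rfl | hf0
  · exact ⟨0, by rw [mul_zero]; exact zero_mem _⟩
  have hfin : {v : Place K F | v.ord f < -D v}.Finite := by
    refine ((ffq_finite_support_ord H hf0).union D.support.finite_toSet).subset fun v hv => ?_
    by_contra hcon
    rw [Set.mem_union, not_or] at hcon
    have h1 : v.ord f = 0 := by
      by_contra h; exact hcon.1 h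
    have h2 : D v = 0 := by
      by_contra h
      exact hcon.2 (Finset.mem_coe.mpr (Finsupp.mem_support_iff.mpr h))
    have : v.ord f < -D v := hv
    rw [h1, h2] at this
    exact lt_irrefl _ this
  refine ⟨∑ v ∈ hfin.toFinset, (-D v - v.ord f).toNat, fun v hv => ?_⟩
  have hxn : x ^ (∑ v ∈ hfin.toFinset, (-D v - v.ord f).toNat) ≠ 0 := pow_ne_zero _ hx0
  rw [v.adicValuation_le_exp_iff]
  right
  rw [v.ord_mul hxn hf0, Fermat.Agent.X0.FF.ord_pow]
  have hx_nonneg : 0 ≤ v.ord x := ffp_ord_nonneg_of_mem v hv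
  by_cases hneg : v.ord f < -D v
  · have hx_pos : 0 < v.ord x := by
      rcases lt_or_eq_of_le hx_nonneg with h | h
      · exact h
      · exfalso
        have hinv : x⁻¹ ∈ v.toValuationSubring := by
          apply ffp_mem_of_ord_nonneg
          rw [v.ord_inv, ← h]
          simp
        have h3 := (v.adicValuation_le_exp_iff).mp (hf v hv hinv)
        rcases h3 with h3 | h3
        · exact hf0 h3
        · omega
    have hle : (-D v - v.ord f).toNat ≤ ∑ w ∈ hfin.toFinset, (-D w - w.ord f).toNat :=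
      Finset.single_le_sum (f := fun w : Place K F => (-D w - w.ord f).toNat)
        (fun _ _ => Nat.zero_le _) (hfin.mem_toFinset.mpr hneg)
    have h1 : -D v - v.ord f ≤ ((-D v - v.ord f).toNat : ℤ) := Int.self_le_toNat _
    have h2 : ((-D v - v.ord f).toNat : ℤ) ≤
        ((∑ w ∈ hfin.toFinset, (-D w - w.ord f).toNat : ℕ) : ℤ) := by exact_mod_cast hle
    have h3 : ((∑ w ∈ hfin.toFinset, (-D w - w.ord f).toNat : ℕ) : ℤ) ≤
        ((∑ w ∈ hfin.toFinset, (-D w - w.ord f).toNat : ℕ) : ℤ) * v.ord x := by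
      have : (0 : ℤ) ≤ ((∑ w ∈ hfin.toFinset, (-D w - w.ord f).toNat : ℕ) : ℤ) :=
        Int.natCast_nonneg _
      nlinarith
    linarith
  · have h0 : -D v ≤ v.ord f := not_lt.mp hneg
    have : (0 : ℤ) ≤ ((∑ w ∈ hfin.toFinset, (-D w - w.ord f).toNat : ℕ) : ℤ) * v.ord x :=
      mul_nonneg (Int.natCast_nonneg _) hx_nonneg
    linarith

/-! ### Localisation of subalgebras of a field -/

/-- If `A ⊆ C` are subalgebras of a field, `t ∈ A` is invertible in `C` and every element of `C`
is carried into `A` by a power of `t`, then `C = A[1/t]`. -/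
theorem isLocalization_away_of_subalgebra {A C : Subalgebra K F} [Algebra ↥A ↥C]
    (hcoe : ∀ a : A, ((algebraMap ↥A ↥C a : ↥C) : F) = (a : F)) (t : A) (ht0 : (t : F) ≠ 0)
    (ht : (t : F)⁻¹ ∈ C) (hpow : ∀ c : C, ∃ n : ℕ, (t : F) ^ n * (c : F) ∈ A) :
    IsLocalization.Away t ↥C := by
  have hinj : Function.Injective (algebraMap ↥A ↥C) := by
    intro a b hab
    apply Subtype.ext
    rw [← hcoe a, ← hcoe b, hab]
  have hunit : IsUnit (algebraMap ↥A ↥C t) := by
    refine IsUnit.of_mul_eq_one ⟨(t : F)⁻¹, ht⟩ ?_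
    apply Subtype.ext
    rw [MulMemClass.coe_mul, hcoe, OneMemClass.coe_one]
    exact mul_inv_cancel₀ ht0
  rw [IsLocalization.Away, isLocalization_iff]
  refine ⟨?_, ?_, ?_⟩
  · rintro ⟨y, n, rfl⟩
    rw [map_pow]
    exact hunit.pow n
  · intro z
    obtain ⟨n, hn⟩ := hpow z
    refine ⟨(⟨(t : F) ^ n * (z : F), hn⟩, ⟨t ^ n, n, rfl⟩), ?_⟩
    apply Subtype.ext
    rw [MulMemClass.coe_mul, hcoe, hcoe]
    simp only [SubmonoidClass.coe_pow]
    ring
  · intro a b hab
    exact ⟨1, by rw [hinj hab]⟩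

/-! ### The three rings as Dedekind domains -/

/-- The coordinate `t = x` of the finite chart. -/
def tFin (K : Type*) {F : Type*} [Field K] [Field F] [Algebra K F] (x : F) : ↥(ringFin K x) :=
  ⟨x, self_mem_ringFin x⟩

/-- The coordinate `s = x⁻¹` of the chart at infinity. -/
def sInf (K : Type*) {F : Type*} [Field K] [Field F] [Algebra K F] (x : F) : ↥(ringInf K x) :=
  ⟨x⁻¹, inv_mem_ringInf x⟩

noncomputable instance algebraFinBoth (x : F) : Algebra ↥(ringFin K x) ↥(ringBoth K x) :=
  (Subalgebra.inclusion (ringFin_le_ringBoth x)).toRingHom.toAlgebra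

noncomputable instance algebraInfBoth (x : F) : Algebra ↥(ringInf K x) ↥(ringBoth K x) :=
  (Subalgebra.inclusion (ringInf_le_ringBoth x)).toRingHom.toAlgebra

theorem coe_algebraMap_finBoth (x : F) (a : ↥(ringFin K x)) :
    ((algebraMap ↥(ringFin K x) ↥(ringBoth K x) a : ↥(ringBoth K x)) : F) = (a : F) := rfl

theorem coe_algebraMap_infBoth (x : F) (a : ↥(ringInf K x)) :
    ((algebraMap ↥(ringInf K x) ↥(ringBoth K x) a : ↥(ringBoth K x)) : F) = (a : F) := rfl

instance isScalarTower_finBoth (x : F) : IsScalarTower ↥(ringFin K x) ↥(ringBoth K x) F :=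
  IsScalarTower.of_algebraMap_eq fun _ => rfl

instance isScalarTower_infBoth (x : F) : IsScalarTower ↥(ringInf K x) ↥(ringBoth K x) F :=
  IsScalarTower.of_algebraMap_eq fun _ => rfl

theorem ringBoth_inv (x : F) : ringBoth K x⁻¹ = ringBoth K x := by
  ext f
  rw [mem_ringBoth, mem_ringBoth, inv_inv]
  exact ⟨fun h v hv hv' => h v hv' hv, fun h v hv hv' => h v hv' hv⟩

/-- `A₀₁ = A₀[1/x]`. -/
theorem isLocalization_away_fin (H : FF1Data K F) {x : F} (hx0 : x ≠ 0) :
    IsLocalization.Away (tFin K x) ↥(ringBoth K x) :=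
  isLocalization_away_of_subalgebra (coe_algebraMap_finBoth x) (tFin K x) hx0
    (inv_mem_ringBoth x) fun c => exists_pow_mul_mem_ringFin H hx0 c.2

/-- `A₀₁ = A₁[1/x⁻¹]`. -/
theorem isLocalization_away_inf (H : FF1Data K F) {x : F} (hx0 : x ≠ 0) :
    IsLocalization.Away (sInf K x) ↥(ringBoth K x) := by
  refine isLocalization_away_of_subalgebra (coe_algebraMap_infBoth x) (sInf K x)
    (inv_ne_zero hx0) ?_ fun c => ?_
  · show (x⁻¹)⁻¹ ∈ ringBoth K x
    rw [inv_inv]
    exact self_mem_ringBoth x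
  · have hc : (c : F) ∈ ringBoth K x⁻¹ := by
      rw [ringBoth_inv]; exact c.2
    exact exists_pow_mul_mem_ringFin H (inv_ne_zero hx0) hc

/-! ### Charts of the three rings, global functions -/

theorem mem_chartSet_ringFin {x : F} (v : Place K F) :
    (∀ b : ↥(ringFin K x), algebraMap ↥(ringFin K x) F b ∈ v.toValuationSubring) ↔
      x ∈ v.toValuationSubring :=
  ⟨fun h => h ⟨x, self_mem_ringFin x⟩, fun hv b => b.2 v hv⟩

theorem mem_chartSet_ringInf {x : F} (v : Place K F) :
    (∀ b : ↥(ringInf K x), algebraMap ↥(ringInf K x) F b ∈ v.toValuationSubring) ↔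
      x⁻¹ ∈ v.toValuationSubring :=
  ⟨fun h => h ⟨x⁻¹, inv_mem_ringInf x⟩, fun hv b => b.2 v hv⟩

theorem mem_chartSet_ringBoth {x : F} (v : Place K F) :
    (∀ b : ↥(ringBoth K x), algebraMap ↥(ringBoth K x) F b ∈ v.toValuationSubring) ↔
      x ∈ v.toValuationSubring ∧ x⁻¹ ∈ v.toValuationSubring :=
  ⟨fun h => ⟨h ⟨x, self_mem_ringBoth x⟩, h ⟨x⁻¹, inv_mem_ringBoth x⟩⟩,
    fun hv b => b.2 v hv.1 hv.2⟩

/-- **`H⁰(C, O) = K`**: a function regular on both charts is constant. -/
theorem exists_eq_algebraMap_of_mem_inf (HL : Fermat.Agent.RR.LSpace.LHyp K F) {x f : F}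
    (h0 : f ∈ ringFin K x) (h1 : f ∈ ringInf K x) : ∃ c : K, f = algebraMap K F c := by
  have hf : f ∈ riemannRochSpace (0 : Divisor K F) := by
    rw [← toSubmodule_ringFin_inf_ringInf x]
    exact ⟨h0, h1⟩
  rw [Fermat.Agent.RR.LSpace.L_zero HL, Submodule.mem_span_singleton] at hf
  obtain ⟨c, rfl⟩ := hf
  exact ⟨c, by rw [Algebra.smul_def, mul_one]⟩

/-- `H⁰(C, O) = K` in the shape used by the two-chart formalism. -/
theorem exists_const_of_algebraMap_eq (HL : Fermat.Agent.RR.LSpace.LHyp K F) {x : F}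
    (a0 : ↥(ringFin K x)) (a1 : ↥(ringInf K x))
    (h : algebraMap ↥(ringFin K x) ↥(ringBoth K x) a0 =
      algebraMap ↥(ringInf K x) ↥(ringBoth K x) a1) :
    ∃ c : K, a0 = algebraMap K ↥(ringFin K x) c ∧ a1 = algebraMap K ↥(ringInf K x) c := by
  have h' : (a0 : F) = (a1 : F) := congrArg Subtype.val h
  obtain ⟨c, hc⟩ := exists_eq_algebraMap_of_mem_inf HL a0.2 (h' ▸ a1.2)
  exact ⟨c, Subtype.ext hc, Subtype.ext (h' ▸ hc)⟩

section Gen

variable [IsAlgClosed K] [CharZero K] {x : F}

theorem ringFin_eq_restrictScalars (hx : IsGen K x) :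
    ringFin K x = (intRing K x).restrictScalars K := by
  ext f
  rw [mem_ringFin_iff_isIntegral hx, Subalgebra.mem_restrictScalars]
  rfl

theorem isDedekindDomain_ringFin (hx : IsGen K x) : IsDedekindDomain ↥(ringFin K x) := by
  rw [ringFin_eq_restrictScalars hx]
  exact isDedekindDomain_intRing hx

theorem isFractionRing_ringFin (hx : IsGen K x) : IsFractionRing ↥(ringFin K x) F := by
  rw [ringFin_eq_restrictScalars hx]
  exact isFractionRing_intRing hx

theorem isDedekindDomain_ringInf (hx : IsGen K x) : IsDedekindDomain ↥(ringInf K x) :=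
  isDedekindDomain_ringFin (isGen_inv hx)

theorem isFractionRing_ringInf (hx : IsGen K x) : IsFractionRing ↥(ringInf K x) F :=
  isFractionRing_ringFin (isGen_inv hx)

theorem isDedekindDomain_ringBoth (hx : IsGen K x) : IsDedekindDomain ↥(ringBoth K x) := by
  have := isDedekindDomain_ringFin hx
  have := isLocalization_away_fin (Fermat.Agent.X0.FFGenus.ff1Data hx) hx.ne_zero
  refine IsLocalization.isDedekindDomain ↥(ringFin K x) (M := Submonoid.powers (tFin K x)) ?_
    ↥(ringBoth K x)
  apply Submonoid.powers_le.mpr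
  rw [mem_nonZeroDivisors_iff_ne_zero]
  intro h
  exact hx.ne_zero (congrArg Subtype.val h)

theorem isFractionRing_ringBoth (hx : IsGen K x) : IsFractionRing ↥(ringBoth K x) F := by
  have := isFractionRing_ringFin hx
  apply IsFractionRing.of_field
  intro z
  obtain ⟨a, b, _, hab⟩ := IsFractionRing.div_surjective (A := ↥(ringFin K x)) z
  exact ⟨algebraMap _ _ a, algebraMap _ _ b, hab.symm⟩

end Gen

end Fermat.Agent.JAC.FF.ChartAlg9
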