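/-
Programme JAC, S27 track, brick C1c (helper9): **regular ⇒ smooth** for curves over an
algebraically closed field.

  `smooth_of_isDedekindDomain`: a Dedekind domain `A` of finite type over an algebraically closed
  field `K` (any characteristic), not a field, is a smooth `K`-algebra.

Proof: the smooth locus is open, so it suffices to treat a maximal ideal `m`.  Pick `y ∈ A`
generating the maximal ideal of the discrete valuation ring `A_m` and view `A` as a `K[X]`-algebra
through `X ↦ y`: it is torsion-free, hence flat, and unramified at `m` (the residue field is `K` by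
the Nullstellensatz, and `(X) A_m = m A_m`), hence étale at `m`; so `A_m` is formally smooth over
`K[X]`, hence over `K`.
-/
import Mathlib
import Fermat.Agent.JAC.B2.SmoothAlg37

set_option autoImplicit false

open Polynomial IsLocalRing

namespace Fermat.Agent.JAC.FF.DedekindSmooth9

section Uniformizer

variable {A : Type*} [CommRing A] [IsDedekindDomain A]

/-- A generator of the maximal ideal of the local ring at `m`, taken from `A`. -/
theorem exists_uniformizer (m : Ideal A) [m.IsMaximal] (hm : m ≠ ⊥) :
    ∃ y ∈ m, Ideal.span {algebraMap A (Localization.AtPrime m) y} =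
      maximalIdeal (Localization.AtPrime m) := by
  have : IsDiscreteValuationRing (Localization.AtPrime m) :=
    IsLocalization.AtPrime.isDiscreteValuationRing_of_dedekind_domain A hm _
  obtain ⟨ϖ, hϖ⟩ := IsDiscreteValuationRing.exists_irreducible (Localization.AtPrime m)
  obtain ⟨a, s, rfl⟩ := IsLocalization.exists_mk'_eq m.primeCompl ϖ
  have hunit : IsUnit (algebraMap A (Localization.AtPrime m) s) :=
    IsLocalization.map_units _ s
  have h1 : algebraMap A (Localization.AtPrime m) a =
      IsLocalization.mk' (Localization.AtPrime m) a s * algebraMap A (Localization.AtPrime m) s :=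
    (IsLocalization.mk'_spec _ a s).symm
  have h2 : Ideal.span {algebraMap A (Localization.AtPrime m) a} =
      maximalIdeal (Localization.AtPrime m) := by
    rw [hϖ.maximalIdeal_eq, h1]
    exact Ideal.span_singleton_mul_right_unit hunit _
  refine ⟨a, ?_, h2⟩
  rw [← IsLocalization.AtPrime.to_map_mem_maximal_iff (Localization.AtPrime m) m, ← h2]
  exact Ideal.mem_span_singleton_self _

end Uniformizer

section Local

variable {K A : Type*} [Field K] [CommRing A] [IsDomain A] [Algebra K A] [Algebra K[X] A]
  [IsScalarTower K K[X] A] [Algebra.FiniteType K A]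

theorem formallySmooth_localization_of_uniformizer (m : Ideal A) [m.IsMaximal]
    (hinj : Function.Injective (algebraMap K[X] A))
    (hκ : Function.Bijective (algebraMap K m.ResidueField))
    (hX : Ideal.span {algebraMap K[X] (Localization.AtPrime m) X} =
      maximalIdeal (Localization.AtPrime m)) :
    Algebra.FormallySmooth K (Localization.AtPrime m) := by
  have hft : Algebra.FiniteType K[X] A := Algebra.FiniteType.of_restrictScalars_finiteType K K[X] A
  have hfp : Algebra.FinitePresentation K[X] A := Algebra.FinitePresentation.of_finiteType.mp hft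
  have hfaith : FaithfulSMul K[X] A := (faithfulSMul_iff_algebraMap_injective _ _).mpr hinj
  have htf : Module.IsTorsionFree K[X] A := inferInstance
  have hflat : Module.Flat K[X] A := inferInstance
  -- the prime below `m`
  have hp : (m.under K[X]).IsPrime := inferInstance
  have hlies : m.LiesOver (m.under K[X]) := inferInstance
  let _ := Localization.AtPrime.algebraOfLiesOver (m.under K[X]) m
  have hunr : Algebra.IsUnramifiedAt K[X] m := by
    rw [Algebra.isUnramifiedAt_iff_map_eq K[X] (m.under K[X]) m]
    refine ⟨?_, ?_⟩
    · -- residue field extension is trivial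
      have htower : IsScalarTower K (m.under K[X]).ResidueField m.ResidueField := inferInstance
      refine ⟨fun z => ?_⟩
      obtain ⟨c, rfl⟩ := hκ.2 z
      rw [IsScalarTower.algebraMap_apply K (m.under K[X]).ResidueField m.ResidueField]
      exact isSeparable_algebraMap _
    · apply le_antisymm
      · rw [Ideal.map_le_iff_le_comap]
        intro f hf
        rw [Ideal.mem_comap, IsScalarTower.algebraMap_apply K[X] A (Localization.AtPrime m),
          IsLocalization.AtPrime.to_map_mem_maximal_iff _ m]
        exact hf
      · rw [← hX, Ideal.span_le, Set.singleton_subset_iff]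
        apply Ideal.mem_map_of_mem
        show algebraMap K[X] A X ∈ m
        rw [← IsLocalization.AtPrime.to_map_mem_maximal_iff (Localization.AtPrime m) m,
          ← IsScalarTower.algebraMap_apply K[X] A (Localization.AtPrime m), ← hX]
        exact Ideal.mem_span_singleton_self _
  have het : Algebra.IsEtaleAt K[X] m := Algebra.IsEtaleAt.of_isUnramifiedAt_of_flat m
  have hsm : Algebra.FormallySmooth K[X] (Localization.AtPrime m) := inferInstance
  exact Algebra.FormallySmooth.comp K K[X] (Localization.AtPrime m)

end Local

section Global

variable (K A : Type*) [Field K] [IsAlgClosed K] [CommRing A] [IsDedekindDomain A] [Algebra K A]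
  [Algebra.FiniteType K A]

/-- The local ring of a Dedekind domain of finite type over an algebraically closed field at a
nonzero maximal ideal is formally smooth. -/
theorem isSmoothAt_of_isMaximal (m : Ideal A) [m.IsMaximal] (hm : m ≠ ⊥) :
    Algebra.IsSmoothAt K m := by
  obtain ⟨y, hym, hy⟩ := exists_uniformizer m hm
  -- `y` is not a constant
  have hy0 : y ≠ 0 := by
    rintro rfl
    rw [map_zero, Ideal.span_singleton_eq_bot.mpr rfl] at hy
    have : IsDiscreteValuationRing (Localization.AtPrime m) :=
      IsLocalization.AtPrime.isDiscreteValuationRing_of_dedekind_domain A hm _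
    exact IsDiscreteValuationRing.not_a_field (Localization.AtPrime m) hy.symm
  have hyK : y ∉ Set.range (algebraMap K A) := by
    rintro ⟨c, rfl⟩
    have hc : c ≠ 0 := by
      rintro rfl
      exact hy0 (map_zero _)
    have hu : IsUnit (algebraMap K A c) := (IsUnit.mk0 c hc).map _
    exact (Ideal.IsMaximal.ne_top inferInstance) (Ideal.eq_top_of_isUnit_mem m hym hu)
  have htr : Transcendental K y :=
    Fermat.Agent.JAC.B2.SmoothAlg37.transcendental_of_not_mem_range hyK
  -- the `K[X]`-algebra structure `X ↦ y`
  let _ : Algebra K[X] A := (Polynomial.aeval y).toAlgebra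
  have hmap : ∀ f : K[X], algebraMap K[X] A f = Polynomial.aeval y f := fun _ => rfl
  have : IsScalarTower K K[X] A := IsScalarTower.of_algebraMap_eq fun c => by
    rw [hmap, Polynomial.algebraMap_apply, Polynomial.aeval_C]
    rfl
  refine formallySmooth_localization_of_uniformizer (K := K) m ?_ ?_ ?_
  · exact transcendental_iff_injective.mp htr
  · exact Fermat.Agent.JAC.B2.SmoothAlg37.bijective_algebraMap_residueField (k := K) m
  · rw [IsScalarTower.algebraMap_apply K[X] A (Localization.AtPrime m), hmap, Polynomial.aeval_X]
    exact hy

/-- **Regular ⇒ smooth**: a Dedekind domain of finite type over an algebraically closed field,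
which is not a field, is smooth. -/
theorem smooth_of_isDedekindDomain (hA : ¬ IsField A) : Algebra.Smooth K A := by
  have hfp : Algebra.FinitePresentation K A := Algebra.FinitePresentation.of_finiteType.mp inferInstance
  refine ⟨?_, hfp⟩
  rw [← Algebra.smoothLocus_eq_univ_iff, Set.eq_univ_iff_forall]
  intro q
  obtain ⟨m, hmax, hqm⟩ := Ideal.exists_le_maximal q.asIdeal q.isPrime.ne_top
  have hm : m ≠ ⊥ := fun h => hA (by
    rw [Ring.isField_iff_maximal_bot]  -- placeholder
    exact h ▸ hmax)
  have hmem : (⟨m, hmax.isPrime⟩ : PrimeSpectrum A) ∈ Algebra.smoothLocus K A :=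
    isSmoothAt_of_isMaximal K A m hm
  have hspec : q ⤳ (⟨m, hmax.isPrime⟩ : PrimeSpectrum A) :=
    (PrimeSpectrum.le_iff_specializes q ⟨m, hmax.isPrime⟩).mp hqm
  exact hspec.mem_open Algebra.isOpen_smoothLocus hmem

end Global

end Fermat.Agent.JAC.FF.DedekindSmooth9
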