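/-
Programme JAC, S27 track, brick C1c part 2 (helper9): the three chart rings of a function field
`F / K` with a transcendental generator `x` (`K` algebraically closed of characteristic zero),
`A₀ = ringFin K x`, `A₁ = ringInf K x`, `A₀₁ = ringBoth K x`, are `K`-algebras of finite type and
**smooth over `K`** (`smooth_ringFin`, `smooth_ringInf`, `smooth_ringBoth`), by
`DedekindSmooth9.smooth_of_isDedekindDomain`.
-/
import Mathlib
import Fermat.Agent.JAC.FF.ChartAlg9
import Fermat.Agent.JAC.FF.DedekindSmooth9

set_option autoImplicit false
set_option linter.unusedSectionVars false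

open AlgebraicCurve

namespace Fermat.Agent.JAC.FF.ChartSmooth9

open Fermat.Agent.X0.FF
open Fermat.Agent.JAC.FF.CechRings9 Fermat.Agent.JAC.FF.ChartAlg9 Fermat.Agent.JAC.FF.DedekindSmooth9

variable {K F : Type*} [Field K] [Field F] [Algebra K F]

/-- A subalgebra of finite type containing a transcendental element is not a field. -/
theorem not_isField_of_transcendental (S : Subalgebra K F) [Algebra.FiniteType K ↥S] {y : F}
    (hy : y ∈ S) (htr : Transcendental K y) : ¬ IsField ↥S := by
  intro hS
  let _ : Field ↥S := hS.toField
  have : Module.Finite K ↥S := finite_of_finite_type_of_isJacobsonRing K ↥S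
  have h1 : IsIntegral K (⟨y, hy⟩ : ↥S) := Algebra.IsIntegral.isIntegral _
  have h2 : IsIntegral K y := by
    have := h1.map (S.val)
    exact this
  exact htr h2.isAlgebraic

section Gen

variable [IsAlgClosed K] [CharZero K] {x : F}

theorem finiteType_ringFin (hx : IsGen K x) : Algebra.FiniteType K ↥(ringFin K x) := by
  have h1 : Module.Finite (polyRing K x) (intRing K x) := finite_intRing hx
  have h2 : Algebra.FiniteType K (polyRing K x) := by
    rw [← Subalgebra.fg_iff_finiteType]
    have := Subalgebra.fg_adjoin_finset (R := K) ({x} : Finset F)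
    simpa using this
  have h3 : Algebra.FiniteType K (intRing K x) :=
    Algebra.FiniteType.trans h2 inferInstance
  rw [ringFin_eq_restrictScalars hx]
  exact h3

theorem finiteType_ringInf (hx : IsGen K x) : Algebra.FiniteType K ↥(ringInf K x) :=
  finiteType_ringFin (isGen_inv hx)

instance isScalarTower_K_finBoth (x : F) : IsScalarTower K ↥(ringFin K x) ↥(ringBoth K x) :=
  IsScalarTower.of_algebraMap_eq fun _ => rfl

instance isScalarTower_K_infBoth (x : F) : IsScalarTower K ↥(ringInf K x) ↥(ringBoth K x) :=
  IsScalarTower.of_algebraMap_eq fun _ => rfl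

theorem finiteType_ringBoth (hx : IsGen K x) : Algebra.FiniteType K ↥(ringBoth K x) := by
  have h1 := finiteType_ringFin hx
  have := isLocalization_away_fin (Fermat.Agent.X0.FFGenus.ff1Data hx) hx.ne_zero
  have h2 : Algebra.FinitePresentation ↥(ringFin K x) ↥(ringBoth K x) :=
    IsLocalization.Away.finitePresentation (tFin K x)
  have h3 : Algebra.FiniteType ↥(ringFin K x) ↥(ringBoth K x) := inferInstance
  exact Algebra.FiniteType.trans h1 h3

/-- **The finite chart is smooth over `K`.** -/
theorem smooth_ringFin (hx : IsGen K x) : Algebra.Smooth K ↥(ringFin K x) := by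
  have := isDedekindDomain_ringFin hx
  have := finiteType_ringFin hx
  exact smooth_of_isDedekindDomain K ↥(ringFin K x)
    (not_isField_of_transcendental _ (self_mem_ringFin x) hx.transcendental)

/-- **The chart at infinity is smooth over `K`.** -/
theorem smooth_ringInf (hx : IsGen K x) : Algebra.Smooth K ↥(ringInf K x) :=
  smooth_ringFin (isGen_inv hx)

/-- **The overlap is smooth over `K`.** -/
theorem smooth_ringBoth (hx : IsGen K x) : Algebra.Smooth K ↥(ringBoth K x) := by
  have := isDedekindDomain_ringBoth hx
  have := finiteType_ringBoth hx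
  exact smooth_of_isDedekindDomain K ↥(ringBoth K x)
    (not_isField_of_transcendental _ (self_mem_ringBoth x) hx.transcendental)

end Gen

end Fermat.Agent.JAC.FF.ChartSmooth9
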