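/-
Programme JAC, S27 track, brick C1c part 3 (helper9): **geometric Dedekindness** (`hgeom` of the
CURVE block) for smooth curve charts.

* `isStandardSmoothOfRelativeDimension_one(_away)`: a standard smooth domain (basic open of a domain)
  whose fraction field has one-dimensional Kähler differentials has relative dimension one.
* `isDedekindDomain_baseChange_of_smooth`: for `A` a domain smooth over an algebraically closed
  field `K` with `dim Ω[Frac A / K] = 1`, and any field `K' ⊇ K`: `K' ⊗[K] A` is a Dedekind domain
  (cover by standard smooth basic opens, `DedekindDescent69.isDedekindDomain_baseChange`, and the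
  local criterion `Charts37.isDedekindDomain_of_forall_localization`).
* for the three chart rings of a function field (`ChartSmooth9`): `K' ⊗[K] Aᵢ` is a Dedekind
  domain.
-/
import Mathlib
import Fermat.Agent.JAC.Alg.DedekindDescent69
import Fermat.Agent.JAC.B2.Charts37
import Fermat.Agent.JAC.FF.ChartSmooth9

set_option autoImplicit false

open TensorProduct KaehlerDifferential

namespace Fermat.Agent.JAC.FF.ChartGeom9

section RelDim

variable {K S F : Type*} [Field K] [CommRing S] [IsDomain S] [Field F] [Algebra K S] [Algebra K F]
  [Algebra S F] [IsScalarTower K S F] [IsFractionRing S F]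

/-- A standard smooth domain over a field whose fraction field has one-dimensional Kähler
differentials is standard smooth of relative dimension one. -/
theorem isStandardSmoothOfRelativeDimension_one [Algebra.IsStandardSmooth K S]
    (hΩ : Module.finrank F Ω[F⁄K] = 1) : Algebra.IsStandardSmoothOfRelativeDimension 1 K S := by
  rw [Algebra.IsStandardSmoothOfRelativeDimension.iff_of_isStandardSmooth]
  have : Algebra.FormallyEtale S F := Algebra.FormallyEtale.of_isLocalization (nonZeroDivisors S)
  have e := tensorKaehlerEquivOfFormallyEtale K S F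
  have h1 : Module.finrank F (F ⊗[S] Ω[S⁄K]) = Module.finrank S Ω[S⁄K] :=
    Module.finrank_baseChange
  have h2 : Module.finrank S Ω[S⁄K] = 1 := by
    rw [← h1, e.finrank_eq, hΩ]
  have hfin : Module.Finite S Ω[S⁄K] := inferInstance
  rw [← Module.finrank_eq_rank, h2]

end RelDim

section Away

variable {K A F : Type*} [Field K] [CommRing A] [IsDomain A] [Field F] [Algebra K A] [Algebra K F]
  [Algebra A F] [IsScalarTower K A F] [IsFractionRing A F]

/-- A standard smooth basic open of a domain whose fraction field has one-dimensional Kähler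
differentials is standard smooth of relative dimension one. -/
theorem isStandardSmoothOfRelativeDimension_one_away {x : A} (hx : x ≠ 0)
    [Algebra.IsStandardSmooth K (Localization.Away x)] (hΩ : Module.finrank F Ω[F⁄K] = 1) :
    Algebra.IsStandardSmoothOfRelativeDimension 1 K (Localization.Away x) := by
  have hle : Submonoid.powers x ≤ nonZeroDivisors A :=
    Submonoid.powers_le.mpr (mem_nonZeroDivisors_of_ne_zero hx)
  have hdom : IsDomain (Localization.Away x) :=
    IsLocalization.isDomain_localization hle
  have hunit : IsUnit (algebraMap A F x) :=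
    (IsUnit.mk0 _ ((map_ne_zero_iff _ (IsFractionRing.injective A F)).mpr hx))
  let _ : Algebra (Localization.Away x) F :=
    (IsLocalization.Away.lift (S := Localization.Away x) x hunit).toAlgebra
  have htower : IsScalarTower A (Localization.Away x) F :=
    IsScalarTower.of_algebraMap_eq fun a => (IsLocalization.Away.lift_eq x hunit a).symm
  have hfrac : IsFractionRing (Localization.Away x) F :=
    IsFractionRing.isFractionRing_of_isDomain_of_isLocalization (Submonoid.powers x)
      (Localization.Away x) F
  have htowerK : IsScalarTower K (Localization.Away x) F :=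
    IsScalarTower.of_algebraMap_eq fun c => by
      rw [IsScalarTower.algebraMap_apply K A F, IsScalarTower.algebraMap_apply K A
        (Localization.Away x), ← IsScalarTower.algebraMap_apply A (Localization.Away x) F]
  exact isStandardSmoothOfRelativeDimension_one (F := F) hΩ

end Away

section BaseChange

universe u v w

variable (K : Type u) (K' : Type v) (A : Type w) {F : Type*} [Field K] [IsAlgClosed K] [Field K']
  [Algebra K K'] [CommRing A] [IsDomain A] [Algebra K A] [Algebra.Smooth K A]
  [Field F] [Algebra K F] [Algebra A F] [IsScalarTower K A F] [IsFractionRing A F]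

/-- **Geometric Dedekindness of a smooth curve chart.**  Let `A` be a domain, smooth over an
algebraically closed field `K`, whose fraction field `F` has `dim_F Ω[F/K] = 1`.  Then for every
field extension `K'` of `K` the base change `K' ⊗[K] A` is a Dedekind domain. -/
theorem isDedekindDomain_baseChange_of_smooth (hΩ : Module.finrank F Ω[F⁄K] = 1) :
    IsDedekindDomain (K' ⊗[K] A) := by
  have hdom : IsDomain (K' ⊗[K] A) :=
    Fermat.Agent.JAC.Alg.TensorDomain69.isDomain_baseChange K K' A
  have hfp : Algebra.FinitePresentation K A := inferInstance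
  have hft : Algebra.FiniteType K A := inferInstance
  have hft' : Algebra.FiniteType K' (K' ⊗[K] A) := inferInstance
  have hnoeth : IsNoetherianRing (K' ⊗[K] A) := Algebra.FiniteType.isNoetherianRing K' _
  obtain ⟨s, hs, hstd⟩ := Algebra.Smooth.exists_span_eq_top_isStandardSmooth K A
  apply Fermat.Agent.JAC.B2.Charts37.isDedekindDomain_of_forall_localization
  intro M hM
  -- a member of the cover not in `M`
  obtain ⟨x, hxs, hxM⟩ : ∃ x ∈ s, (1 : K') ⊗ₜ[K] x ∉ M := by
    by_contra hcon
    push Not at hcon
    have h1 : Ideal.map (Algebra.TensorProduct.includeRight (R := K) (A := K') (B := A)) (Ideal.span s)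
        ≤ M := by
      rw [Ideal.map_span, Ideal.span_le]
      rintro _ ⟨y, hy, rfl⟩
      exact hcon y hy
    rw [hs, Ideal.map_top] at h1
    exact hM.ne_top (top_le_iff.mp h1)
  have hx0 : x ≠ 0 := by
    rintro rfl
    apply hxM
    rw [TensorProduct.tmul_zero]
    exact zero_mem _
  have := hstd x hxs
  have hrel : Algebra.IsStandardSmoothOfRelativeDimension 1 K (Localization.Away x) :=
    isStandardSmoothOfRelativeDimension_one_away (F := F) hx0 hΩ
  have hle : Submonoid.powers x ≤ nonZeroDivisors A :=
    Submonoid.powers_le.mpr (mem_nonZeroDivisors_of_ne_zero hx0)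
  have hdomx : IsDomain (Localization.Away x) := IsLocalization.isDomain_localization hle
  have hD : IsDedekindDomain (K' ⊗[K] Localization.Away x) :=
    Fermat.Agent.JAC.Alg.DedekindDescent69.isDedekindDomain_baseChange K K' (Localization.Away x)
  -- `K' ⊗ A[1/x]` is the localization of `K' ⊗ A` at the powers of `1 ⊗ x`
  let φ : K' ⊗[K] A →ₐ[K'] K' ⊗[K] Localization.Away x :=
    Algebra.TensorProduct.map (AlgHom.id K' K') (IsScalarTower.toAlgHom K A (Localization.Away x))
  let _ : Algebra (K' ⊗[K] A) (K' ⊗[K] Localization.Away x) := φ.toRingHom.toAlgebra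
  have htow : IsScalarTower K' (K' ⊗[K] A) (K' ⊗[K] Localization.Away x) :=
    IsScalarTower.of_algebraMap_eq fun c => (φ.commutes c).symm
  have hloc : IsLocalization ((Submonoid.powers x).map
      (Algebra.TensorProduct.includeRight (R := K) (A := K') (B := A)))
      (K' ⊗[K] Localization.Away x) :=
    IsLocalization.tensorProduct_tensorProduct_right K K' (Submonoid.powers x)
      (Localization.Away x) (by
        ext a
        simp [φ, RingHom.algebraMap_toAlgebra])
  -- the prime of `K' ⊗ A[1/x]` above `M`
  have hdisj : Disjoint (((Submonoid.powers x).map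
      (Algebra.TensorProduct.includeRight (R := K) (A := K') (B := A)) : Submonoid (K' ⊗[K] A)) :
      Set (K' ⊗[K] A)) (M : Set (K' ⊗[K] A)) := by
    rw [Set.disjoint_left]
    rintro _ ⟨_, ⟨n, rfl⟩, rfl⟩ hmem
    rw [map_pow] at hmem
    exact hxM (hM.isPrime.mem_of_pow_mem n hmem)
  have hp : (Ideal.map (algebraMap (K' ⊗[K] A) (K' ⊗[K] Localization.Away x)) M).IsPrime :=
    IsLocalization.isPrime_of_isPrime_disjoint _ _ M hM.isPrime hdisj
  have hcomap : Ideal.comap (algebraMap (K' ⊗[K] A) (K' ⊗[K] Localization.Away x))
      (Ideal.map (algebraMap (K' ⊗[K] A) (K' ⊗[K] Localization.Away x)) M) = M :=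
    IsLocalization.under_map_of_isPrime_disjoint _ _ hM.isPrime hdisj
  have hT : IsLocalization.AtPrime (Localization.AtPrime
      (Ideal.map (algebraMap (K' ⊗[K] A) (K' ⊗[K] Localization.Away x)) M))
      (Ideal.comap (algebraMap (K' ⊗[K] A) (K' ⊗[K] Localization.Away x))
        (Ideal.map (algebraMap (K' ⊗[K] A) (K' ⊗[K] Localization.Away x)) M)) :=
    IsLocalization.isLocalization_isLocalization_atPrime_isLocalization
      ((Submonoid.powers x).map (Algebra.TensorProduct.includeRight (R := K) (A := K') (B := A)))
      _ _
  refine ⟨Localization.AtPrime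
    (Ideal.map (algebraMap (K' ⊗[K] A) (K' ⊗[K] Localization.Away x)) M), inferInstance,
    inferInstance, ?_, inferInstance⟩
  have key : ∀ (P : Ideal (K' ⊗[K] A)) [P.IsPrime], P = M →
      IsLocalization.AtPrime (Localization.AtPrime
        (Ideal.map (algebraMap (K' ⊗[K] A) (K' ⊗[K] Localization.Away x)) M)) P →
      IsLocalization.AtPrime (Localization.AtPrime
        (Ideal.map (algebraMap (K' ⊗[K] A) (K' ⊗[K] Localization.Away x)) M)) M := by
    rintro P _ rfl h
    exact h
  exact key _ hcomap hT

end BaseChange

section Charts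

open Fermat.Agent.X0.FF Fermat.Agent.JAC.FF.CechRings9 Fermat.Agent.JAC.FF.ChartAlg9
open Fermat.Agent.JAC.FF.ChartSmooth9

variable {K F : Type*} [Field K] [Field F] [Algebra K F] [IsAlgClosed K] [CharZero K] {x : F}

/-- `K' ⊗[K] A₀` is a Dedekind domain for every field `K' ⊇ K`. -/
theorem isDedekindDomain_baseChange_ringFin (hx : IsGen K x)
    (hΩ : Module.finrank F Ω[F⁄K] = 1) (K' : Type*) [Field K'] [Algebra K K'] :
    IsDedekindDomain (K' ⊗[K] ↥(ringFin K x)) := by
  have := isDedekindDomain_ringFin hx
  have := isFractionRing_ringFin hx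
  have := smooth_ringFin hx
  exact isDedekindDomain_baseChange_of_smooth K K' ↥(ringFin K x) (F := F) hΩ

/-- `K' ⊗[K] A₁` is a Dedekind domain for every field `K' ⊇ K`. -/
theorem isDedekindDomain_baseChange_ringInf (hx : IsGen K x)
    (hΩ : Module.finrank F Ω[F⁄K] = 1) (K' : Type*) [Field K'] [Algebra K K'] :
    IsDedekindDomain (K' ⊗[K] ↥(ringInf K x)) :=
  isDedekindDomain_baseChange_ringFin (isGen_inv hx) hΩ K'

/-- `K' ⊗[K] A₀₁` is a Dedekind domain for every field `K' ⊇ K`. -/
theorem isDedekindDomain_baseChange_ringBoth (hx : IsGen K x)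
    (hΩ : Module.finrank F Ω[F⁄K] = 1) (K' : Type*) [Field K'] [Algebra K K'] :
    IsDedekindDomain (K' ⊗[K] ↥(ringBoth K x)) := by
  have := isDedekindDomain_ringBoth hx
  have := isFractionRing_ringBoth hx
  have := smooth_ringBoth hx
  exact isDedekindDomain_baseChange_of_smooth K K' ↥(ringBoth K x) (F := F) hΩ

end Charts

end Fermat.Agent.JAC.FF.ChartGeom9
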