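/-
Programme JAC (S27 track, C4), chapter FF.  Owner: helper70.

Adapter between helper9's Čech description of the genus of a function field,
`genusFF K F = dim_K A₀₁ / (A₀ + A₁)` (`CechRings9.genusFF_eq_finrank_rings`,
`CechAdelic9.finite_cech`), and the hypothesis of `Tangent/JacTangent70`: a surjection
`h : A₀₁ → K^g` with kernel the sum of the images of `A₀` and `A₁`, with `g = genusFF K F`.
-/
import Mathlib
import Fermat.Agent.JAC.FF.ChartSmooth9

set_option autoImplicit false

open AlgebraicCurve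

namespace Fermat.Agent.JAC.FF.CechDim70

open Fermat.Agent.X0.FF
open Fermat.Agent.JAC.FF.CechAdelic9 Fermat.Agent.JAC.FF.CechRings9
  Fermat.Agent.JAC.FF.ChartAlg9 Fermat.Agent.JAC.FF.ChartSmooth9

/-- A quotient of dimension `g` gives a surjection to `K^g` with the prescribed kernel. -/
theorem exists_linearMap_of_finrank {K : Type*} [Field K] {N : Type*} [AddCommGroup N]
    [Module K N] (S : Submodule K N) [Module.Finite K (N ⧸ S)] {g : ℕ}
    (hg : Module.finrank K (N ⧸ S) = g) :
    ∃ h : N →ₗ[K] (Fin g → K), Function.Surjective h ∧ LinearMap.ker h = S := by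
  let b := Module.finBasisOfFinrankEq K (N ⧸ S) hg
  refine ⟨b.equivFun.toLinearMap ∘ₗ S.mkQ, ?_, ?_⟩
  · exact b.equivFun.surjective.comp S.mkQ_surjective
  · rw [LinearEquiv.ker_comp, Submodule.ker_mkQ]

variable {K F : Type*} [Field K] [Field F] [Algebra K F]

/-- The sum of the images of `A₀` and `A₁` in `A₀₁`. -/
noncomputable def cechSum (x : F) : Submodule K ↥(ringBoth K x) :=
  LinearMap.range (IsScalarTower.toAlgHom K ↥(ringFin K x) ↥(ringBoth K x)).toLinearMap ⊔
    LinearMap.range (IsScalarTower.toAlgHom K ↥(ringInf K x) ↥(ringBoth K x)).toLinearMap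

theorem mem_cechSum_iff (x : F) (f : ↥(ringBoth K x)) :
    f ∈ cechSum (K := K) x ↔ ∃ y ∈ ringFin K x, ∃ z ∈ ringInf K x, y + z = (f : F) := by
  rw [cechSum, Submodule.mem_sup]
  constructor
  · rintro ⟨_, ⟨y, rfl⟩, _, ⟨z, rfl⟩, h⟩
    refine ⟨y, y.2, z, z.2, ?_⟩
    rw [← h]
    rfl
  · rintro ⟨y, hy, z, hz, h⟩
    refine ⟨_, ⟨⟨y, hy⟩, rfl⟩, _, ⟨⟨z, hz⟩, rfl⟩, ?_⟩
    apply Subtype.ext
    rw [← h]
    rfl

/-- The Čech quotient in helper9's form is the quotient by `cechSum`. -/
theorem map_cechSum (x : F) :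
    (cechSum (K := K) x).map
        ((Subalgebra.toSubmoduleEquiv (ringBoth K x)).symm : ↥(ringBoth K x) →ₗ[K] _) =
      (Subalgebra.toSubmodule (ringFin K x) ⊔ Subalgebra.toSubmodule (ringInf K x)).comap
        (Subalgebra.toSubmodule (ringBoth K x)).subtype := by
  ext f
  rw [Submodule.mem_map, Submodule.mem_comap, Submodule.mem_sup]
  constructor
  · rintro ⟨f', hf', rfl⟩
    obtain ⟨y, hy, z, hz, h⟩ := (mem_cechSum_iff x f').mp hf'
    exact ⟨y, hy, z, hz, h⟩
  · rintro ⟨y, hy, z, hz, h⟩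
    refine ⟨Subalgebra.toSubmoduleEquiv (ringBoth K x) f, ?_, LinearEquiv.symm_apply_apply _ _⟩
    exact (mem_cechSum_iff x _).mpr ⟨y, hy, z, hz, h⟩

/-- The quotient `A₀₁ / (A₀ + A₁)` in the two forms. -/
noncomputable def quotEquiv (x : F) :
    (↥(ringBoth K x) ⧸ cechSum (K := K) x) ≃ₗ[K]
      (↥(Subalgebra.toSubmodule (ringBoth K x)) ⧸
        (Subalgebra.toSubmodule (ringFin K x) ⊔ Subalgebra.toSubmodule (ringInf K x)).comap
          (Subalgebra.toSubmodule (ringBoth K x)).subtype) :=
  Submodule.Quotient.equiv _ _ (Subalgebra.toSubmoduleEquiv (ringBoth K x)).symm (map_cechSum x)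

section Gen

variable [IsAlgClosed K] [CharZero K] {x : F}

theorem finite_quot_rings (hx : IsGen K x) :
    Module.Finite K
      (↥(Subalgebra.toSubmodule (ringBoth K x)) ⧸
        (Subalgebra.toSubmodule (ringFin K x) ⊔ Subalgebra.toSubmodule (ringInf K x)).comap
          (Subalgebra.toSubmodule (ringBoth K x)).subtype) := by
  have h := finite_cech hx (0 : Divisor K F)
  rw [← toSubmodule_ringFin, ← toSubmodule_ringInf] at h
  have e : Subalgebra.toSubmodule (ringBoth K x) = latBoth x (0 : Divisor K F) :=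
    toSubmodule_ringBoth x
  revert h
  rw [← e]
  exact fun h => h

/-- `A₀₁ / (A₀ + A₁)` is finite-dimensional. -/
theorem finite_quot_cechSum (hx : IsGen K x) :
    Module.Finite K (↥(ringBoth K x) ⧸ cechSum (K := K) x) :=
  haveI := finite_quot_rings hx
  Module.Finite.equiv (quotEquiv (K := K) x).symm

/-- `dim A₀₁ / (A₀ + A₁) = genusFF K F`. -/
theorem finrank_quot_cechSum (hx : IsGen K x) :
    Module.finrank K (↥(ringBoth K x) ⧸ cechSum (K := K) x) = genusFF K F := by
  rw [genusFF_eq_finrank_rings hx]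
  exact (quotEquiv (K := K) x).finrank_eq

/-- **The hypothesis of `JacTangent70.smoothOfRelativeDimension_toBase` for the charts of a
function field, with `g = genusFF K F`.** -/
theorem exists_cech_linearMap (hx : IsGen K x) :
    ∃ h : ↥(ringBoth K x) →ₗ[K] (Fin (genusFF K F) → K), Function.Surjective h ∧
      LinearMap.ker h =
        LinearMap.range (IsScalarTower.toAlgHom K ↥(ringFin K x) ↥(ringBoth K x)).toLinearMap ⊔
          LinearMap.range
            (IsScalarTower.toAlgHom K ↥(ringInf K x) ↥(ringBoth K x)).toLinearMap :=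
  haveI := finite_quot_cechSum hx
  exists_linearMap_of_finrank (cechSum (K := K) x) (finrank_quot_cechSum hx)

end Gen

end Fermat.Agent.JAC.FF.CechDim70
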