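/-
Programme JAC, S27 track, brick C1d (helper9): the remaining hypotheses of the CURVE block of the
JAC plan for the two-chart data `(A₀ → A₀₁ ← A₁; t = x, s = x⁻¹)` of a function field `F / K`
(`A₀ = ringFin K x` etc., `K` algebraically closed of characteristic zero, `hx : IsGen K x`):

* `tFin_mul_sInf`: `t s = 1` in `A₀₁`;
* `exists_basePoint`: a `K`-point `A₀₁ →ₐ[K] K` of the overlap (evaluation at a zero of `x - 1`);
* `finite_poly_ringFin`, `free_poly_ringFin` (and `…ringInf`): for ANY `K[X]`-algebra structure on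
  `A₀` compatible with `K` with `X ↦ t`, `A₀` is a finite free `K[X]`-module.
-/
import Mathlib
import Fermat.Agent.JAC.FF.ChartSmooth9
import Fermat.Agent.X0.FFResidue

set_option autoImplicit false
set_option linter.unusedSectionVars false

open AlgebraicCurve Polynomial

namespace Fermat.Agent.JAC.FF.ChartCurve9

open Fermat.Agent.X0.FF
open Fermat.Agent.JAC.FF.CechRings9 Fermat.Agent.JAC.FF.ChartAlg9 Fermat.Agent.JAC.FF.ChartSmooth9

variable {K F : Type*} [Field K] [Field F] [Algebra K F]

/-- `t s = 1` in `A₀₁`. -/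
theorem tFin_mul_sInf {x : F} (hx0 : x ≠ 0) :
    algebraMap ↥(ringFin K x) ↥(ringBoth K x) (tFin K x) *
      algebraMap ↥(ringInf K x) ↥(ringBoth K x) (sInf K x) = 1 := by
  apply Subtype.ext
  show x * x⁻¹ = 1
  exact mul_inv_cancel₀ hx0

/-! ### The base point -/

/-- Evaluation of the functions of `A₀₁` at a place of degree one of the overlap. -/
noncomputable def evalAt {x : F} (v : Place K F)
    (hB : ∀ a : ↥(ringBoth K x), (a : F) ∈ v.toValuationSubring) (hdeg : v.deg = 1) :
    ↥(ringBoth K x) →ₐ[K] K :=
  let incl : ↥(ringBoth K x) →+* ↥v.toValuationSubring :=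
    { toFun := fun a => ⟨a, hB a⟩
      map_one' := rfl
      map_mul' := fun _ _ => rfl
      map_zero' := rfl
      map_add' := fun _ _ => rfl }
  let e : K ≃+* v.ResidueField :=
    RingEquiv.ofBijective (algebraMap K v.ResidueField)
      ((Algebra.finrank_eq_one_iff_bijective_algebraMap).mp hdeg)
  { toRingHom := e.symm.toRingHom.comp ((IsLocalRing.residue ↥v.toValuationSubring).comp incl)
    commutes' := fun c => by
      show e.symm (IsLocalRing.residue ↥v.toValuationSubring (incl (algebraMap K _ c))) = c
      have h1 : incl (algebraMap K ↥(ringBoth K x) c) = algebraMap K ↥v.toValuationSubring c :=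
        Subtype.ext rfl
      rw [h1]
      have h2 : IsLocalRing.residue ↥v.toValuationSubring (algebraMap K ↥v.toValuationSubring c) =
          e c := rfl
      rw [h2, RingEquiv.symm_apply_apply] }

section Gen

variable [IsAlgClosed K] [CharZero K] {x : F}

/-- There is a place in the overlap of the two charts (a zero of `x - 1`). -/
theorem exists_place_overlap (hx : IsGen K x) :
    ∃ v : Place K F, x ∈ v.toValuationSubring ∧ x⁻¹ ∈ v.toValuationSubring := by
  have H := Fermat.Agent.X0.FFGenus.ff1Data hx
  have htr : Transcendental K (x - 1) := by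
    intro h
    apply hx.transcendental
    have : x = (x - 1) + algebraMap K F 1 := by rw [map_one]; ring
    rw [this]
    exact h.add (isAlgebraic_algebraMap 1)
  have hy : IsGen K (x - 1) := hx.of_transcendental htr
  have hsum := H.sum_ord_zeros (x - 1) hy
  have := hy.finiteDimensional
  have hpos : 0 < Module.finrank (IntermediateField.adjoin K {x - 1}) F := Module.finrank_pos
  have hne : {v : Place K F | 0 < v.ord (x - 1)}.Nonempty := by
    by_contra hempty
    rw [Set.not_nonempty_iff_eq_empty] at hempty
    have h0 : ∑ᶠ (v : Place K F) (_ : 0 < v.ord (x - 1)), v.ord (x - 1) = 0 := by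
      apply finsum_eq_zero_of_forall_eq_zero
      intro v
      have hfalse : ¬ 0 < v.ord (x - 1) := fun hv => by
        have : v ∈ ({v : Place K F | 0 < v.ord (x - 1)} : Set (Place K F)) := hv
        rw [hempty] at this
        exact this
      simp [hfalse]
    rw [h0] at hsum
    have : (0 : ℤ) < Module.finrank (IntermediateField.adjoin K {x - 1}) F := by exact_mod_cast hpos
    omega
  obtain ⟨v, hv⟩ := hne
  have hv' : 0 < v.ord (x - 1) := hv
  have hord : v.ord x = 0 := by
    have h1 : v.ord ((1 : F) + (x - 1)) = v.ord (1 : F) :=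
      ffp_ord_add_eq_of_lt v one_ne_zero (by rw [v.ord_one]; exact hv')
    rw [v.ord_one] at h1
    rw [← h1]
    congr 1
    ring
  refine ⟨v, ffp_mem_of_ord_nonneg v (by rw [hord]), ffp_mem_of_ord_nonneg v ?_⟩
  rw [v.ord_inv, hord]
  simp

/-- **The base point**: a `K`-point of the overlap `U₀ ∩ U₁`. -/
theorem exists_basePoint (hx : IsGen K x) : Nonempty (↥(ringBoth K x) →ₐ[K] K) := by
  obtain ⟨v, hv, hv'⟩ := exists_place_overlap hx
  exact ⟨evalAt v (fun a => a.2 v hv hv') (deg_eq_one hx v)⟩

/-! ### `A₀` is finite free over `K[t]` -/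

/-- The chart ring `A₀`, as a ring, is the integral closure of `K[x]`. -/
noncomputable def intRingEquivRingFin (hx : IsGen K x) : ↥(intRing K x) ≃+* ↥(ringFin K x) where
  toFun a := ⟨a, (mem_ringFin_iff_isIntegral hx).mpr a.2⟩
  invFun b := ⟨b, (mem_ringFin_iff_isIntegral hx).mp b.2⟩
  left_inv _ := rfl
  right_inv _ := rfl
  map_mul' _ _ := rfl
  map_add' _ _ := rfl

/-- For any `K[X]`-algebra structure on `A₀` compatible with `K` and sending `X` to `t = x`, the
structure map is evaluation at `x`. -/
theorem coe_algebraMap_poly [Algebra K[X] ↥(ringFin K x)] [IsScalarTower K K[X] ↥(ringFin K x)]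
    (hX : algebraMap K[X] ↥(ringFin K x) X = tFin K x) (p : K[X]) :
    ((algebraMap K[X] ↥(ringFin K x) p : ↥(ringFin K x)) : F) = aeval x p := by
  have h : (IsScalarTower.toAlgHom K K[X] ↥(ringFin K x)) = aeval (tFin K x) := by
    apply Polynomial.algHom_ext
    rw [aeval_X]
    exact hX
  have h1 : algebraMap K[X] ↥(ringFin K x) p = aeval (tFin K x) p := by
    rw [← h]; rfl
  rw [h1]
  have h2 : ((aeval (tFin K x) p : ↥(ringFin K x)) : F) =
      (ringFin K x).val (aeval (tFin K x) p) := rfl
  rw [h2, ← aeval_algHom_apply]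
  rfl

/-- **`A₀` is a finite `K[t]`-module.** -/
theorem finite_poly_ringFin (hx : IsGen K x) [Algebra K[X] ↥(ringFin K x)]
    [IsScalarTower K K[X] ↥(ringFin K x)]
    (hX : algebraMap K[X] ↥(ringFin K x) X = tFin K x) : Module.Finite K[X] ↥(ringFin K x) := by
  have h1 : Module.Finite (polyRing K x) (intRing K x) := finite_intRing hx
  let e₁ : ↥(polyRing K x) ≃+* K[X] :=
    (Polynomial.algEquivOfTranscendental K x hx.transcendental).symm.toRingEquiv
  refine Module.Finite.of_equiv_equiv e₁ (intRingEquivRingFin hx) ?_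
  ext r
  show ((algebraMap K[X] ↥(ringFin K x) (e₁ r) : ↥(ringFin K x)) : F) = (r : F)
  rw [coe_algebraMap_poly hX]
  have h2 : (Polynomial.algEquivOfTranscendental K x hx.transcendental) (e₁ r) = r :=
    (Polynomial.algEquivOfTranscendental K x hx.transcendental).apply_symm_apply r
  have h3 := congrArg (Subtype.val : ↥(polyRing K x) → F) h2
  rw [← h3]
  simp [Polynomial.algEquivOfTranscendental]

/-- **`A₀` is a free `K[t]`-module** (finitely generated and torsion-free over a principal ideal
domain). -/
theorem free_poly_ringFin (hx : IsGen K x) [Algebra K[X] ↥(ringFin K x)]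
    [IsScalarTower K K[X] ↥(ringFin K x)]
    (hX : algebraMap K[X] ↥(ringFin K x) X = tFin K x) : Module.Free K[X] ↥(ringFin K x) := by
  have hfin := finite_poly_ringFin hx hX
  have hinj : Function.Injective (algebraMap K[X] ↥(ringFin K x)) := by
    intro p q hpq
    have h1 := congrArg (Subtype.val : ↥(ringFin K x) → F) hpq
    rw [coe_algebraMap_poly hX, coe_algebraMap_poly hX] at h1
    exact transcendental_iff_injective.mp hx.transcendental h1
  have hfaith : FaithfulSMul K[X] ↥(ringFin K x) :=
    (faithfulSMul_iff_algebraMap_injective _ _).mpr hinj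
  have htf : Module.IsTorsionFree K[X] ↥(ringFin K x) := inferInstance
  exact Module.free_of_finite_type_torsion_free'

/-- **`A₁` is a finite `K[s]`-module.** -/
theorem finite_poly_ringInf (hx : IsGen K x) [inst1 : Algebra K[X] ↥(ringInf K x)]
    [inst2 : IsScalarTower K K[X] ↥(ringInf K x)]
    (hX : algebraMap K[X] ↥(ringInf K x) X = sInf K x) : Module.Finite K[X] ↥(ringInf K x) :=
  @finite_poly_ringFin K F _ _ _ _ _ x⁻¹ (isGen_inv hx) inst1 inst2 hX

/-- **`A₁` is a free `K[s]`-module.** -/
theorem free_poly_ringInf (hx : IsGen K x) [inst1 : Algebra K[X] ↥(ringInf K x)]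
    [inst2 : IsScalarTower K K[X] ↥(ringInf K x)]
    (hX : algebraMap K[X] ↥(ringInf K x) X = sInf K x) : Module.Free K[X] ↥(ringInf K x) :=
  @free_poly_ringFin K F _ _ _ _ _ x⁻¹ (isGen_inv hx) inst1 inst2 hX

end Gen

end Fermat.Agent.JAC.FF.ChartCurve9
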