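import Mathlib
import Fermat.Prelude.Def_JacJ1Iface
import Fermat.Agent.JAC.Grp.AbelianOfGrpObj63
import Fermat.Agent.JAC.Repr.Group10

/-!
# JAC (S27 track C5c / MW Div2), helper63: the classes of the cut over an algebraically closed
base field form a divisible group

For a scheme `J` representing the absolute Picard presheaf `Wiring10.G P` of a cut `P` over a
field `K` (as in `Repr/Group10`, `FF/JacGroupLaw85`), with natural commutative group structures on
the classes over affine bases: if `toBase rep` is smooth, proper and geometrically connected and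
`K` is algebraically closed, then every class over `K` is an `n`-th power for `(n : K) ≠ 0`.

This is the class-level half of `pic0_nsmul_surjective` (report #1030): it remains to identify
`CutClasses P (𝟙 _)` with `Pic0 K F` (C5a/C5b).
-/

set_option autoImplicit false

universe u

open CategoryTheory Limits Opposite AlgebraicGeometry AlgebraicGeometry.RelPicard NeronModelInfra
  GoodReductionJacobian MonoidalCategory CartesianMonoidalCategory

open scoped MonObj

namespace Fermat.Agent.JAC.FF.ClassesDivisible63

open Fermat.Agent.JAC.Repr.Wiring10 Fermat.Agent.JAC.Repr.Group10 Fermat.Agent.JAC.Grp.OverAff6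
  Fermat.Agent.JAC.Grp.AbelianOfGrpObj63

variable {K : Type u} [Field K] {C : Scheme.{u}} {c : C ⟶ Spec (CommRingCat.of K)}
  {ε : SchemeHomOver (𝟙 (Spec (CommRingCat.of K))) c} {P : SubPicCondition c ε}
  [hs : ∀ {T : Scheme.{u}} (t : T ⟶ Spec (CommRingCat.of K)), Small.{u} (CutClasses P t)]
  {J : Scheme.{u}} (rep : (G P).RepresentableBy J)
  [grp : ∀ d : AffIdx (Spec (CommRingCat.of K)), Group (CutClasses P d.2)]
  (res_mul : ∀ {d d' : AffIdx (Spec (CommRingCat.of K))} (ψ : SchemeHomOver d'.2 d.2)
    (x y : CutClasses P d.2), cutMap ψ (x * y) = cutMap ψ x * cutMap ψ y)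
  (hcomm : ∀ (d : AffIdx (Spec (CommRingCat.of K))) (x y : CutClasses P d.2), x * y = y * x)

omit hs grp in
/-- The total space of a geometrically connected scheme over a field is connected. -/
theorem connectedSpace_of_geometricallyConnected {J : Scheme.{u}}
    (f : J ⟶ Spec (CommRingCat.of K)) [GeometricallyConnected f] : ConnectedSpace J := by
  have hne : Nonempty (Spec (CommRingCat.of K)) := inferInstance
  obtain ⟨s⟩ := hne
  have h : f.base ⁻¹' {s} = Set.univ := by
    ext x
    simp only [Set.mem_preimage, Set.mem_singleton_iff, Set.mem_univ, iff_true]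
    exact Subsingleton.elim _ _
  have hc := f.isConnected_preimage_singleton s
  rw [h] at hc
  exact connectedSpace_iff_univ.mpr hc

/-- `overHomEquiv` turns powers in the Yoneda group into powers of classes. -/
theorem overHomEquiv_pow {B : CommRingCat.{u}} (t : Spec B ⟶ Spec (CommRingCat.of K))
    (a : Over.mk t ⟶ Over.mk (toBase rep)) (n : ℕ) :
    letI := grpObj rep res_mul
    letI := grp ⟨B, t⟩
    overHomEquiv rep t (a ^ n) = overHomEquiv rep t a ^ n := by
  let _ := grpObj rep res_mul
  let _ := grp ⟨B, t⟩
  induction n with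
  | zero => rw [pow_zero, pow_zero]; exact overHomEquiv_one rep res_mul t
  | succ n ih => rw [pow_succ, pow_succ, ← ih]; exact overHomEquiv_mul rep res_mul t _ _

include res_mul hcomm in
/-- **Divisibility of the classes over an algebraically closed field.** -/
theorem exists_pow_eq [IsAlgClosed K] [Smooth (toBase rep)] [IsProper (toBase rep)]
    [GeometricallyConnected (toBase rep)] (n : ℕ) (hn : (n : K) ≠ 0)
    (ξ : CutClasses P (𝟙 (Spec (CommRingCat.of K)))) :
    letI := grp ⟨CommRingCat.of K, 𝟙 (Spec (CommRingCat.of K))⟩
    ∃ ζ : CutClasses P (𝟙 (Spec (CommRingCat.of K))), ζ ^ n = ξ := by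
  let _ := grpObj rep res_mul
  have _ := isCommMonObj rep res_mul hcomm
  have _ := connectedSpace_of_geometricallyConnected (toBase rep)
  let t : Spec (CommRingCat.of K) ⟶ Spec (CommRingCat.of K) := 𝟙 _
  obtain ⟨y, hy⟩ := exists_pow_eq_of_grpObj (toBase rep) inferInstance inferInstance n hn
    ((overHomEquiv rep t).symm ξ)
  refine ⟨overHomEquiv rep t y, ?_⟩
  have h := overHomEquiv_pow rep res_mul (B := CommRingCat.of K) t y n
  rw [hy, Equiv.apply_symm_apply] at h
  exact h.symm

end Fermat.Agent.JAC.FF.ClassesDivisible63
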