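/-
Programme JAC, S27 track, brick C1a (helper38).

From the hypotheses of S27 (`K` algebraically closed of characteristic zero, `F / K` essentially of
finite type with `Ω[F⁄K]` of rank one) we produce a separating transcendental generator:
`∃ x : F, Fermat.Agent.X0.FF.IsGen K x`, i.e. `x` transcendental over `K` and `F` finite over `K⟮x⟯`.
This makes the whole function-field library `Fermat.Agent.X0.FF*` / `Fermat.Agent.RR.*` available for
the function fields of S27.

Main results:
* `finrank_kaehler_adjoin`     : `Ω[K(v)⁄K]` has rank `#ι` for an algebraically independent family;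
* `finrank_kaehler_eq_card`    : `Ω[F⁄K]` has rank `#s` for a separating transcendence basis `s`;
* `exists_isGen_of_finrank_kaehler` : perfect `K`, `F/K` f.g., rank `Ω = 1` ⟹ `∃ x, IsGen K x`;
* `exists_isGen`               : the S27 form.
-/
import Mathlib
import Fermat.Prelude.Def_AlgebraicCurve_IsCurveOver
import Fermat.Agent.X0.FFDefs

set_option autoImplicit false
set_option linter.style.haveILetI false

open KaehlerDifferential IntermediateField

namespace Fermat.Agent.JAC.FF.Gen38

section Adjoin

variable {K F ι : Type*} [Field K] [Field F] [Algebra K F]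

/-- The Kähler differentials of a purely transcendental extension `K(v)/K` have rank `#ι`. -/
theorem finrank_kaehler_adjoin [Fintype ι] {v : ι → F} (hv : AlgebraicIndependent K v) :
    Module.finrank (adjoin K (Set.range v)) Ω[adjoin K (Set.range v)⁄K] = Fintype.card ι := by
  classical
  set E := adjoin K (Set.range v) with hE
  let v' : ι → E := fun i => ⟨v i, subset_adjoin K _ ⟨i, rfl⟩⟩
  have hv' : AlgebraicIndependent K v' := by
    have : (E.val : E → F) ∘ v' = v := rfl
    exact AlgebraicIndependent.of_comp E.val (by rw [this]; exact hv)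
  let φ : MvPolynomial ι K →ₐ[K] E := MvPolynomial.aeval v'
  letI : Algebra (MvPolynomial ι K) E := φ.toRingHom.toAlgebra
  haveI : IsScalarTower K (MvPolynomial ι K) E :=
    IsScalarTower.of_algebraMap_eq fun a => (φ.commutes a).symm
  have hinj : Function.Injective (algebraMap (MvPolynomial ι K) E) := hv'
  haveI : FaithfulSMul (MvPolynomial ι K) E :=
    (faithfulSMul_iff_algebraMap_injective _ _).mpr hinj
  haveI : IsFractionRing (MvPolynomial ι K) E := by
    refine IsFractionRing.of_field _ _ fun z => ?_
    obtain ⟨x, hx, y, hy, hxy⟩ := mem_adjoin_iff_div.mp z.2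
    rw [Algebra.adjoin_range_eq_range_aeval] at hx hy
    obtain ⟨p, rfl⟩ := hx
    obtain ⟨q, rfl⟩ := hy
    refine ⟨p, q, Subtype.ext ?_⟩
    have h1 : ∀ r : MvPolynomial ι K,
        ((algebraMap (MvPolynomial ι K) E r : E) : F) = MvPolynomial.aeval v r := by
      intro r
      show ((MvPolynomial.aeval v' r : E) : F) = _
      have : (E.val : E →ₐ[K] F).comp (MvPolynomial.aeval v') = MvPolynomial.aeval v := by
        apply MvPolynomial.algHom_ext
        intro i
        simp [v']
      exact congrArg (fun f : MvPolynomial ι K →ₐ[K] F => f r) this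
    rw [hxy]
    push_cast
    rw [h1, h1]
    rfl
  haveI := isLocalizedModule_map K (MvPolynomial ι K) E (nonZeroDivisors (MvPolynomial ι K))
  have hbc : IsBaseChange E (KaehlerDifferential.map K K (MvPolynomial ι K) E) :=
    IsLocalizedModule.isBaseChange (nonZeroDivisors (MvPolynomial ι K)) E _
  rw [hbc.finrank_eq, Module.finrank_eq_card_basis (mvPolynomialBasis K ι)]

end Adjoin

section SeparatingBasis

variable {K F : Type*} [Field K] [Field F] [Algebra K F]

/-- For a finite separating transcendence basis `s` of `F/K`, `Ω[F⁄K]` has rank `#s`. -/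
theorem finrank_kaehler_eq_card (s : Finset F)
    (hs : IsTranscendenceBasis K ((↑) : s → F))
    [Algebra.IsSeparable (adjoin K (s : Set F)) F] :
    Module.finrank F Ω[F⁄K] = s.card := by
  classical
  have hrange : Set.range ((↑) : s → F) = (s : Set F) := Subtype.range_coe
  have h1 := finrank_kaehler_adjoin (K := K) (F := F) (v := ((↑) : s → F)) hs.1
  rw [Fintype.card_coe] at h1
  -- transport along `range (↑) = ↑s`
  have h2 : Module.finrank (adjoin K (s : Set F)) Ω[adjoin K (s : Set F)⁄K] = s.card := by
    rw [← h1]
    congr 1 <;> rw [hrange]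
  haveI : Algebra.FormallyEtale (adjoin K (s : Set F)) F :=
    Algebra.FormallyEtale.of_isSeparable _ F
  rw [← (tensorKaehlerEquivOfFormallyEtale K (adjoin K (s : Set F)) F).finrank_eq,
    Module.finrank_baseChange, h2]

end SeparatingBasis

section Generator

open Fermat.Agent.X0.FF

variable (K F : Type*) [Field K] [Field F] [Algebra K F]

/-- A finitely generated extension of a perfect field with `Ω[F⁄K]` of rank one has a separating
transcendental generator. -/
theorem exists_isGen_of_finrank_kaehler [PerfectField K] [Algebra.EssFiniteType K F]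
    (h : Module.finrank F Ω[F⁄K] = 1) : ∃ x : F, IsGen K x := by
  classical
  obtain ⟨s, hs, hsep⟩ := exists_isTranscendenceBasis_and_isSeparable_of_perfectField K F
  have hcard : s.card = 1 := by rw [← finrank_kaehler_eq_card s hs, h]
  obtain ⟨x, rfl⟩ := Finset.card_eq_one.mp hcard
  refine ⟨x, ?_, ?_⟩
  · exact hs.1.transcendental ⟨x, Finset.mem_singleton_self x⟩
  · rw [Finset.coe_singleton] at hsep
    haveI : Algebra.EssFiniteType K⟮x⟯ F := Algebra.EssFiniteType.of_comp K K⟮x⟯ F
    haveI : Algebra.IsAlgebraic K⟮x⟯ F := Algebra.IsSeparable.isAlgebraic _ _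
    exact Algebra.finite_of_essFiniteType_of_isAlgebraic

/-- **The S27 hypotheses give a transcendental generator** (hence the whole `FF`/`RR` library). -/
theorem exists_isGen [IsAlgClosed K] [CharZero K] [AlgebraicCurve.IsCurveOver K F]
    [Algebra.EssFiniteType K F] : ∃ x : F, IsGen K x :=
  exists_isGen_of_finrank_kaehler K F AlgebraicCurve.IsCurveOver.finrank_kaehler

end Generator

end Fermat.Agent.JAC.FF.Gen38
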