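/-
Programme JAC, S27 track, brick C0 (helper9): the scheme glued from a CURVE block.

Given `k`-algebras `A0 → A01 ← A1` with `A01 = A0[1/t] = A1[1/s]`, `t s = 1` in `A01`, we glue
`Spec A0` and `Spec A1` along `Spec A01` (Mathlib's locally directed gluing: a pushout of open
immersions) and prove the basic properties of the resulting `k`-scheme.
-/
import Mathlib
import Fermat.Agent.IG.SCH.GlueIntegral13

set_option autoImplicit false

universe u

open CategoryTheory CategoryTheory.Limits AlgebraicGeometry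

namespace Fermat.Agent.JAC.FF.TwoChartScheme9

noncomputable section

/-! ### General lemmas -/

section General

open TensorProduct

/-- A morphism is separated as soon as, for an open cover of the source, the maps
`U_i ×_X U_j ⟶ U_i ×_S U_j` are closed immersions. -/
theorem isSeparated_of_openCover {X S : Scheme.{u}} (f : X ⟶ S) (𝒰 : X.OpenCover)
    (H : ∀ i j, IsClosedImmersion (pullback.lift (pullback.fst (𝒰.f i) (𝒰.f j))
      (pullback.snd (𝒰.f i) (𝒰.f j)) (by simp [pullback.condition_assoc]) :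
        pullback (𝒰.f i) (𝒰.f j) ⟶ pullback (𝒰.f i ≫ f) (𝒰.f j ≫ f))) : IsSeparated f := by
  refine ⟨IsZariskiLocalAtTarget.of_openCover (Scheme.Pullback.openCoverOfLeftRight
    𝒰 𝒰 f f) ?_⟩
  intro ⟨i, j⟩
  dsimp [Scheme.Cover.pullbackHom]
  refine (MorphismProperty.cancel_left_of_respectsIso (P := @IsClosedImmersion)
    (f := (pullbackDiagonalMapIdIso ..).inv) _).mp ?_
  have e : (pullbackDiagonalMapIdIso (𝒰.f i) (𝒰.f j) f).inv ≫ pullback.snd _ _ =
      pullback.lift (pullback.fst (𝒰.f i) (𝒰.f j))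
      (pullback.snd (𝒰.f i) (𝒰.f j)) (by simp [pullback.condition_assoc]) := by
    apply pullback.hom_ext
    · rw [Category.assoc, pullbackDiagonalMapIdIso_inv_snd_fst, pullback.lift_fst]
    · rw [Category.assoc, pullbackDiagonalMapIdIso_inv_snd_snd, pullback.lift_snd]
  erw [e]
  exact H i j

/-- The affine criterion: if two affine charts `Spec R`, `Spec R'` of a `k`-scheme `X` meet in
`Spec T` and every element of `T` is a product `φ r * ψ r'`, then
`Spec R ×_X Spec R' ⟶ Spec R ×_k Spec R'` is a closed immersion. -/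
theorem isClosedImmersion_lift_of_isPullback {X : Scheme.{u}} {k R R' T : Type u} [CommRing k]
    [CommRing R] [CommRing R'] [CommRing T] [Algebra k R] [Algebra k R']
    (a : Spec (.of R) ⟶ X) (b : Spec (.of R') ⟶ X) (f : X ⟶ Spec (.of k))
    (ha : a ≫ f = Spec.map (CommRingCat.ofHom (algebraMap k R)))
    (hb : b ≫ f = Spec.map (CommRingCat.ofHom (algebraMap k R')))
    (φ : R →+* T) (ψ : R' →+* T)
    (hP : IsPullback (Spec.map (CommRingCat.ofHom φ)) (Spec.map (CommRingCat.ofHom ψ)) a b)
    (hsurj : ∀ x : T, ∃ r r', φ r * ψ r' = x) :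
    IsClosedImmersion (pullback.lift (pullback.fst a b) (pullback.snd a b)
      (by simp [pullback.condition_assoc]) : pullback a b ⟶ pullback (a ≫ f) (b ≫ f)) := by
  -- the two ring maps agree on `k`
  have hk : φ.comp (algebraMap k R) = ψ.comp (algebraMap k R') := by
    have h1 : Spec.map (CommRingCat.ofHom φ) ≫ a ≫ f =
        Spec.map (CommRingCat.ofHom ψ) ≫ b ≫ f := by
      rw [← Category.assoc, hP.w, Category.assoc]
    rw [ha, hb, ← Spec.map_comp, ← Spec.map_comp] at h1
    have h2 := Spec.map_injective h1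
    have h3 := congrArg CommRingCat.Hom.hom h2
    simpa using h3
  let _ : Algebra k T := (φ.comp (algebraMap k R)).toAlgebra
  let φ' : R →ₐ[k] T := { φ with commutes' := fun c => rfl }
  let ψ' : R' →ₐ[k] T := { ψ with commutes' := fun c => (RingHom.congr_fun hk c).symm }
  let F : R ⊗[k] R' →ₐ[k] T := Algebra.TensorProduct.lift φ' ψ' (fun _ _ => Commute.all _ _)
  have hF : Function.Surjective F.toRingHom := by
    intro x
    obtain ⟨r, r', rfl⟩ := hsurj x
    exact ⟨r ⊗ₜ r', by simp [F, φ', ψ']⟩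
  have hcl : IsClosedImmersion (Spec.map (CommRingCat.ofHom F.toRingHom)) :=
    IsClosedImmersion.spec_of_surjective _ hF
  let e₁ : pullback (a ≫ f) (b ≫ f) ≅ Spec (.of (R ⊗[k] R')) :=
    pullback.congrHom ha hb ≪≫ pullbackSpecIso k R R'
  rw [← MorphismProperty.cancel_right_of_respectsIso (P := @IsClosedImmersion) _ e₁.hom,
    ← MorphismProperty.cancel_left_of_respectsIso (P := @IsClosedImmersion) hP.isoPullback.hom]
  convert hcl using 1
  rw [← cancel_mono (pullbackSpecIso k R R').inv]
  apply pullback.hom_ext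
  · simp only [e₁, Iso.trans_hom, pullback.congrHom_hom, Category.assoc, Iso.hom_inv_id,
      Category.comp_id, pullback.lift_fst, pullbackSpecIso_inv_fst, ← Spec.map_comp,
      IsPullback.isoPullback_hom_fst, pullback.map]
    congr 1
    ext r
    simp [F, φ']
  · simp only [e₁, Iso.trans_hom, pullback.congrHom_hom, Category.assoc, Iso.hom_inv_id,
      Category.comp_id, pullback.lift_snd, pullbackSpecIso_inv_snd, ← Spec.map_comp,
      IsPullback.isoPullback_hom_snd, pullback.map]
    congr 1
    ext r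
    simp [F, ψ']

/-- The image of a chart ring integral over `k[t]` lands in the valuation ring as soon as the
images of `k` and `t` do. -/
theorem range_subset_of_integral {k A O L : Type*} [CommRing k] [CommRing A] [Algebra k A]
    [CommRing O] [IsDomain O] [ValuationRing O] [Field L] [Algebra O L] [IsFractionRing O L]
    (t : A) (hint : ∀ a : A, IsIntegral (Algebra.adjoin k {t}) a)
    (γ : A →+* L) (hk : ∀ c : k, γ (algebraMap k A c) ∈ (algebraMap O L).range)
    (ht : γ t ∈ (algebraMap O L).range) (a : A) : γ a ∈ (algebraMap O L).range := by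
  -- the subalgebra of `A` mapping into `O`
  let S : Subalgebra k A :=
    { (algebraMap O L).range.comap γ with
      algebraMap_mem' := fun c => hk c }
  have hS : Algebra.adjoin k {t} ≤ S := Algebra.adjoin_le (by
    intro x hx
    rw [Set.mem_singleton_iff] at hx
    subst hx
    exact ht)
  -- the restriction of `γ` to `k[t]`, with values in `O`
  have hinj : Function.Injective (algebraMap O L) := IsFractionRing.injective O L
  have hB : ∀ b : Algebra.adjoin k {t}, ∃ o : O, algebraMap O L o = γ b := fun b => hS b.2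
  choose φ₀ hφ₀ using hB
  let φ : Algebra.adjoin k {t} →+* O :=
    { toFun := φ₀
      map_one' := hinj (by rw [hφ₀]; simp)
      map_mul' := fun x y => hinj (by rw [hφ₀, map_mul, hφ₀, hφ₀]; simp)
      map_zero' := hinj (by rw [hφ₀]; simp)
      map_add' := fun x y => hinj (by rw [hφ₀, map_add, hφ₀, hφ₀]; simp) }
  have h1 : IsIntegral O (γ a) :=
    IsIntegral.map_of_comp_eq φ γ (by
      ext b
      exact hφ₀ b) (hint a)
  exact (IsIntegrallyClosed.isIntegral_iff (R := O) (K := L)).mp h1

theorem hasLift_of_chart {X : Scheme.{u}} {k A : Type u} [CommRing k] [CommRing A] [Algebra k A]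
    (f : X ⟶ Spec (.of k)) (ι : Spec (.of A) ⟶ X)
    (hι : ι ≫ f = Spec.map (CommRingCat.ofHom (algebraMap k A)))
    (t : A) (hint : ∀ a : A, IsIntegral (Algebra.adjoin k {t}) a)
    (S : ValuativeCommSq f) (γ : A →+* S.K)
    (hγ : S.i₁ = Spec.map (CommRingCat.ofHom γ) ≫ ι)
    (ht : γ t ∈ (algebraMap S.R S.K).range) : S.commSq.HasLift := by
  obtain ⟨β, hβ⟩ := Spec.map_surjective S.i₂
  have hinj : Function.Injective (algebraMap S.R S.K) := IsFractionRing.injective S.R S.K
  -- compatibility over `k`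
  have hcomm : γ.comp (algebraMap k A) = (algebraMap S.R S.K).comp β.hom := by
    have h1 := S.commSq.w
    rw [hγ, Category.assoc, hι, ← hβ, ← Spec.map_comp, ← Spec.map_comp] at h1
    have h2 := congrArg CommRingCat.Hom.hom (Spec.map_injective h1)
    simpa using h2
  have hrange : ∀ a : A, ∃ o : S.R, algebraMap S.R S.K o = γ a := fun a =>
    range_subset_of_integral t hint γ (fun c => ⟨β.hom c, (RingHom.congr_fun hcomm c).symm⟩) ht a
  choose γ₀ hγ₀ using hrange
  let γ' : A →+* S.R :=
    { toFun := γ₀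
      map_one' := hinj (by rw [hγ₀]; simp)
      map_mul' := fun x y => hinj (by rw [hγ₀, map_mul, map_mul, hγ₀, hγ₀])
      map_zero' := hinj (by rw [hγ₀]; simp)
      map_add' := fun x y => hinj (by rw [hγ₀, map_add, map_add, hγ₀, hγ₀]) }
  have hγ' : (algebraMap S.R S.K).comp γ' = γ := RingHom.ext hγ₀
  refine CommSq.HasLift.mk' ⟨Spec.map (CommRingCat.ofHom γ') ≫ ι, ?_, ?_⟩
  · rw [hγ, ← Category.assoc, ← Spec.map_comp, ← CommRingCat.ofHom_comp, hγ']
  · rw [Category.assoc, hι, ← Spec.map_comp, ← hβ]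
    congr 1
    ext c
    apply hinj
    have := RingHom.congr_fun hcomm c
    simp only [RingHom.comp_apply] at this
    simp only [CommRingCat.hom_comp, CommRingCat.hom_ofHom, RingHom.comp_apply]
    rw [← this]
    exact hγ₀ _

theorem hasLift_of_two_charts {X : Scheme.{u}} {k A A' A01 : Type u} [CommRing k] [CommRing A]
    [CommRing A'] [CommRing A01] [Algebra k A] [Algebra k A'] [Algebra A A01] [Algebra A' A01]
    (f : X ⟶ Spec (.of k)) (ι : Spec (.of A) ⟶ X) (ι' : Spec (.of A') ⟶ X)
    (hι : ι ≫ f = Spec.map (CommRingCat.ofHom (algebraMap k A)))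
    (hι' : ι' ≫ f = Spec.map (CommRingCat.ofHom (algebraMap k A')))
    (hglue : Spec.map (CommRingCat.ofHom (algebraMap A A01)) ≫ ι =
      Spec.map (CommRingCat.ofHom (algebraMap A' A01)) ≫ ι')
    (t : A) (s : A') [IsLocalization.Away t A01]
    (hts : algebraMap A A01 t * algebraMap A' A01 s = 1)
    (hint : ∀ a : A, IsIntegral (Algebra.adjoin k {t}) a)
    (hint' : ∀ a : A', IsIntegral (Algebra.adjoin k {s}) a)
    (S : ValuativeCommSq f) (γ : A →+* S.K)
    (hγ : S.i₁ = Spec.map (CommRingCat.ofHom γ) ≫ ι) : S.commSq.HasLift := by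
  by_cases ht : γ t ∈ (algebraMap S.R S.K).range
  · exact hasLift_of_chart f ι hι t hint S γ hγ ht
  · have ht0 : γ t ≠ 0 := by
      intro h0
      exact ht ⟨0, by rw [h0, map_zero]⟩
    have hinv : (γ t)⁻¹ ∈ (algebraMap S.R S.K).range := by
      rcases ValuationRing.isInteger_or_isInteger S.R (γ t) with h | h
      · obtain ⟨y, hy⟩ := h
        exact absurd ⟨y, hy⟩ ht
      · obtain ⟨y, hy⟩ := h
        exact ⟨y, hy⟩
    have hunit : IsUnit (γ t) := IsUnit.mk0 _ ht0
    let γ01 : A01 →+* S.K := IsLocalization.Away.lift t hunit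
    have hγ01 : γ01.comp (algebraMap A A01) = γ :=
      RingHom.ext fun a => IsLocalization.Away.lift_eq t hunit a
    let γ1 : A' →+* S.K := γ01.comp (algebraMap A' A01)
    have hs : γ1 s = (γ t)⁻¹ := by
      have h1 : γ01 (algebraMap A A01 t) * γ01 (algebraMap A' A01 s) = 1 := by
        rw [← map_mul, hts, map_one]
      have h2 : γ01 (algebraMap A A01 t) = γ t := RingHom.congr_fun hγ01 t
      rw [h2] at h1
      exact eq_inv_of_mul_eq_one_right h1
    refine hasLift_of_chart f ι' hι' s hint' S γ1 ?_ (hs ▸ hinv)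
    rw [hγ, ← hγ01, CommRingCat.ofHom_comp, Spec.map_comp, Category.assoc, hglue,
      ← Category.assoc, ← Spec.map_comp, ← CommRingCat.ofHom_comp]

end General


variable (A0 A1 A01 : Type u) [CommRing A0] [CommRing A1] [CommRing A01]
  [Algebra A0 A01] [Algebra A1 A01]

/-- The inclusion of the overlap into the first chart. -/
def j0 : Spec (.of A01) ⟶ Spec (.of A0) := Spec.map (CommRingCat.ofHom (algebraMap A0 A01))

/-- The inclusion of the overlap into the second chart. -/
def j1 : Spec (.of A01) ⟶ Spec (.of A1) := Spec.map (CommRingCat.ofHom (algebraMap A1 A01))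

theorem isOpenImmersion_j0 (t : A0) [IsLocalization.Away t A01] : IsOpenImmersion (j0 A0 A01) :=
  IsOpenImmersion.of_isLocalization t

theorem isOpenImmersion_j1 (s : A1) [IsLocalization.Away s A01] : IsOpenImmersion (j1 A1 A01) :=
  IsOpenImmersion.of_isLocalization s

variable [h0 : IsOpenImmersion (j0 A0 A01)] [h1 : IsOpenImmersion (j1 A1 A01)]

/-- The glued curve. -/
def curve : Scheme.{u} := pushout (j0 A0 A01) (j1 A1 A01)

/-- The first chart. -/
def ι0 : Spec (.of A0) ⟶ curve A0 A1 A01 := pushout.inl _ _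

/-- The second chart. -/
def ι1 : Spec (.of A1) ⟶ curve A0 A1 A01 := pushout.inr _ _

theorem condition : j0 A0 A01 ≫ ι0 A0 A1 A01 = j1 A1 A01 ≫ ι1 A0 A1 A01 := pushout.condition

instance : IsOpenImmersion (ι0 A0 A1 A01) :=
  (Scheme.IsLocallyDirected.openCover (span (j0 A0 A01) (j1 A1 A01))).map_prop WalkingSpan.left

instance : IsOpenImmersion (ι1 A0 A1 A01) :=
  (Scheme.IsLocallyDirected.openCover (span (j0 A0 A01) (j1 A1 A01))).map_prop WalkingSpan.right

/-- The overlap chart. -/
def ι01 : Spec (.of A01) ⟶ curve A0 A1 A01 := j0 A0 A01 ≫ ι0 A0 A1 A01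

theorem ι01_eq : ι01 A0 A1 A01 = j1 A1 A01 ≫ ι1 A0 A1 A01 := condition A0 A1 A01

instance : IsOpenImmersion (ι01 A0 A1 A01) := by
  unfold ι01; infer_instance

/-- The two charts cover the curve. -/
theorem exists_mem_range (x : curve A0 A1 A01) :
    x ∈ Set.range (ι0 A0 A1 A01).base ∨ x ∈ Set.range (ι1 A0 A1 A01).base := by
  obtain ⟨i, y, hy⟩ := Scheme.IsLocallyDirected.ι_jointly_surjective
    (span (j0 A0 A01) (j1 A1 A01)) x
  rcases i with _ | _ | _
  · left
    refine ⟨(j0 A0 A01).base y, ?_⟩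
    rw [← hy, ← colimit.w (span (j0 A0 A01) (j1 A1 A01)) WalkingSpan.Hom.fst]
    rfl
  · left; exact ⟨y, hy⟩
  · right; exact ⟨y, hy⟩

/-- Two points of the two charts are identified iff they come from the overlap. -/
theorem ι0_eq_ι1_iff (x0 : Spec (.of A0)) (x1 : Spec (.of A1)) :
    (ι0 A0 A1 A01).base x0 = (ι1 A0 A1 A01).base x1 ↔
      ∃ y : Spec (.of A01), (j0 A0 A01).base y = x0 ∧ (j1 A1 A01).base y = x1 := by
  have key := Scheme.IsLocallyDirected.ι_eq_ι_iff (F := span (j0 A0 A01) (j1 A1 A01))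
    (i := WalkingSpan.left) (j := WalkingSpan.right) (xi := x0) (xj := x1)
  constructor
  · intro hx
    obtain ⟨k, fi, fj, y, hy0, hy1⟩ := key.mp hx
    rcases k with _ | _ | _
    · rcases fi with _ | fi
      rcases fj with _ | fj
      exact ⟨y, hy0, hy1⟩
    · have fj' : WidePushoutShape.Hom (some WalkingPair.left) (some WalkingPair.right) := fj
      cases fj'
    · have fi' : WidePushoutShape.Hom (some WalkingPair.right) (some WalkingPair.left) := fi
      cases fi'
  · rintro ⟨y, hy0, hy1⟩
    exact key.mpr ⟨WalkingSpan.zero, WalkingSpan.Hom.fst, WalkingSpan.Hom.snd, y, hy0, hy1⟩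

/-- The overlap is the intersection of the two charts. -/
theorem isPullback : IsPullback (j0 A0 A01) (j1 A1 A01) (ι0 A0 A1 A01) (ι1 A0 A1 A01) := by
  refine (IsOpenImmersion.isPullback (j1 A1 A01) (j0 A0 A01) (ι1 A0 A1 A01) (ι0 A0 A1 A01)
    (condition A0 A1 A01) ?_).flip
  ext x0
  simp only [Scheme.Hom.coe_preimage, Set.mem_preimage, SetLike.mem_coe,
    Scheme.Hom.mem_opensRange]
  constructor
  · rintro ⟨x1, hx1⟩
    obtain ⟨y, hy0, -⟩ := (ι0_eq_ι1_iff A0 A1 A01 x0 x1).mp hx1.symm
    exact ⟨y, hy0⟩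
  · rintro ⟨y, rfl⟩
    refine ⟨(j1 A1 A01).base y, ?_⟩
    exact ((ι0_eq_ι1_iff A0 A1 A01 _ _).mpr ⟨y, rfl, rfl⟩).symm

/-- The two charts, indexed by `Bool` (`false ↦ A0`, `true ↦ A1`). -/
def chartObj : Bool → Scheme.{u}
  | false => Spec (.of A0)
  | true => Spec (.of A1)

/-- The two chart maps, indexed by `Bool`. -/
def chartMap : ∀ b : Bool, chartObj A0 A1 b ⟶ curve A0 A1 A01
  | false => ι0 A0 A1 A01
  | true => ι1 A0 A1 A01

instance (b : Bool) : IsOpenImmersion (chartMap A0 A1 A01 b) := by
  cases b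
  · exact inferInstanceAs (IsOpenImmersion (ι0 A0 A1 A01))
  · exact inferInstanceAs (IsOpenImmersion (ι1 A0 A1 A01))

instance (b : Bool) : IsAffine (chartObj A0 A1 b) := by
  cases b <;> (unfold chartObj; infer_instance)

/-- The affine open cover of the curve by its two charts. -/
def cover : (curve A0 A1 A01).OpenCover :=
  Scheme.Cover.mkOfCovers Bool (chartObj A0 A1) (chartMap A0 A1 A01) (fun x => by
    rcases exists_mem_range A0 A1 A01 x with ⟨y, hy⟩ | ⟨y, hy⟩
    · exact ⟨false, y, hy⟩
    · exact ⟨true, y, hy⟩) (fun b => inferInstance)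

theorem isIntegral_curve [IsDomain A0] [IsDomain A1] [Nontrivial A01] :
    IsIntegral (curve A0 A1 A01) := by
  have : ∀ b, IsIntegral (chartObj A0 A1 b) := by
    intro b; cases b <;> (unfold chartObj; infer_instance)
  refine Fermat.Agent.IG.SCH.GlueIntegral13.isIntegral_of_family (chartObj A0 A1)
    (chartMap A0 A1 A01) ?_ false ?_
  · intro x
    rcases exists_mem_range A0 A1 A01 x with h | h
    · exact ⟨false, h⟩
    · exact ⟨true, h⟩
  · obtain ⟨y⟩ : Nonempty (Spec (.of A01)) := inferInstance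
    intro b
    cases b
    · exact ⟨_, ⟨(j0 A0 A01).base y, rfl⟩, ⟨(j0 A0 A01).base y, rfl⟩⟩
    · refine ⟨_, ⟨(j0 A0 A01).base y, rfl⟩, ⟨(j1 A1 A01).base y, ?_⟩⟩
      exact ((ι0_eq_ι1_iff A0 A1 A01 _ _).mpr ⟨y, rfl, rfl⟩).symm

section Base

variable (k : Type u) [CommRing k] [Algebra k A0] [Algebra k A1] [Algebra k A01]
  [IsScalarTower k A0 A01] [IsScalarTower k A1 A01]

/-- The structure morphism of the glued curve. -/
def toBase : curve A0 A1 A01 ⟶ Spec (.of k) :=
  pushout.desc (Spec.map (CommRingCat.ofHom (algebraMap k A0)))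
    (Spec.map (CommRingCat.ofHom (algebraMap k A1))) (by
      simp only [j0, j1, ← Spec.map_comp, ← CommRingCat.ofHom_comp]
      rw [← IsScalarTower.algebraMap_eq, ← IsScalarTower.algebraMap_eq])

@[reassoc (attr := simp)]
theorem ι0_toBase : ι0 A0 A1 A01 ≫ toBase A0 A1 A01 k =
    Spec.map (CommRingCat.ofHom (algebraMap k A0)) := pushout.inl_desc _ _ _

@[reassoc (attr := simp)]
theorem ι1_toBase : ι1 A0 A1 A01 ≫ toBase A0 A1 A01 k =
    Spec.map (CommRingCat.ofHom (algebraMap k A1)) := pushout.inr_desc _ _ _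

@[reassoc (attr := simp)]
theorem ι01_toBase : ι01 A0 A1 A01 ≫ toBase A0 A1 A01 k =
    Spec.map (CommRingCat.ofHom (algebraMap k A01)) := by
  unfold ι01
  rw [Category.assoc, ι0_toBase, j0, ← Spec.map_comp, ← CommRingCat.ofHom_comp,
    ← IsScalarTower.algebraMap_eq]

/-- The glued curve is separated as soon as `A01` is generated by the images of `A0` and `A1`
(in the form: every element is a product). -/
theorem isSeparated_toBase
    (hsurj : ∀ x : A01, ∃ a b, algebraMap A0 A01 a * algebraMap A1 A01 b = x) :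
    IsSeparated (toBase A0 A1 A01 k) := by
  refine isSeparated_of_openCover _ (cover A0 A1 A01) ?_
  intro b b'
  cases b <;> cases b'
  · exact isClosedImmersion_lift_of_isPullback (ι0 A0 A1 A01) (ι0 A0 A1 A01) (toBase A0 A1 A01 k)
      (ι0_toBase A0 A1 A01 k) (ι0_toBase A0 A1 A01 k) (RingHom.id A0) (RingHom.id A0)
      (by
        have := (IsKernelPair.id_of_mono (ι0 A0 A1 A01))
        convert this using 1 <;> exact Spec.map_id _)
      (fun x => ⟨x, 1, by simp⟩)
  · exact isClosedImmersion_lift_of_isPullback (ι0 A0 A1 A01) (ι1 A0 A1 A01) (toBase A0 A1 A01 k)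
      (ι0_toBase A0 A1 A01 k) (ι1_toBase A0 A1 A01 k) (algebraMap A0 A01) (algebraMap A1 A01)
      (isPullback A0 A1 A01) hsurj
  · exact isClosedImmersion_lift_of_isPullback (ι1 A0 A1 A01) (ι0 A0 A1 A01) (toBase A0 A1 A01 k)
      (ι1_toBase A0 A1 A01 k) (ι0_toBase A0 A1 A01 k) (algebraMap A1 A01) (algebraMap A0 A01)
      (isPullback A0 A1 A01).flip
      (fun x => by obtain ⟨a, b, h⟩ := hsurj x; exact ⟨b, a, by rw [mul_comm, h]⟩)
  · exact isClosedImmersion_lift_of_isPullback (ι1 A0 A1 A01) (ι1 A0 A1 A01) (toBase A0 A1 A01 k)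
      (ι1_toBase A0 A1 A01 k) (ι1_toBase A0 A1 A01 k) (RingHom.id A1) (RingHom.id A1)
      (by
        have := (IsKernelPair.id_of_mono (ι1 A0 A1 A01))
        convert this using 1 <;> exact Spec.map_id _)
      (fun x => ⟨x, 1, by simp⟩)

/-- A property that is local at the source holds for the structure morphism as soon as it holds
on the two charts. -/
theorem toBase_of_charts {P : MorphismProperty Scheme.{u}} [IsZariskiLocalAtSource P]
    (h0 : P (Spec.map (CommRingCat.ofHom (algebraMap k A0))))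
    (h1 : P (Spec.map (CommRingCat.ofHom (algebraMap k A1)))) : P (toBase A0 A1 A01 k) := by
  rw [IsZariskiLocalAtSource.iff_of_openCover (P := P) (cover A0 A1 A01)]
  intro b
  cases b
  · exact (ι0_toBase A0 A1 A01 k).symm ▸ h0
  · exact (ι1_toBase A0 A1 A01 k).symm ▸ h1

set_option backward.isDefEq.respectTransparency false in
theorem locallyOfFiniteType_toBase [Algebra.FiniteType k A0] [Algebra.FiniteType k A1] :
    LocallyOfFiniteType (toBase A0 A1 A01 k) := by
  refine toBase_of_charts A0 A1 A01 k (P := @LocallyOfFiniteType) ?_ ?_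
  · rw [HasRingHomProperty.Spec_iff (P := @LocallyOfFiniteType)]
    exact (RingHom.finiteType_algebraMap).mpr inferInstance
  · rw [HasRingHomProperty.Spec_iff (P := @LocallyOfFiniteType)]
    exact (RingHom.finiteType_algebraMap).mpr inferInstance

set_option backward.isDefEq.respectTransparency false in
theorem smoothOfRelativeDimension_toBase (n : ℕ)
    (h0 : RingHom.Locally (RingHom.IsStandardSmoothOfRelativeDimension n) (algebraMap k A0))
    (h1 : RingHom.Locally (RingHom.IsStandardSmoothOfRelativeDimension n) (algebraMap k A1)) :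
    SmoothOfRelativeDimension n (toBase A0 A1 A01 k) := by
  refine toBase_of_charts A0 A1 A01 k (P := @SmoothOfRelativeDimension n) ?_ ?_
  · rw [HasRingHomProperty.Spec_iff (P := @SmoothOfRelativeDimension n)]
    exact h0
  · rw [HasRingHomProperty.Spec_iff (P := @SmoothOfRelativeDimension n)]
    exact h1

instance : CompactSpace (curve A0 A1 A01) := by
  constructor
  have : (Set.univ : Set (curve A0 A1 A01)) =
      Set.range (ι0 A0 A1 A01).base ∪ Set.range (ι1 A0 A1 A01).base := by
    ext x
    simpa using exists_mem_range A0 A1 A01 x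
  rw [this]
  exact (isCompact_range (ι0 A0 A1 A01).continuous).union
    (isCompact_range (ι1 A0 A1 A01).continuous)

set_option backward.isDefEq.respectTransparency false in
instance : QuasiCompact (toBase A0 A1 A01 k) := by
  rw [HasAffineProperty.iff_of_isAffine (P := @QuasiCompact)]
  infer_instance

/-- **Existence part of the valuative criterion** for the glued curve: both charts are integral
over the polynomial rings `k[t]`, `k[s]` and `t s = 1` on the overlap. -/
theorem existence_toBase (t : A0) (s : A1) [IsLocalization.Away t A01]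
    [IsLocalization.Away s A01] (hts : algebraMap A0 A01 t * algebraMap A1 A01 s = 1)
    (hint0 : ∀ a : A0, IsIntegral (Algebra.adjoin k {t}) a)
    (hint1 : ∀ a : A1, IsIntegral (Algebra.adjoin k {s}) a) :
    ValuativeCriterion.Existence (toBase A0 A1 A01 k) := by
  intro S
  let x : Spec (.of S.K) := default
  have hsub : ∀ (U : Set (curve A0 A1 A01)), S.i₁.base x ∈ U → Set.range S.i₁.base ⊆ U := by
    rintro U hU _ ⟨y, rfl⟩
    rwa [Subsingleton.elim y x]
  rcases exists_mem_range A0 A1 A01 (S.i₁.base x) with h | h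
  · have hfac := IsOpenImmersion.lift_fac (ι0 A0 A1 A01) S.i₁ (hsub _ h)
    obtain ⟨γ, hγ⟩ := Spec.map_surjective (IsOpenImmersion.lift (ι0 A0 A1 A01) S.i₁ (hsub _ h))
    refine hasLift_of_two_charts (toBase A0 A1 A01 k) (ι0 A0 A1 A01) (ι1 A0 A1 A01)
      (ι0_toBase A0 A1 A01 k) (ι1_toBase A0 A1 A01 k) (condition A0 A1 A01) t s hts hint0 hint1
      S γ.hom ?_
    rw [← hfac, ← hγ]
    rfl
  · have hfac := IsOpenImmersion.lift_fac (ι1 A0 A1 A01) S.i₁ (hsub _ h)
    obtain ⟨γ, hγ⟩ := Spec.map_surjective (IsOpenImmersion.lift (ι1 A0 A1 A01) S.i₁ (hsub _ h))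
    refine hasLift_of_two_charts (toBase A0 A1 A01 k) (ι1 A0 A1 A01) (ι0 A0 A1 A01)
      (ι1_toBase A0 A1 A01 k) (ι0_toBase A0 A1 A01 k) (condition A0 A1 A01).symm s t
      (by rw [mul_comm]; exact hts) hint1 hint0 S γ.hom ?_
    rw [← hfac, ← hγ]
    rfl

/-- **Properness of the glued curve.** -/
theorem isProper_toBase [Algebra.FiniteType k A0] [Algebra.FiniteType k A1]
    (t : A0) (s : A1) [IsLocalization.Away t A01]
    [IsLocalization.Away s A01] (hts : algebraMap A0 A01 t * algebraMap A1 A01 s = 1)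
    (hint0 : ∀ a : A0, IsIntegral (Algebra.adjoin k {t}) a)
    (hint1 : ∀ a : A1, IsIntegral (Algebra.adjoin k {s}) a) :
    IsProper (toBase A0 A1 A01 k) := by
  have hsep : IsSeparated (toBase A0 A1 A01 k) := by
    refine isSeparated_toBase A0 A1 A01 k ?_
    intro x
    obtain ⟨⟨a, n⟩, hx⟩ := IsLocalization.surj (Submonoid.powers t) x
    obtain ⟨m, hm⟩ := n.2
    refine ⟨a, s ^ m, ?_⟩
    have h1 : algebraMap A0 A01 (t ^ m) * algebraMap A1 A01 (s ^ m) = 1 := by
      rw [map_pow, map_pow, ← mul_pow, hts, one_pow]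
    simp only at hx
    rw [← hx, ← hm, mul_assoc, h1, mul_one]
  have hft : LocallyOfFiniteType (toBase A0 A1 A01 k) := locallyOfFiniteType_toBase A0 A1 A01 k
  have huc : UniversallyClosed (toBase A0 A1 A01 k) :=
    UniversallyClosed.of_valuativeCriterion _
      (existence_toBase A0 A1 A01 k t s hts hint0 hint1)
  exact { }

/-- The rational point of the glued curve attached to a `k`-point of the overlap. -/
def point (e : A01 →ₐ[k] k) : Spec (.of k) ⟶ curve A0 A1 A01 :=
  Spec.map (CommRingCat.ofHom e.toRingHom) ≫ ι01 A0 A1 A01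

@[reassoc (attr := simp)]
theorem point_toBase (e : A01 →ₐ[k] k) :
    point A0 A1 A01 k e ≫ toBase A0 A1 A01 k = 𝟙 _ := by
  unfold point
  rw [Category.assoc, ι01_toBase, ← Spec.map_comp, ← CommRingCat.ofHom_comp]
  have : (e.toRingHom).comp (algebraMap k A01) = RingHom.id k := by
    ext c
    simp
  rw [this]
  exact Spec.map_id _

end Base

end

end Fermat.Agent.JAC.FF.TwoChartScheme9
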