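/-
Programme JAC, S27 track, brick C0 part 2 (helper9): **the projective curve of a function field**.

For `K` algebraically closed of characteristic zero, `F / K` a function field with a separating
generator `x` (`hx : IsGen K x`), we glue `Spec A₀` and `Spec A₁` along `Spec A₀₁`
(`A₀ = ringFin K x`, `A₁ = ringInf K x`, `A₀₁ = ringBoth K x`) to a scheme `curveFF hx` over
`Spec K` and prove that it is integral, proper, smooth of relative dimension one, and has a
rational point.  Everything lives in ONE universe `u` (both `K` and `F`).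
-/
import Mathlib
import Fermat.Agent.JAC.FF.TwoChartScheme9
import Fermat.Agent.JAC.FF.ChartCurve9
import Fermat.Agent.JAC.FF.ChartGeom9
import Fermat.Agent.JAC.FF.Gen38

set_option autoImplicit false
set_option linter.style.haveILetI false

universe u

open CategoryTheory CategoryTheory.Limits AlgebraicGeometry AlgebraicCurve Polynomial
open KaehlerDifferential

namespace Fermat.Agent.JAC.FF.CurveScheme9

open Fermat.Agent.X0.FF
open Fermat.Agent.JAC.FF.CechRings9 Fermat.Agent.JAC.FF.ChartAlg9 Fermat.Agent.JAC.FF.ChartSmooth9
open Fermat.Agent.JAC.FF.ChartCurve9 Fermat.Agent.JAC.FF.ChartGeom9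
open Fermat.Agent.JAC.FF.TwoChartScheme9

/-! ### Two general algebra lemmas -/

section Algebra

/-- If `A` is a finite `k[X]`-module with `X ↦ t`, every element of `A` is integral over
`k[t] = Algebra.adjoin k {t}`. -/
theorem isIntegral_adjoin_of_finite {k A : Type*} [Field k] [CommRing A] [Algebra k A] (t : A)
    [Algebra k[X] A] [IsScalarTower k k[X] A] (hX : algebraMap k[X] A X = t)
    [Module.Finite k[X] A] (a : A) : IsIntegral (Algebra.adjoin k {t}) a := by
  have h : (IsScalarTower.toAlgHom k k[X] A) = aeval t := by
    apply Polynomial.algHom_ext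
    rw [aeval_X]
    exact hX
  have hmem : ∀ p : k[X], algebraMap k[X] A p ∈ Algebra.adjoin k {t} := by
    intro p
    have h1 : algebraMap k[X] A p = aeval t p := by
      rw [← h]; rfl
    rw [h1]
    exact aeval_mem_adjoin_singleton k t
  let φ : k[X] →+* Algebra.adjoin k {t} := (algebraMap k[X] A).codRestrict _ hmem
  have ha : IsIntegral k[X] a := IsIntegral.of_finite k[X] a
  exact IsIntegral.map_of_comp_eq φ (RingHom.id A) (by ext p <;> rfl) ha

/-- A smooth domain over a field whose fraction field has one-dimensional Kähler differentials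
is locally standard smooth of relative dimension one. -/
theorem locally_isStandardSmoothOfRelativeDimension_one {K A : Type u} {F : Type*} [Field K] [CommRing A]
    [IsDomain A] [Algebra K A] [Algebra.Smooth K A] [Field F] [Algebra K F] [Algebra A F]
    [IsScalarTower K A F] [IsFractionRing A F] (hΩ : Module.finrank F Ω[F⁄K] = 1) :
    RingHom.Locally (RingHom.IsStandardSmoothOfRelativeDimension 1) (algebraMap K A) := by
  obtain ⟨s, hs, hstd⟩ := Algebra.Smooth.exists_span_eq_top_isStandardSmooth K A
  refine ⟨s \ {0}, ?_, ?_⟩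
  · rw [Ideal.span_sdiff_singleton_zero, hs]
  · rintro t ⟨hts, ht0⟩
    have ht0' : t ≠ 0 := by simpa using ht0
    have := hstd t hts
    have hrel : Algebra.IsStandardSmoothOfRelativeDimension 1 K (Localization.Away t) :=
      isStandardSmoothOfRelativeDimension_one_away (F := F) ht0' hΩ
    have e : (algebraMap A (Localization.Away t)).comp (algebraMap K A) =
        algebraMap K (Localization.Away t) :=
      (IsScalarTower.algebraMap_eq K A (Localization.Away t)).symm
    rw [e, RingHom.isStandardSmoothOfRelativeDimension_algebraMap]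
    exact hrel

end Algebra

/-! ### The curve of a function field -/

section Curve

variable {K F : Type u} [Field K] [Field F] [Algebra K F] [IsAlgClosed K] [CharZero K] {x : F}

theorem isOpenImmersion_fin (hx : IsGen K x) :
    IsOpenImmersion (j0 ↥(ringFin K x) ↥(ringBoth K x)) := by
  have := isLocalization_away_fin (Fermat.Agent.X0.FFGenus.ff1Data hx) hx.ne_zero
  exact isOpenImmersion_j0 _ _ (tFin K x)

theorem isOpenImmersion_inf (hx : IsGen K x) :
    IsOpenImmersion (j1 ↥(ringInf K x) ↥(ringBoth K x)) := by
  have := isLocalization_away_inf (Fermat.Agent.X0.FFGenus.ff1Data hx) hx.ne_zero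
  exact isOpenImmersion_j1 _ _ (sInf K x)

/-- **The smooth projective curve with function field `F`.** -/
noncomputable def curveFF (hx : IsGen K x) : Scheme.{u} :=
  haveI := isOpenImmersion_fin hx
  haveI := isOpenImmersion_inf hx
  curve ↥(ringFin K x) ↥(ringInf K x) ↥(ringBoth K x)

/-- The structure morphism of the curve. -/
noncomputable def toBaseFF (hx : IsGen K x) : curveFF hx ⟶ Spec (.of K) :=
  haveI := isOpenImmersion_fin hx
  haveI := isOpenImmersion_inf hx
  toBase ↥(ringFin K x) ↥(ringInf K x) ↥(ringBoth K x) K

/-- The finite chart. -/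
noncomputable def chartFin (hx : IsGen K x) : Spec (.of ↥(ringFin K x)) ⟶ curveFF hx :=
  haveI := isOpenImmersion_fin hx
  haveI := isOpenImmersion_inf hx
  ι0 ↥(ringFin K x) ↥(ringInf K x) ↥(ringBoth K x)

/-- The chart at infinity. -/
noncomputable def chartInf (hx : IsGen K x) : Spec (.of ↥(ringInf K x)) ⟶ curveFF hx :=
  haveI := isOpenImmersion_fin hx
  haveI := isOpenImmersion_inf hx
  ι1 ↥(ringFin K x) ↥(ringInf K x) ↥(ringBoth K x)

instance (hx : IsGen K x) : IsOpenImmersion (chartFin hx) := by
  haveI := isOpenImmersion_fin hx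
  haveI := isOpenImmersion_inf hx
  exact inferInstanceAs (IsOpenImmersion (ι0 ↥(ringFin K x) ↥(ringInf K x) ↥(ringBoth K x)))

instance (hx : IsGen K x) : IsOpenImmersion (chartInf hx) := by
  haveI := isOpenImmersion_fin hx
  haveI := isOpenImmersion_inf hx
  exact inferInstanceAs (IsOpenImmersion (ι1 ↥(ringFin K x) ↥(ringInf K x) ↥(ringBoth K x)))

theorem chartFin_toBaseFF (hx : IsGen K x) : chartFin hx ≫ toBaseFF hx =
    Spec.map (CommRingCat.ofHom (algebraMap K ↥(ringFin K x))) := by
  haveI := isOpenImmersion_fin hx
  haveI := isOpenImmersion_inf hx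
  exact ι0_toBase _ _ _ K

theorem chartInf_toBaseFF (hx : IsGen K x) : chartInf hx ≫ toBaseFF hx =
    Spec.map (CommRingCat.ofHom (algebraMap K ↥(ringInf K x))) := by
  haveI := isOpenImmersion_fin hx
  haveI := isOpenImmersion_inf hx
  exact ι1_toBase _ _ _ K

/-- The overlap of the two charts is `Spec A₀₁`. -/
theorem isPullback_charts (hx : IsGen K x) :
    IsPullback (j0 ↥(ringFin K x) ↥(ringBoth K x)) (j1 ↥(ringInf K x) ↥(ringBoth K x))
      (chartFin hx) (chartInf hx) := by
  haveI := isOpenImmersion_fin hx
  haveI := isOpenImmersion_inf hx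
  exact isPullback _ _ _

/-- The two charts cover the curve. -/
theorem exists_mem_range_chart (hx : IsGen K x) (y : curveFF hx) :
    y ∈ Set.range (chartFin hx).base ∨ y ∈ Set.range (chartInf hx).base := by
  haveI := isOpenImmersion_fin hx
  haveI := isOpenImmersion_inf hx
  exact exists_mem_range _ _ _ y

/-- The curve is integral. -/
instance isIntegral_curveFF (hx : IsGen K x) : IsIntegral (curveFF hx) := by
  haveI := isOpenImmersion_fin hx
  haveI := isOpenImmersion_inf hx
  exact isIntegral_curve _ _ _

/-- The curve is proper over `K`. -/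
instance isProper_toBaseFF (hx : IsGen K x) : IsProper (toBaseFF hx) := by
  haveI := isOpenImmersion_fin hx
  haveI := isOpenImmersion_inf hx
  haveI := finiteType_ringFin hx
  haveI := finiteType_ringInf hx
  haveI := isLocalization_away_fin (Fermat.Agent.X0.FFGenus.ff1Data hx) hx.ne_zero
  haveI := isLocalization_away_inf (Fermat.Agent.X0.FFGenus.ff1Data hx) hx.ne_zero
  refine isProper_toBase _ _ _ K (tFin K x) (sInf K x) (tFin_mul_sInf hx.ne_zero) ?_ ?_
  · letI : Algebra K[X] ↥(ringFin K x) := (aeval (tFin K x)).toAlgebra
    haveI : IsScalarTower K K[X] ↥(ringFin K x) :=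
      IsScalarTower.of_algebraMap_eq fun c => by
        simp [RingHom.algebraMap_toAlgebra]
    have hX : algebraMap K[X] ↥(ringFin K x) X = tFin K x := by
      simp [RingHom.algebraMap_toAlgebra]
    haveI := finite_poly_ringFin hx hX
    exact isIntegral_adjoin_of_finite (tFin K x) hX
  · letI : Algebra K[X] ↥(ringInf K x) := (aeval (sInf K x)).toAlgebra
    haveI : IsScalarTower K K[X] ↥(ringInf K x) :=
      IsScalarTower.of_algebraMap_eq fun c => by
        simp [RingHom.algebraMap_toAlgebra]
    have hX : algebraMap K[X] ↥(ringInf K x) X = sInf K x := by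
      simp [RingHom.algebraMap_toAlgebra]
    haveI := finite_poly_ringInf hx hX
    exact isIntegral_adjoin_of_finite (sInf K x) hX

/-- The curve is smooth of relative dimension one over `K`. -/
theorem smoothOfRelativeDimension_toBaseFF (hx : IsGen K x)
    (hΩ : Module.finrank F Ω[F⁄K] = 1) : SmoothOfRelativeDimension 1 (toBaseFF hx) := by
  haveI := isOpenImmersion_fin hx
  haveI := isOpenImmersion_inf hx
  refine smoothOfRelativeDimension_toBase _ _ _ K 1 ?_ ?_
  · have := isDedekindDomain_ringFin hx
    have := isFractionRing_ringFin hx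
    have := smooth_ringFin hx
    exact locally_isStandardSmoothOfRelativeDimension_one (F := F) hΩ
  · have := isDedekindDomain_ringInf hx
    have := isFractionRing_ringInf hx
    have := smooth_ringInf hx
    exact locally_isStandardSmoothOfRelativeDimension_one (F := F) hΩ

/-- The curve has a rational point. -/
theorem exists_section (hx : IsGen K x) :
    ∃ ε : Spec (.of K) ⟶ curveFF hx, ε ≫ toBaseFF hx = 𝟙 _ := by
  haveI := isOpenImmersion_fin hx
  haveI := isOpenImmersion_inf hx
  obtain ⟨e⟩ := exists_basePoint hx
  exact ⟨point _ _ _ K e, point_toBase _ _ _ K e⟩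

/-- **Existence of the curve of an S27 function field** (sanity form; the charts of `curveFF hx`
are the rings `ringFin K x`, `ringInf K x`, `ringBoth K x` of the `FF` chapter). -/
theorem exists_curve (K F : Type u) [Field K] [Field F] [Algebra K F] [IsAlgClosed K] [CharZero K]
    [AlgebraicCurve.IsCurveOver K F] [Algebra.EssFiniteType K F] :
    ∃ (C : Scheme.{u}) (c : C ⟶ Spec (.of K)) (ε : Spec (.of K) ⟶ C),
      ε ≫ c = 𝟙 _ ∧ IsProper c ∧ SmoothOfRelativeDimension 1 c ∧ IsIntegral C := by
  obtain ⟨x, hx⟩ := Fermat.Agent.JAC.FF.Gen38.exists_isGen K F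
  obtain ⟨ε, hε⟩ := exists_section hx
  exact ⟨curveFF hx, toBaseFF hx, ε, hε, inferInstance,
    smoothOfRelativeDimension_toBaseFF hx AlgebraicCurve.IsCurveOver.finrank_kaehler,
    inferInstance⟩

end Curve

end Fermat.Agent.JAC.FF.CurveScheme9
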