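/-
Programme JAC, S27 track (helper9): **the S27 CURVE block in the literal hypotheses of the S25
chain**.

For an S27 function field `F / K` with generator `x` (`hx : IsGen K x`), the CURVE data
`(A0, A1, A01, t, s) := (ringFin K x, ringInf K x, ringBoth K x, tFin K x, sInf K x)` and the curve
`c := toBaseFF hx : curveFF hx ⟶ Spec K` with its charts `chartFin hx`, `chartInf hx`,
`chartBoth hx` satisfy

* `curveHyp hx hΩ : ChartDef24.CurveHyp K A0 A1 A01 t s` (the hypotheses of the algebra side);
* the chart identities `hι0`, `hι1`, `hι01`, `h0`, `h1`, `hsup`, `hinf` in the form of the binders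
  of `Final/SchemeDictClosed4.schemeDictClosed` and `Final/JacData27.props_of_schemeDict_twoCharts`;
* a rational point `sectionFF hx e` with `he`;
* `ffAlgEquiv hx : ConstExt37.FF K A01 K ≃ₐ[K] F` (the function field of the constant extension to
  `K` itself is `F`).
-/
import Mathlib
import Fermat.Agent.JAC.FF.CurveScheme9
import Fermat.Agent.JAC.Hilb.ChartDef24
import Fermat.Agent.JAC.Frame.CurveInput65
import Fermat.Agent.JAC.Fibre.ConstExt37
import Fermat.Agent.RR.LHypGen
import Fermat.Agent.JAC.FF.Transport9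
import Fermat.Prelude.Def_AlgebraicGeometry_NeronModelPropertyBundleCarrier

set_option autoImplicit false
set_option linter.style.haveILetI false
set_option linter.unusedSectionVars false

universe u

open CategoryTheory CategoryTheory.Limits AlgebraicGeometry AlgebraicCurve Polynomial
open KaehlerDifferential TensorProduct NeronModelInfra

namespace Fermat.Agent.JAC.FF.CurveBlock9

open Fermat.Agent.X0.FF
open Fermat.Agent.JAC.FF.CechRings9 Fermat.Agent.JAC.FF.ChartAlg9 Fermat.Agent.JAC.FF.ChartSmooth9
open Fermat.Agent.JAC.FF.ChartCurve9 Fermat.Agent.JAC.FF.ChartGeom9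
open Fermat.Agent.JAC.FF.TwoChartScheme9 Fermat.Agent.JAC.FF.CurveScheme9
open Fermat.Agent.JAC.Hilb.ChartDef24 Fermat.Agent.JAC.Fibre.ConstExt37

variable {K F : Type u} [Field K] [Field F] [Algebra K F] [IsAlgClosed K] [CharZero K] {x : F}

/-! ### The algebra side -/

/-- `A₀₁ = A₀[1/t]`. -/
theorem isLocalization_tFin (hx : IsGen K x) :
    IsLocalization.Away (tFin K x) ↥(ringBoth K x) :=
  isLocalization_away_fin (Fermat.Agent.X0.FFGenus.ff1Data hx) hx.ne_zero

/-- `A₀₁ = A₁[1/s]`. -/
theorem isLocalization_sInf (hx : IsGen K x) :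
    IsLocalization.Away (sInf K x) ↥(ringBoth K x) :=
  isLocalization_away_inf (Fermat.Agent.X0.FFGenus.ff1Data hx) hx.ne_zero

/-- `t s = 1`. -/
theorem hts (hx : IsGen K x) :
    algebraMap ↥(ringFin K x) ↥(ringBoth K x) (tFin K x) *
      algebraMap ↥(ringInf K x) ↥(ringBoth K x) (sInf K x) = 1 :=
  tFin_mul_sInf hx.ne_zero

/-- Coordinates of `A₀` over `K[t]`. -/
theorem exists_coords0 (hx : IsGen K x) : ∃ (n : ℕ) (a : Fin n → ↥(ringFin K x)),
    Function.Bijective (fun p : Fin n → K[X] => ∑ j, aeval (tFin K x) (p j) * a j) := by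
  haveI : IsDomain ↥(ringFin K x) := (isDedekindDomain_ringFin hx).toIsDomain
  letI : Algebra K[X] ↥(ringFin K x) := (aeval (tFin K x)).toAlgebra
  haveI : IsScalarTower K K[X] ↥(ringFin K x) :=
    IsScalarTower.of_algebraMap_eq fun c => by
      simp [RingHom.algebraMap_toAlgebra]
  have hX : algebraMap K[X] ↥(ringFin K x) X = tFin K x := by
    simp [RingHom.algebraMap_toAlgebra]
  have hfin : Module.Finite K[X] ↥(ringFin K x) := finite_poly_ringFin hx hX
  refine Fermat.Agent.JAC.Frame.CurveInput65.exists_coords_of_ringHom (tFin K x)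
    (aeval (tFin K x) : K[X] →ₐ[K] ↥(ringFin K x)).toRingHom (fun c => by simp) (by simp)
    hfin ?_
  intro p q hpq
  have h1 := congrArg (Subtype.val : ↥(ringFin K x) → F) hpq
  have h2 : ∀ r : K[X], ((aeval (tFin K x) r : ↥(ringFin K x)) : F) = aeval x r := fun r =>
    coe_algebraMap_poly hX r
  change ((aeval (tFin K x) p : ↥(ringFin K x)) : F) = ((aeval (tFin K x) q : ↥(ringFin K x)) : F)
    at h1
  rw [h2, h2] at h1
  exact transcendental_iff_injective.mp hx.transcendental h1

/-- Coordinates of `A₁` over `K[s]`. -/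
theorem exists_coords1 (hx : IsGen K x) : ∃ (n : ℕ) (a : Fin n → ↥(ringInf K x)),
    Function.Bijective (fun p : Fin n → K[X] => ∑ j, aeval (sInf K x) (p j) * a j) :=
  exists_coords0 (isGen_inv hx)

/-- **The CURVE hypotheses of the S25 chain hold for the two-chart data of an S27 function
field.** -/
theorem curveHyp (hx : IsGen K x) (hΩ : Module.finrank F Ω[F⁄K] = 1) :
    haveI := isLocalization_tFin hx
    haveI := isLocalization_sInf hx
    CurveHyp K ↥(ringFin K x) ↥(ringInf K x) ↥(ringBoth K x) (tFin K x) (sInf K x) := by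
  haveI := isLocalization_tFin hx
  haveI := isLocalization_sInf hx
  exact
    { hts := hts hx
      coords0 := exists_coords0 hx
      coords1 := exists_coords1 hx
      finiteType0 := finiteType_ringFin hx
      finiteType1 := finiteType_ringInf hx
      dedekind0 := fun K' _ _ => isDedekindDomain_baseChange_ringFin hx hΩ K'
      dedekind1 := fun K' _ _ => isDedekindDomain_baseChange_ringInf hx hΩ K'
      dedekind01 := fun K' _ _ => isDedekindDomain_baseChange_ringBoth hx hΩ K'
      h0 := fun a0 a1 h =>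
        exists_const_of_algebraMap_eq (Fermat.Agent.RR.LHypGen.lHyp_of_isGen hx) a0 a1 h }

/-! ### The scheme side: the three charts of `curveFF hx` -/

/-- The overlap chart. -/
noncomputable def chartBoth (hx : IsGen K x) : Spec (.of ↥(ringBoth K x)) ⟶ curveFF hx :=
  Spec.map (CommRingCat.ofHom (algebraMap ↥(ringFin K x) ↥(ringBoth K x))) ≫ chartFin hx

instance (hx : IsGen K x) : IsOpenImmersion (chartBoth hx) := by
  haveI := isOpenImmersion_fin hx
  haveI := isOpenImmersion_inf hx
  exact inferInstanceAs (IsOpenImmersion (ι01 ↥(ringFin K x) ↥(ringInf K x) ↥(ringBoth K x)))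

/-- `h0` of the chain: the overlap chart through the finite chart. -/
theorem chartBoth_eq_fin (hx : IsGen K x) :
    Spec.map (CommRingCat.ofHom (algebraMap ↥(ringFin K x) ↥(ringBoth K x))) ≫ chartFin hx =
      chartBoth hx := rfl

/-- `h1` of the chain: the overlap chart through the chart at infinity. -/
theorem chartBoth_eq_inf (hx : IsGen K x) :
    Spec.map (CommRingCat.ofHom (algebraMap ↥(ringInf K x) ↥(ringBoth K x))) ≫ chartInf hx =
      chartBoth hx := by
  haveI := isOpenImmersion_fin hx
  haveI := isOpenImmersion_inf hx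
  exact (condition ↥(ringFin K x) ↥(ringInf K x) ↥(ringBoth K x)).symm

/-- `hι01` of the chain. -/
theorem chartBoth_toBaseFF (hx : IsGen K x) : chartBoth hx ≫ toBaseFF hx =
    Spec.map (CommRingCat.ofHom (algebraMap K ↥(ringBoth K x))) := by
  haveI := isOpenImmersion_fin hx
  haveI := isOpenImmersion_inf hx
  exact ι01_toBase _ _ _ K

/-- `hsup` of the chain: the two charts cover the curve. -/
theorem opensRange_sup (hx : IsGen K x) :
    (chartFin hx).opensRange ⊔ (chartInf hx).opensRange = ⊤ := by
  rw [eq_top_iff]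
  intro y _
  rcases exists_mem_range_chart hx y with h | h
  · exact Or.inl h
  · exact Or.inr h

/-- `hinf` of the chain: the overlap of the two charts is the overlap chart. -/
theorem opensRange_inf (hx : IsGen K x) :
    (chartFin hx).opensRange ⊓ (chartInf hx).opensRange = (chartBoth hx).opensRange := by
  haveI := isOpenImmersion_fin hx
  haveI := isOpenImmersion_inf hx
  apply le_antisymm
  · rintro y ⟨⟨x0, hx0⟩, ⟨x1, hx1⟩⟩
    obtain ⟨z, hz0, -⟩ := (ι0_eq_ι1_iff ↥(ringFin K x) ↥(ringInf K x) ↥(ringBoth K x) x0 x1).mp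
      (hx0.trans hx1.symm)
    refine ⟨z, ?_⟩
    rw [← hx0, ← hz0]
    rfl
  · rintro y ⟨z, rfl⟩
    refine ⟨⟨(j0 ↥(ringFin K x) ↥(ringBoth K x)).base z, rfl⟩,
      ⟨(j1 ↥(ringInf K x) ↥(ringBoth K x)).base z, ?_⟩⟩
    have h := congrArg (fun f => f.base z) (chartBoth_eq_inf hx)
    exact h

/-! ### Rational points -/

/-- The rational point of the curve given by a `K`-point of the overlap, as a section of the
structure morphism. -/
noncomputable def sectionFF (hx : IsGen K x) (e : ↥(ringBoth K x) →ₐ[K] K) :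
    SchemeHomOver (𝟙 (Spec (CommRingCat.of K))) (toBaseFF hx) :=
  ⟨Spec.map (CommRingCat.ofHom e.toRingHom) ≫ chartBoth hx, by
    haveI := isOpenImmersion_fin hx
    haveI := isOpenImmersion_inf hx
    exact point_toBase _ _ _ K e⟩

/-- `he` of the chain. -/
theorem sectionFF_eq (hx : IsGen K x) (e : ↥(ringBoth K x) →ₐ[K] K) :
    Spec.map (CommRingCat.ofHom e.toRingHom) ≫ chartBoth hx = (sectionFF hx e).1 := rfl

/-! ### The function field of the constant extension to `K` itself is `F` -/

/-- `K ⊗[K] A₀₁ → F`: the canonical isomorphism `K ⊗[K] A₀₁ ≃ A₀₁` followed by the inclusion. -/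
noncomputable def tensorToF (K : Type u) {F : Type u} [Field K] [Field F] [Algebra K F] (x : F) :
    K ⊗[K] ↥(ringBoth K x) →ₐ[K] F :=
  (ringBoth K x).val.comp (Algebra.TensorProduct.lid K ↥(ringBoth K x)).toAlgHom

theorem tensorToF_tmul (c : K) (a : ↥(ringBoth K x)) :
    tensorToF K x (c ⊗ₜ[K] a) = c • (a : F) := by
  simp [tensorToF]

theorem tensorToF_injective : Function.Injective (tensorToF K x) := by
  intro a b hab
  have h : (Algebra.TensorProduct.lid K ↥(ringBoth K x)) a =
      (Algebra.TensorProduct.lid K ↥(ringBoth K x)) b := Subtype.ext hab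
  exact (Algebra.TensorProduct.lid K ↥(ringBoth K x)).injective h

/-- The `K ⊗[K] A₀₁`-algebra structure of `F`. -/
@[reducible] noncomputable def algebraTensorF (K : Type u) {F : Type u} [Field K] [Field F]
    [Algebra K F] (x : F) : Algebra (K ⊗[K] ↥(ringBoth K x)) F :=
  (tensorToF K x).toRingHom.toAlgebra

theorem isScalarTower_tensorF :
    letI := algebraTensorF K x
    IsScalarTower K (K ⊗[K] ↥(ringBoth K x)) F :=
  letI := algebraTensorF K x
  IsScalarTower.of_algebraMap_eq fun c => ((tensorToF K x).commutes c).symm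

theorem isFractionRing_tensorF (hx : IsGen K x) :
    letI := algebraTensorF K x
    IsFractionRing (K ⊗[K] ↥(ringBoth K x)) F := by
  letI := algebraTensorF K x
  haveI := isFractionRing_ringBoth hx
  haveI : FaithfulSMul (K ⊗[K] ↥(ringBoth K x)) F :=
    (faithfulSMul_iff_algebraMap_injective _ _).mpr tensorToF_injective
  refine IsFractionRing.of_field _ _ fun z => ?_
  obtain ⟨a, b, -, rfl⟩ := IsFractionRing.div_surjective (A := ↥(ringBoth K x)) z
  refine ⟨(Algebra.TensorProduct.lid K ↥(ringBoth K x)).symm a,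
    (Algebra.TensorProduct.lid K ↥(ringBoth K x)).symm b, ?_⟩
  have h : ∀ c : ↥(ringBoth K x), algebraMap (K ⊗[K] ↥(ringBoth K x)) F
      ((Algebra.TensorProduct.lid K ↥(ringBoth K x)).symm c) = algebraMap ↥(ringBoth K x) F c := by
    intro c
    change (ringBoth K x).val ((Algebra.TensorProduct.lid K ↥(ringBoth K x))
      ((Algebra.TensorProduct.lid K ↥(ringBoth K x)).symm c)) = _
    rw [AlgEquiv.apply_symm_apply]
    rfl
  rw [h, h]

/-- **The function field `FF K A₀₁ K` of the constant extension of the CURVE block to `K` itself is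
`F`**, as `K`-algebras. -/
noncomputable def ffAlgEquiv (hx : IsGen K x) : FF K ↥(ringBoth K x) K ≃ₐ[K] F :=
  letI := algebraTensorF K x
  haveI := isScalarTower_tensorF (K := K) (x := x)
  haveI := isFractionRing_tensorF hx
  (FractionRing.algEquiv (K ⊗[K] ↥(ringBoth K x)) F).restrictScalars K

theorem ffAlgEquiv_algebraMap (hx : IsGen K x) (a : K ⊗[K] ↥(ringBoth K x)) :
    ffAlgEquiv hx (algebraMap (K ⊗[K] ↥(ringBoth K x)) (FF K ↥(ringBoth K x) K) a) =
      tensorToF K x a := by
  letI := algebraTensorF K x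
  haveI := isScalarTower_tensorF (K := K) (x := x)
  haveI := isFractionRing_tensorF hx
  exact (FractionRing.algEquiv (K ⊗[K] ↥(ringBoth K x)) F).commutes a

/-- `K ⊗[K] A₀₁` is a domain (so that `FF K A₀₁ K` is a field). -/
theorem isDomain_tensor (K : Type u) {F : Type u} [Field K] [Field F] [Algebra K F] (x : F) :
    IsDomain (K ⊗[K] ↥(ringBoth K x)) :=
  (Algebra.TensorProduct.lid K ↥(ringBoth K x)).toMulEquiv.isDomain ↥(ringBoth K x)

/-- `Pic⁰` of `FF K A₀₁ K` is `Pic⁰` of `F`. -/
noncomputable def pic0EquivFF (hx : IsGen K x) :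
    haveI := isDomain_tensor K x
    Pic0 K (FF K ↥(ringBoth K x) K) ≃+ Pic0 K F :=
  haveI := isDomain_tensor K x
  (Fermat.Agent.JAC.FF.Transport9.FieldIso.ofAlgEquiv (ffAlgEquiv hx)).pic0Equiv

theorem natCard_torsion_FF (hx : IsGen K x) (n : ℕ) :
    haveI := isDomain_tensor K x
    Nat.card (Pic0.torsion K (FF K ↥(ringBoth K x) K) n) = Nat.card (Pic0.torsion K F n) :=
  haveI := isDomain_tensor K x
  (Fermat.Agent.JAC.FF.Transport9.FieldIso.ofAlgEquiv (ffAlgEquiv hx)).natCard_torsion n

theorem genusFF_FF (hx : IsGen K x) :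
    haveI := isDomain_tensor K x
    genusFF K (FF K ↥(ringBoth K x) K) = genusFF K F :=
  haveI := isDomain_tensor K x
  (Fermat.Agent.JAC.FF.Transport9.FieldIso.ofAlgEquiv (ffAlgEquiv hx)).genusFF_eq

end Fermat.Agent.JAC.FF.CurveBlock9
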