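/-
Programme JAC, S27 track, brick C0 part 3 (helper9): **the function field of the glued curve**.

* general: for an integral `k`-scheme `X` with an affine chart `ι : Spec A ⟶ X` (open immersion,
  `A` a domain) and any fraction field `F` of `A`: `functionFieldEquivOfChart ι : K(X) ≃+* F`,
  compatible with sections over the chart and with the structure maps from `k`
  (`B2/TwoChart37.structureHomF`).
* for the curve `curveFF hx` of a function field `F / K` (`CurveScheme9`): its function field is
  `F`, as a `K`-algebra (`functionFieldAlgEquivFF`).
-/
import Mathlib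
import Fermat.Agent.JAC.B2.TwoChart37
import Fermat.Agent.JAC.FF.CurveScheme9

set_option autoImplicit false
set_option linter.unusedSectionVars false
set_option linter.style.haveILetI false

universe u

open CategoryTheory CategoryTheory.Limits AlgebraicGeometry TopologicalSpace
open Fermat.Agent.JAC.B2.Charts37 Fermat.Agent.JAC.B2.TwoChart37

namespace Fermat.Agent.JAC.FF.CurveFunctionField9

section General

variable {k : Type u} [Field k] {X : Scheme.{u}} [IsIntegral X] (c : X ⟶ Spec (.of k))
  {A : Type u} [CommRing A] [IsDomain A] [Algebra k A] (ι : Spec (.of A) ⟶ X) [IsOpenImmersion ι]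

/-- The image of an affine chart. -/
noncomputable abbrev chartOpen : X.Opens := ι ''ᵁ ⊤

theorem isAffineOpen_chartOpen : IsAffineOpen (chartOpen ι) :=
  (isAffineOpen_top (Spec (.of A))).image_of_isOpenImmersion ι

instance : Nonempty (chartOpen ι) := by
  obtain ⟨y⟩ : Nonempty (Spec (.of A)) := inferInstance
  exact ⟨⟨ι.base y, ⟨y, trivial, rfl⟩⟩⟩

/-- Sections over the chart. -/
noncomputable def chartSections : Γ(X, chartOpen ι) ≃+* A :=
  ((ι.appIso ⊤) ≪≫ Scheme.ΓSpecIso (.of A)).commRingCatIsoToRingEquiv

theorem chartSections_structureHom (hι : ι ≫ c = Spec.map (CommRingCat.ofHom (algebraMap k A)))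
    (a : k) : chartSections ι (structureHom c (chartOpen ι) a) = algebraMap k A a := by
  have key : (Scheme.ΓSpecIso (.of k)).inv ≫ c.appLE ⊤ (chartOpen ι) (le_preimage_top c _) ≫
      (ι.appIso ⊤).hom ≫ (Scheme.ΓSpecIso (.of A)).hom =
      CommRingCat.ofHom (algebraMap k A) := by
    rw [Scheme.Hom.appIso_hom', Scheme.Hom.appLE_comp_appLE_assoc]
    have h2 : ∀ (f : Spec (.of A) ⟶ Spec (.of k)) (h : (⊤ : (Spec (.of A)).Opens) ≤ f ⁻¹ᵁ ⊤),
        f.appLE ⊤ ⊤ h = f.appTop := by
      intro f h
      exact Scheme.Hom.appLE_eq_app f
    rw [h2]
    simp only [hι]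
    rw [Scheme.ΓSpecIso_naturality, Iso.inv_hom_id_assoc]
  have h3 := congrArg (fun f => f.hom a) key
  simp only [CommRingCat.hom_comp, RingHom.comp_apply] at h3
  exact h3

variable {F : Type*} [Field F] [Algebra A F] [IsFractionRing A F]

/-- The function field of an integral scheme is the fraction field of any affine chart. -/
noncomputable def functionFieldEquivOfChart : X.functionField ≃+* F :=
  haveI := functionField_isFractionRing_of_isAffineOpen X (chartOpen ι) (isAffineOpen_chartOpen ι)
  IsFractionRing.ringEquivOfRingEquiv (chartSections ι)

theorem functionFieldEquivOfChart_germ (y : Γ(X, chartOpen ι)) :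
    functionFieldEquivOfChart ι (F := F) (X.germToFunctionField (chartOpen ι) y) =
      algebraMap A F (chartSections ι y) := by
  haveI := functionField_isFractionRing_of_isAffineOpen X (chartOpen ι) (isAffineOpen_chartOpen ι)
  exact IsFractionRing.ringEquivOfRingEquiv_algebraMap (chartSections ι) y

theorem functionFieldEquivOfChart_structureHomF [Algebra k F] [IsScalarTower k A F]
    (hι : ι ≫ c = Spec.map (CommRingCat.ofHom (algebraMap k A))) (a : k) :
    functionFieldEquivOfChart ι (F := F) (structureHomF c a) = algebraMap k F a := by
  rw [← germToFunctionField_structureHom c (chartOpen ι) a, functionFieldEquivOfChart_germ,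
    chartSections_structureHom c ι hι, ← IsScalarTower.algebraMap_apply]

end General

section Curve

open Fermat.Agent.X0.FF
open Fermat.Agent.JAC.FF.CechRings9 Fermat.Agent.JAC.FF.ChartAlg9
open Fermat.Agent.JAC.FF.CurveScheme9

variable {K F : Type u} [Field K] [Field F] [Algebra K F] [IsAlgClosed K] [CharZero K] {x : F}

/-- **The function field of the curve of `F / K` is `F`.** -/
noncomputable def functionFieldEquivFF (hx : IsGen K x) : (curveFF hx).functionField ≃+* F :=
  haveI := isDedekindDomain_ringFin hx
  haveI := isFractionRing_ringFin hx
  functionFieldEquivOfChart (chartFin hx)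

/-- The identification of the function field is compatible with the constants. -/
theorem functionFieldEquivFF_structureHomF (hx : IsGen K x) (a : K) :
    functionFieldEquivFF hx (structureHomF (toBaseFF hx) a) = algebraMap K F a := by
  haveI := isDedekindDomain_ringFin hx
  haveI := isFractionRing_ringFin hx
  exact functionFieldEquivOfChart_structureHomF (toBaseFF hx) (chartFin hx)
    (chartFin_toBaseFF hx) a

/-- The identification of the function field is compatible with regular functions on the finite
chart. -/
theorem functionFieldEquivFF_germ (hx : IsGen K x) (y : Γ(curveFF hx, chartOpen (chartFin hx))) :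
    haveI := isDedekindDomain_ringFin hx
    functionFieldEquivFF hx ((curveFF hx).germToFunctionField (chartOpen (chartFin hx)) y) =
      ((chartSections (chartFin hx) y : ↥(ringFin K x)) : F) := by
  haveI := isDedekindDomain_ringFin hx
  haveI := isFractionRing_ringFin hx
  exact functionFieldEquivOfChart_germ (chartFin hx) y

/-- The `K`-algebra structure of the function field of the curve. -/
@[reducible] noncomputable def algebraFunctionField (hx : IsGen K x) :
    Algebra K (curveFF hx).functionField :=
  (structureHomF (toBaseFF hx)).toAlgebra

/-- **The function field of the curve of `F / K` is `F`, as a `K`-algebra.** -/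
noncomputable def functionFieldAlgEquivFF (hx : IsGen K x) :
    letI := algebraFunctionField hx
    (curveFF hx).functionField ≃ₐ[K] F :=
  letI := algebraFunctionField hx
  { functionFieldEquivFF hx with
    commutes' := fun a => functionFieldEquivFF_structureHomF hx a }

end Curve

end Fermat.Agent.JAC.FF.CurveFunctionField9
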