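/-
Programme JAC (S27 track, C3/C4), chapter FF.  Owner: helper70.

**The adelic genus of a two-chart block.**  For an abstract two-chart presentation
`(B₀ → B₀₁ ← B₁; t, s)` of a function field `F / K` (`K` algebraically closed of characteristic
zero): `B₀`, `B₁` integrally closed domains, `B₀₁ = B₀[1/t] = B₁[1/s]`, `t s = 1`, `B₀` integral over
`K[t]`, `B₁` integral over `K[s]`, `F = Frac B₀₁`, and `t` a transcendental generator of `F / K`,

  `dim_K B₀₁ / (B₀ + B₁) = genusFF K F`   (and the quotient is finite-dimensional).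

This is helper9's `CechRings9.genusFF_eq_finrank_rings` transported to an arbitrary block: the images
of `B₀`, `B₁`, `B₀₁` in `F` are `ringFin K x`, `ringInf K x`, `ringBoth K x` for `x` the image of `t`.
-/
import Mathlib
import Fermat.Agent.JAC.FF.CechDim70

set_option autoImplicit false

open AlgebraicCurve Polynomial IntermediateField

namespace Fermat.Agent.JAC.FF.GenusBlock70

open Fermat.Agent.X0.FF
open Fermat.Agent.JAC.FF.CechAdelic9 Fermat.Agent.JAC.FF.CechRings9
  Fermat.Agent.JAC.FF.ChartAlg9 Fermat.Agent.JAC.FF.ChartSmooth9 Fermat.Agent.JAC.FF.CechDim70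

/-- If `B₀₁ = B[1/a]` embeds into a field then `a ≠ 0`. -/
theorem ne_zero_of_away (F : Type*) [Field F] (B₀₁ : Type*) [CommRing B₀₁] [Algebra B₀₁ F]
    [IsFractionRing B₀₁ F] {B : Type*} [CommRing B] [Algebra B B₀₁] (a : B)
    [IsLocalization.Away a B₀₁] : a ≠ 0 := by
  have : Nontrivial B₀₁ :=
    ⟨⟨0, 1, fun h => by
      have := congrArg (algebraMap B₀₁ F) h
      simp at this⟩⟩
  rintro rfl
  have hunit : IsUnit (algebraMap B B₀₁ 0) := IsLocalization.Away.algebraMap_isUnit (S := B₀₁) 0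
  rw [map_zero] at hunit
  exact not_isUnit_zero hunit

/-! ### One chart -/

section Chart

variable (K F : Type*) [Field K] [Field F] [Algebra K F]
  (B₀₁ : Type*) [CommRing B₀₁] [Algebra K B₀₁] [Algebra B₀₁ F] [IsScalarTower K B₀₁ F]
  [IsFractionRing B₀₁ F]
  (B : Type*) [CommRing B] [IsDomain B] [Algebra K B] [Algebra B B₀₁] [IsScalarTower K B B₀₁]

/-- `B₀₁ → F`. -/
noncomputable abbrev j01 : B₀₁ →ₐ[K] F := IsScalarTower.toAlgHom K B₀₁ F

/-- `B → B₀₁ → F` for a chart ring `B`. -/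
noncomputable abbrev jc : B →ₐ[K] F :=
  (j01 K F B₀₁).comp (IsScalarTower.toAlgHom K B B₀₁)

theorem j01_injective : Function.Injective (j01 K F B₀₁) :=
  IsFractionRing.injective B₀₁ F

variable {B} (a : B) [IsLocalization.Away a B₀₁]

include a in
theorem jc_injective : Function.Injective (jc K F B₀₁ B) := by
  have ha := ne_zero_of_away F B₀₁ a
  have h1 : Function.Injective (algebraMap B B₀₁) :=
    IsLocalization.injective B₀₁ (powers_le_nonZeroDivisors_of_noZeroDivisors ha)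
  exact (j01_injective K F B₀₁).comp h1

/-- The image of the chart ring in `F`. -/
noncomputable abbrev img : Subalgebra K F := (jc K F B₀₁ B).range

include a in
/-- The image of the chart ring has fraction field `F`. -/
theorem isFractionRing_img : IsFractionRing ↥(img K F B₀₁ (B := B)) F := by
  have hinj := jc_injective K F B₀₁ a
  have : IsDomain B₀₁ := (IsFractionRing.injective B₀₁ F).isDomain (algebraMap B₀₁ F)
  refine IsFractionRing.of_field _ F fun z => ?_
  obtain ⟨p, q, hq, rfl⟩ := IsFractionRing.div_surjective (A := B₀₁) z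
  obtain ⟨⟨p', ⟨_, n, rfl⟩⟩, hp⟩ := IsLocalization.surj (Submonoid.powers a) p
  obtain ⟨⟨q', ⟨_, m, rfl⟩⟩, hq'⟩ := IsLocalization.surj (Submonoid.powers a) q
  simp only at hp hq'
  have hp2 := congrArg (algebraMap B₀₁ F) hp
  have hq2 := congrArg (algebraMap B₀₁ F) hq'
  rw [map_mul, map_pow, map_pow] at hp2 hq2
  have ha0 : algebraMap B₀₁ F (algebraMap B B₀₁ a) ≠ 0 := by
    intro h0
    have : jc K F B₀₁ B a = jc K F B₀₁ B 0 := by rw [map_zero]; exact h0
    exact ne_zero_of_away F B₀₁ a (hinj this)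
  have hq0 : algebraMap B₀₁ F q ≠ 0 := by
    intro h0
    have : q = 0 := IsFractionRing.injective B₀₁ F (by rw [h0, map_zero])
    exact (mem_nonZeroDivisors_iff_ne_zero.mp hq) this
  refine ⟨⟨jc K F B₀₁ B (p' * a ^ m), ⟨_, rfl⟩⟩, ⟨jc K F B₀₁ B (q' * a ^ n), ⟨_, rfl⟩⟩, ?_⟩
  show _ = jc K F B₀₁ B (p' * a ^ m) / jc K F B₀₁ B (q' * a ^ n)
  show _ = algebraMap B₀₁ F (algebraMap B B₀₁ (p' * a ^ m)) /
    algebraMap B₀₁ F (algebraMap B B₀₁ (q' * a ^ n))
  rw [map_mul, map_mul, map_mul, map_mul, map_pow, map_pow, map_pow, map_pow, ← hp2, ← hq2]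
  field_simp

include a in
/-- The image of an integrally closed chart ring is integrally closed. -/
theorem isIntegrallyClosed_img [IsIntegrallyClosed B] :
    IsIntegrallyClosed ↥(img K F B₀₁ (B := B)) :=
  IsIntegrallyClosed.of_equiv
    (AlgEquiv.ofInjective (jc K F B₀₁ B) (jc_injective K F B₀₁ a)).toRingEquiv

omit [IsFractionRing B₀₁ F] [IsDomain B] [IsLocalization.Away a B₀₁] in
/-- Integrality over `K[a]` passes to the image. -/
theorem isIntegral_img (hint : ∀ b : B, IsIntegral (Algebra.adjoin K {a}) b) :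
    ∀ f ∈ img K F B₀₁ (B := B), IsIntegral (Algebra.adjoin K {jc K F B₀₁ B a}) f := by
  rintro _ ⟨b, rfl⟩
  have hle : (Algebra.adjoin K {a}).map (jc K F B₀₁ B) = Algebra.adjoin K {jc K F B₀₁ B a} := by
    rw [AlgHom.map_adjoin, Set.image_singleton]
  let φ : ↥(Algebra.adjoin K {a}) →+* ↥(Algebra.adjoin K {jc K F B₀₁ B a}) :=
    { toFun := fun y => ⟨jc K F B₀₁ B y, by rw [← hle]; exact ⟨y, y.2, rfl⟩⟩
      map_one' := Subtype.ext (map_one _)
      map_mul' := fun y z => Subtype.ext (map_mul _ _ _)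
      map_zero' := Subtype.ext (map_zero _)
      map_add' := fun y z => Subtype.ext (map_add _ _ _) }
  exact (hint b).map_of_comp_eq φ (jc K F B₀₁ B).toRingHom (RingHom.ext fun y => rfl)

end Chart

/-! ### Coordinates: integrality and the transcendental generator -/

section Coords

variable {K : Type*} [Field K] {B : Type*} [CommRing B] [Algebra K B] (a : B) {n : ℕ}
  (b : Fin n → B)

/-- A ring with a finite `K[a]`-spanning family is integral over `K[a]`. -/
theorem isIntegral_adjoin_of_coords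
    (hb : Function.Surjective (fun p : Fin n → K[X] => ∑ j, aeval a (p j) * b j)) (z : B) :
    IsIntegral (Algebra.adjoin K {a}) z := by
  classical
  have hspan : Submodule.span ↥(Algebra.adjoin K {a}) (Set.range b) = ⊤ := by
    rw [eq_top_iff]
    rintro z -
    obtain ⟨p, rfl⟩ := hb z
    refine Submodule.sum_mem _ fun j _ => ?_
    have : aeval a (p j) * b j =
        (⟨aeval a (p j), aeval_mem_adjoin_singleton K a⟩ : ↥(Algebra.adjoin K {a})) • b j := rfl
    rw [this]
    exact Submodule.smul_mem _ _ (Submodule.subset_span ⟨j, rfl⟩)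
  have hfin : Module.Finite ↥(Algebra.adjoin K {a}) B :=
    ⟨⟨Finset.univ.image b, by rw [Finset.coe_image, Finset.coe_univ, Set.image_univ, hspan]⟩⟩
  exact (Algebra.IsIntegral.of_finite ↥(Algebra.adjoin K {a}) B).isIntegral z

/-- Coordinates over `K[a]` force `a` to be transcendental. -/
theorem aeval_injective_of_coords [Nontrivial B]
    (hb : Function.Bijective (fun p : Fin n → K[X] => ∑ j, aeval a (p j) * b j)) :
    Function.Injective (aeval a : K[X] →ₐ[K] B) := by
  classical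
  have hne : Nonempty (Fin n) := by
    by_contra hemp
    rw [not_nonempty_iff] at hemp
    obtain ⟨p, hp⟩ := hb.2 (1 : B)
    simp at hp
  obtain ⟨j0⟩ := hne
  rw [injective_iff_map_eq_zero]
  intro p hp
  have h1 : (fun q : Fin n → K[X] => ∑ j, aeval a (q j) * b j) (Pi.single j0 p) =
      (fun q : Fin n → K[X] => ∑ j, aeval a (q j) * b j) 0 := by
    simp only [Pi.zero_apply, map_zero, zero_mul, Finset.sum_const_zero]
    rw [Finset.sum_eq_single j0]
    · rw [Pi.single_eq_same, hp, zero_mul]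
    · intro j _ hj
      rw [Pi.single_eq_of_ne hj, map_zero, zero_mul]
    · intro h
      exact absurd (Finset.mem_univ j0) h
  have h2 := congrFun (hb.1 h1) j0
  rwa [Pi.single_eq_same, Pi.zero_apply] at h2

end Coords

section IsGen

variable (K F : Type*) [Field K] [Field F] [Algebra K F]
  (B₀₁ : Type*) [CommRing B₀₁] [Algebra K B₀₁] [Algebra B₀₁ F] [IsScalarTower K B₀₁ F]
  [IsFractionRing B₀₁ F]
  {B : Type*} [CommRing B] [IsDomain B] [Algebra K B] [Algebra B B₀₁] [IsScalarTower K B B₀₁]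
  (a : B) [IsLocalization.Away a B₀₁] {n : ℕ} (b : Fin n → B)

/-- **The image of the coordinate `a` of a chart with coordinates is a transcendental generator of
the function field.** -/
theorem isGen_of_coords
    (hb : Function.Bijective (fun p : Fin n → K[X] => ∑ j, aeval a (p j) * b j)) :
    IsGen K (jc K F B₀₁ B a) := by
  have hinj := jc_injective K F B₀₁ a
  set x := jc K F B₀₁ B a with hx
  have htr : Transcendental K x := by
    rw [transcendental_iff_injective]
    have h1 := aeval_injective_of_coords a b hb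
    have h2 : (aeval x : K[X] →ₐ[K] F) = (jc K F B₀₁ B).comp (aeval a) := by
      rw [hx]
      exact (aeval_algHom (jc K F B₀₁ B) a).symm ▸ rfl
    rw [h2]
    exact hinj.comp h1
  refine ⟨htr, ?_⟩
  -- the finitely generated intermediate field
  have hfinS : Finite (Set.range fun j => jc K F B₀₁ B (b j)) := Set.finite_range _
  have hint : ∀ y ∈ Set.range (fun j => jc K F B₀₁ B (b j)), IsIntegral K⟮x⟯ y := by
    rintro _ ⟨j, rfl⟩
    have h1 : IsIntegral (Algebra.adjoin K {x}) (jc K F B₀₁ B (b j)) :=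
      isIntegral_img K F B₀₁ a (isIntegral_adjoin_of_coords a b hb.2) _ ⟨b j, rfl⟩
    have hle : Algebra.adjoin K {x} ≤ K⟮x⟯.toSubalgebra :=
      IntermediateField.algebra_adjoin_le_adjoin K {x}
    exact h1.map_of_comp_eq (Subalgebra.inclusion hle).toRingHom (RingHom.id F)
      (RingHom.ext fun y => rfl)
  have hfd := IntermediateField.finiteDimensional_adjoin (K := K⟮x⟯) hint
  set E := IntermediateField.adjoin K⟮x⟯ (Set.range fun j => jc K F B₀₁ B (b j)) with hE
  have hB : ∀ z : B, jc K F B₀₁ B z ∈ E := by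
    intro z
    obtain ⟨p, rfl⟩ := hb.2 z
    rw [map_sum]
    refine sum_mem fun j _ => ?_
    rw [map_mul]
    refine mul_mem ?_ (IntermediateField.subset_adjoin _ _ ⟨j, rfl⟩)
    have h3 : jc K F B₀₁ B (aeval a (p j)) = aeval x (p j) := by
      rw [hx]
      exact (aeval_algHom_apply (jc K F B₀₁ B) a (p j)).symm
    rw [h3]
    have h4 : aeval x (p j) ∈ K⟮x⟯ :=
      (IntermediateField.algebra_adjoin_le_adjoin K {x}) (aeval_mem_adjoin_singleton K x)
    exact E.algebraMap_mem ⟨_, h4⟩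
  have htop : E = ⊤ := by
    rw [eq_top_iff]
    rintro f -
    have := isFractionRing_img K F B₀₁ a
    obtain ⟨p, q, -, rfl⟩ := IsFractionRing.div_surjective (A := ↥(img K F B₀₁ (B := B))) f
    obtain ⟨_, ⟨p', rfl⟩⟩ := p
    obtain ⟨_, ⟨q', rfl⟩⟩ := q
    exact div_mem (hB p') (hB q')
  rw [htop] at hfd
  exact (IntermediateField.topEquiv (F := K⟮x⟯) (E := F)).toLinearEquiv.finiteDimensional

end IsGen


/-! ### The two-chart block -/

section Block

variable {K F : Type*} [Field K] [Field F] [Algebra K F]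
  {B₀ B₁ B₀₁ : Type*} [CommRing B₀] [CommRing B₁] [CommRing B₀₁]
  [Algebra K B₀] [Algebra K B₁] [Algebra K B₀₁]
  [Algebra B₀ B₀₁] [Algebra B₁ B₀₁] [IsScalarTower K B₀ B₀₁] [IsScalarTower K B₁ B₀₁]
  [Algebra B₀₁ F] [IsScalarTower K B₀₁ F] [IsFractionRing B₀₁ F]
  [IsDomain B₀] [IsDomain B₁]
  (t : B₀) (s : B₁) [IsLocalization.Away t B₀₁] [IsLocalization.Away s B₀₁]
  (hts : algebraMap B₀ B₀₁ t * algebraMap B₁ B₀₁ s = 1)

variable (K F) in
/-- The sum of the images of `B₀` and `B₁` in `B₀₁`. -/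
noncomputable def blockSum (B₀ B₁ B₀₁ : Type*) [CommRing B₀] [CommRing B₁] [CommRing B₀₁]
    [Algebra K B₀] [Algebra K B₁] [Algebra K B₀₁] [Algebra B₀ B₀₁] [Algebra B₁ B₀₁]
    [IsScalarTower K B₀ B₀₁] [IsScalarTower K B₁ B₀₁] : Submodule K B₀₁ :=
  LinearMap.range (IsScalarTower.toAlgHom K B₀ B₀₁).toLinearMap ⊔
    LinearMap.range (IsScalarTower.toAlgHom K B₁ B₀₁).toLinearMap

include hts in
omit [IsFractionRing B₀₁ F] [IsDomain B₀] [IsDomain B₁] [IsLocalization.Away t B₀₁]
  [IsLocalization.Away s B₀₁] in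
theorem jc_s_eq_inv : jc K F B₀₁ B₁ s = (jc K F B₀₁ B₀ t)⁻¹ := by
  have h := congrArg (j01 K F B₀₁) hts
  rw [map_mul, map_one] at h
  exact eq_inv_of_mul_eq_one_right h

include hts in
omit [IsDomain B₀] [IsDomain B₁] [IsLocalization.Away s B₀₁] [IsFractionRing B₀₁ F] in
/-- `B₀₁ = B₀ ⊔ B₁` inside `F`. -/
theorem range_j01_eq_sup :
    (j01 K F B₀₁).range = img K F B₀₁ (B := B₀) ⊔ img K F B₀₁ (B := B₁) := by
  apply le_antisymm
  · rintro _ ⟨z, rfl⟩
    obtain ⟨⟨b, ⟨_, n, rfl⟩⟩, hb⟩ := IsLocalization.surj (Submonoid.powers t) z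
    simp only at hb
    have hz : z = algebraMap B₀ B₀₁ b * algebraMap B₁ B₀₁ s ^ n := by
      rw [← hb, map_pow, mul_assoc, ← mul_pow, hts, one_pow, mul_one]
    have h0 : jc K F B₀₁ B₀ b ∈ img K F B₀₁ (B := B₀) ⊔ img K F B₀₁ (B := B₁) :=
      (le_sup_left : img K F B₀₁ (B := B₀) ≤ _) ⟨b, rfl⟩
    have h1 : jc K F B₀₁ B₁ s ∈ img K F B₀₁ (B := B₀) ⊔ img K F B₀₁ (B := B₁) :=
      (le_sup_right : img K F B₀₁ (B := B₁) ≤ _) ⟨s, rfl⟩
    have := mul_mem h0 (pow_mem h1 n)
    convert this using 1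
    show j01 K F B₀₁ z = _
    rw [hz, map_mul, map_pow]
    rfl
  · apply sup_le
    · exact AlgHom.range_comp_le_range _ _
    · exact AlgHom.range_comp_le_range _ _

section Gen

variable [IsAlgClosed K] [CharZero K] [IsIntegrallyClosed B₀] [IsIntegrallyClosed B₁]
  (hint₀ : ∀ b : B₀, IsIntegral (Algebra.adjoin K {t}) b)
  (hint₁ : ∀ b : B₁, IsIntegral (Algebra.adjoin K {s}) b)
  (hgen : IsGen K (jc K F B₀₁ B₀ t))

include hint₀ hgen in
omit [IsDomain B₁] [IsLocalization.Away s B₀₁] [IsIntegrallyClosed B₁] in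
/-- The image of `B₀` is `ringFin K x`. -/
theorem img_eq_ringFin : img K F B₀₁ (B := B₀) = ringFin K (jc K F B₀₁ B₀ t) := by
  have := isFractionRing_img K F B₀₁ t
  have := isIntegrallyClosed_img K F B₀₁ t
  have hyA : jc K F B₀₁ B₀ t ∈ img K F B₀₁ (B := B₀) := ⟨t, rfl⟩
  ext f
  rw [mem_iff_isIntegral_of_integrallyClosed (img K F B₀₁ (B := B₀)) hyA
    (isIntegral_img K F B₀₁ t hint₀) f, mem_ringFin_iff_isIntegral hgen]

include hts hint₁ hgen in
omit [IsDomain B₀] [IsLocalization.Away t B₀₁] [IsIntegrallyClosed B₀] in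
/-- The image of `B₁` is `ringInf K x`. -/
theorem img_eq_ringInf : img K F B₀₁ (B := B₁) = ringInf K (jc K F B₀₁ B₀ t) := by
  have := isFractionRing_img K F B₀₁ s
  have := isIntegrallyClosed_img K F B₀₁ s
  have hs := jc_s_eq_inv (K := K) (F := F) t s hts
  have hyA : jc K F B₀₁ B₁ s ∈ img K F B₀₁ (B := B₁) := ⟨s, rfl⟩
  ext f
  rw [mem_iff_isIntegral_of_integrallyClosed (img K F B₀₁ (B := B₁)) hyA
    (isIntegral_img K F B₀₁ s hint₁) f, mem_ringInf_iff_isIntegral hgen, hs]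

include hts hint₀ hint₁ hgen in
/-- The image of `B₀₁` is `ringBoth K x`. -/
theorem range_j01_eq_ringBoth : (j01 K F B₀₁).range = ringBoth K (jc K F B₀₁ B₀ t) := by
  rw [range_j01_eq_sup t s hts, img_eq_ringFin t hint₀ hgen, img_eq_ringInf t s hts hint₁ hgen,
    ringFin_sup_ringInf_of_isGen hgen]

/-- `B₀₁ ≃ ringBoth K x`. -/
noncomputable def bothEquiv : B₀₁ ≃ₐ[K] ↥(ringBoth K (jc K F B₀₁ B₀ t)) :=
  (AlgEquiv.ofInjective (j01 K F B₀₁) (j01_injective K F B₀₁)).trans
    (Subalgebra.equivOfEq _ _ (range_j01_eq_ringBoth t s hts hint₀ hint₁ hgen))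

theorem coe_bothEquiv (z : B₀₁) :
    ((bothEquiv t s hts hint₀ hint₁ hgen z : ↥(ringBoth K (jc K F B₀₁ B₀ t))) : F) =
      j01 K F B₀₁ z := rfl

/-- Under `B₀₁ ≃ ringBoth K x` the sum `B₀ + B₁` corresponds to `ringFin + ringInf`. -/
theorem map_blockSum :
    (blockSum K B₀ B₁ B₀₁).map
        ((bothEquiv t s hts hint₀ hint₁ hgen).toLinearEquiv :
          B₀₁ →ₗ[K] ↥(ringBoth K (jc K F B₀₁ B₀ t))) =
      cechSum (K := K) (jc K F B₀₁ B₀ t) := by
  have e0 := img_eq_ringFin (K := K) (F := F) (B₀₁ := B₀₁) t hint₀ hgen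
  have e1 := img_eq_ringInf (K := K) (F := F) (B₀₁ := B₀₁) t s hts hint₁ hgen
  ext f
  rw [Submodule.mem_map, mem_cechSum_iff]
  constructor
  · rintro ⟨z, hz, rfl⟩
    rw [blockSum, Submodule.mem_sup] at hz
    obtain ⟨_, ⟨b0, rfl⟩, _, ⟨b1, rfl⟩, rfl⟩ := hz
    refine ⟨jc K F B₀₁ B₀ b0, ?_, jc K F B₀₁ B₁ b1, ?_, ?_⟩
    · rw [← e0]
      exact ⟨b0, rfl⟩
    · rw [← e1]
      exact ⟨b1, rfl⟩
    · show _ = j01 K F B₀₁ _
      rw [map_add]
      rfl
  · rintro ⟨y, hy, y', hy', h⟩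
    rw [← e0] at hy
    rw [← e1] at hy'
    obtain ⟨b0, rfl⟩ := hy
    obtain ⟨b1, rfl⟩ := hy'
    refine ⟨algebraMap B₀ B₀₁ b0 + algebraMap B₁ B₀₁ b1, ?_, ?_⟩
    · rw [blockSum, Submodule.mem_sup]
      exact ⟨_, ⟨b0, rfl⟩, _, ⟨b1, rfl⟩, rfl⟩
    · apply Subtype.ext
      show j01 K F B₀₁ _ = (f : F)
      rw [← h, map_add]
      rfl

/-- The quotient `B₀₁ / (B₀ + B₁)` is helper9's Čech quotient. -/
noncomputable def quotEquivBlock :
    (B₀₁ ⧸ blockSum K B₀ B₁ B₀₁) ≃ₗ[K]
      (↥(ringBoth K (jc K F B₀₁ B₀ t)) ⧸ cechSum (K := K) (jc K F B₀₁ B₀ t)) :=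
  Submodule.Quotient.equiv _ _ (bothEquiv t s hts hint₀ hint₁ hgen).toLinearEquiv
    (map_blockSum t s hts hint₀ hint₁ hgen)

include hts hint₀ hint₁ hgen in
/-- `B₀₁ / (B₀ + B₁)` is finite-dimensional. -/
theorem finite_quot_blockSum : Module.Finite K (B₀₁ ⧸ blockSum K B₀ B₁ B₀₁) :=
  haveI := finite_quot_cechSum hgen
  Module.Finite.equiv (quotEquivBlock t s hts hint₀ hint₁ hgen).symm

include hts hint₀ hint₁ hgen in
/-- **`dim_K B₀₁ / (B₀ + B₁) = genusFF K F`.** -/
theorem finrank_quot_blockSum :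
    Module.finrank K (B₀₁ ⧸ blockSum K B₀ B₁ B₀₁) = genusFF K F := by
  rw [← finrank_quot_cechSum hgen]
  exact (quotEquivBlock t s hts hint₀ hint₁ hgen).finrank_eq

include hts hint₀ hint₁ hgen in
/-- **The hypothesis of `JacTangent70.smoothOfRelativeDimension_toBase` for an abstract block,
with `g = genusFF K F`.** -/
theorem exists_block_linearMap :
    ∃ h : B₀₁ →ₗ[K] (Fin (genusFF K F) → K), Function.Surjective h ∧
      LinearMap.ker h =
        LinearMap.range (IsScalarTower.toAlgHom K B₀ B₀₁).toLinearMap ⊔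
          LinearMap.range (IsScalarTower.toAlgHom K B₁ B₀₁).toLinearMap :=
  haveI := finite_quot_blockSum t s hts hint₀ hint₁ hgen
  exists_linearMap_of_finrank (blockSum K B₀ B₁ B₀₁)
    (finrank_quot_blockSum t s hts hint₀ hint₁ hgen)

end Gen

end Block

end Fermat.Agent.JAC.FF.GenusBlock70
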