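/-
Programme JAC (S27 track, C3/C4), chapter FF.  Owner: helper70.

**The adelic genus of the function field of a CURVE block.**  For CURVE data
`(A0 → A01 ← A1; t, s)` over an algebraically closed field `k` of characteristic zero, with
coordinates (`A0` finite free over `k[t]`, `A1` finite free over `k[s]`), `t s = 1` and Dedekind
chart rings, the function field `FF k A01 k = Frac (k ⊗[k] A01)` satisfies

  `dim_k A01 / (A0 + A1) = genusFF k (FF k A01 k)`,

in the form consumed by `Tangent/JacTangent70.smoothOfRelativeDimension_toBase`: a surjection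
`h : A01 → k^g`, `g = genusFF k (FF k A01 k)`, with kernel `A0 + A1`.
-/
import Mathlib
import Fermat.Agent.JAC.FF.GenusBlock70
import Fermat.Agent.JAC.Fibre.ConstExt37

set_option autoImplicit false

universe u

open scoped TensorProduct
open scoped Fermat.Agent.JAC.Core.ConstFamily36
open Polynomial AlgebraicCurve

namespace Fermat.Agent.JAC.FF.GenusCurve70

open Fermat.Agent.JAC.Fibre.ConstExt37 Fermat.Agent.JAC.FF.GenusBlock70
  Fermat.Agent.JAC.Core.ConstFamily36

variable {k : Type u} [Field k] [IsAlgClosed k] [CharZero k]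
  {A0 A1 A01 : Type u} [CommRing A0] [CommRing A1] [CommRing A01]
  [Algebra k A0] [Algebra k A1] [Algebra k A01] [Algebra A0 A01] [Algebra A1 A01]
  [IsScalarTower k A0 A01] [IsScalarTower k A1 A01] (t : A0) (s : A1)
  [IsLocalization.Away t A01] [IsLocalization.Away s A01]
  [IsDedekindDomain (k ⊗[k] A0)] [IsDedekindDomain (k ⊗[k] A1)] [IsDedekindDomain (k ⊗[k] A01)]
  (hts : algebraMap A0 A01 t * algebraMap A1 A01 s = 1)
  {n0 n1 : ℕ} {a0 : Fin n0 → A0} {a1 : Fin n1 → A1}
  (ha0 : Function.Bijective (fun p : Fin n0 → k[X] => ∑ j, aeval t (p j) * a0 j))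
  (ha1 : Function.Bijective (fun p : Fin n1 → k[X] => ∑ j, aeval s (p j) * a1 j))

include ha0 in
omit [IsAlgClosed k] [CharZero k] in
/-- `1 ⊗ t` is a transcendental generator of the function field. -/
theorem isGen_tensor :
    Fermat.Agent.X0.FF.IsGen k
      (jc k (FF k A01 k) (k ⊗[k] A01) (k ⊗[k] A0) ((1 : k) ⊗ₜ[k] t)) :=
  isGen_of_coords k (FF k A01 k) (k ⊗[k] A01) ((1 : k) ⊗ₜ[k] t)
    (fun j => (1 : k) ⊗ₜ[k] a0 j) (bijective_coords k ha0)

include hts ha0 ha1 in
/-- The block theorem for `k ⊗[k] A_i`. -/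
theorem exists_tensor_linearMap :
    ∃ h : k ⊗[k] A01 →ₗ[k] (Fin (genusFF k (FF k A01 k)) → k), Function.Surjective h ∧
      LinearMap.ker h =
        LinearMap.range (IsScalarTower.toAlgHom k (k ⊗[k] A0) (k ⊗[k] A01)).toLinearMap ⊔
          LinearMap.range (IsScalarTower.toAlgHom k (k ⊗[k] A1) (k ⊗[k] A01)).toLinearMap :=
  exists_block_linearMap (K := k) (F := FF k A01 k) ((1 : k) ⊗ₜ[k] t) ((1 : k) ⊗ₜ[k] s)
    (hts_tensor t s k hts)
    (isIntegral_adjoin_of_coords _ _ (bijective_coords k ha0).2)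
    (isIntegral_adjoin_of_coords _ _ (bijective_coords k ha1).2)
    (isGen_tensor t ha0)

include hts ha0 ha1 in
/-- **The hypothesis of `JacTangent70.smoothOfRelativeDimension_toBase` for a CURVE block with
coordinates, with `g = genusFF k (FF k A01 k)`.** -/
theorem exists_curve_linearMap :
    ∃ h : A01 →ₗ[k] (Fin (genusFF k (FF k A01 k)) → k), Function.Surjective h ∧
      LinearMap.ker h =
        LinearMap.range (IsScalarTower.toAlgHom k A0 A01).toLinearMap ⊔
          LinearMap.range (IsScalarTower.toAlgHom k A1 A01).toLinearMap := by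
  obtain ⟨h', hs', hker'⟩ := exists_tensor_linearMap t s hts ha0 ha1
  refine ⟨h' ∘ₗ (TensorProduct.lid k A01).symm.toLinearMap,
    hs'.comp (TensorProduct.lid k A01).symm.surjective, ?_⟩
  ext z
  rw [LinearMap.mem_ker, LinearMap.comp_apply, ← LinearMap.mem_ker, hker', Submodule.mem_sup,
    Submodule.mem_sup]
  constructor
  · rintro ⟨_, ⟨u0, rfl⟩, _, ⟨u1, rfl⟩, h⟩
    refine ⟨_, ⟨TensorProduct.lid k A0 u0, rfl⟩, _, ⟨TensorProduct.lid k A1 u1, rfl⟩, ?_⟩
    apply (TensorProduct.lid k A01).symm.injective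
    have e0 : u0 = (1 : k) ⊗ₜ[k] TensorProduct.lid k A0 u0 := by
      rw [← TensorProduct.lid_symm_apply, LinearEquiv.symm_apply_apply]
    have e1 : u1 = (1 : k) ⊗ₜ[k] TensorProduct.lid k A1 u1 := by
      rw [← TensorProduct.lid_symm_apply, LinearEquiv.symm_apply_apply]
    rw [e0, e1] at h
    rw [map_add]
    exact h
  · rintro ⟨_, ⟨b0, rfl⟩, _, ⟨b1, rfl⟩, h⟩
    refine ⟨_, ⟨(1 : k) ⊗ₜ[k] b0, rfl⟩, _, ⟨(1 : k) ⊗ₜ[k] b1, rfl⟩, ?_⟩
    rw [← h, map_add]
    rfl

end Fermat.Agent.JAC.FF.GenusCurve70
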