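/-
Programme JAC, S27 track, work package C4a (part 2).  Owner: helper85.

THE RELATIVE GROUP LAW OF THE JACOBIAN OF THE S25 CHAIN.

For a scheme `J` representing the absolute Picard presheaf `Wiring10.G P` of a cut `P`, with
natural group structures on the classes in the cut over affine bases (`Repr/Group10`), this file
produces the data that the frozen statement S26 consumes:

* `jacLaw rep res_mul : RelativeGroupLaw R (toBase rep)` (from `Group10.grpObj` through
  helper63's `Grp/LawOfGrpObj63.lawOfGrpObj`), commutative if the groups of classes are;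
* on affine bases `t : Spec B ⟶ Spec R`, the bijection `Wiring10.overEquiv rep t` between points
  and classes is multiplicative: `overEquiv_mul`, `_one`, `_inv`, `_nsmul`, `overMulEquiv`;
* `isTorsionPoint_iff`, `natCard_torsion`: the torsion points of the relative group law, and the
  count of the frozen statement S26, in terms of the classes over the base field.
-/
import Mathlib
import Fermat.Agent.JAC.Grp.LawOfGrpObj63
import Fermat.Prelude.Def_JacJ1Iface
import Fermat.Agent.JAC.Repr.Group10

set_option autoImplicit false

universe u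

open CategoryTheory Limits Opposite AlgebraicGeometry AlgebraicGeometry.RelPicard NeronModelInfra
  GoodReductionJacobian MonoidalCategory CartesianMonoidalCategory

open scoped MonObj

namespace Fermat.Agent.JAC.FF.JacGroupLaw85

open Fermat.Agent.JAC.Repr.Wiring10 Fermat.Agent.JAC.Repr.Group10 Fermat.Agent.JAC.Grp.OverAff6
  Fermat.Agent.JAC.Grp.LawOfGrpObj63

section General

variable {R : Type u} [CommRing R] {C : Scheme.{u}} {c : C ⟶ Spec (CommRingCat.of R)}
  {ε : SchemeHomOver (𝟙 (Spec (CommRingCat.of R))) c} {P : SubPicCondition c ε}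
  [hs : ∀ {T : Scheme.{u}} (t : T ⟶ Spec (CommRingCat.of R)), Small.{u} (CutClasses P t)]
  {J : Scheme.{u}} (rep : (G P).RepresentableBy J)
  [grp : ∀ d : AffIdx (Spec (CommRingCat.of R)), Group (CutClasses P d.2)]
  (res_mul : ∀ {d d' : AffIdx (Spec (CommRingCat.of R))} (ψ : SchemeHomOver d'.2 d.2)
    (x y : CutClasses P d.2), cutMap ψ (x * y) = cutMap ψ x * cutMap ψ y)

/-- **The relative group law of the representing scheme.** -/
noncomputable def jacLaw : RelativeGroupLaw R (toBase rep) :=
  letI := grpObj rep res_mul
  lawOfGrpObj (toBase rep)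

/-- If the groups of classes are commutative, so is the relative group law. -/
theorem jacLaw_isCommutative
    (hcomm : ∀ (d : AffIdx (Spec (CommRingCat.of R))) (x y : CutClasses P d.2), x * y = y * x) :
    (jacLaw rep res_mul).IsCommutative :=
  letI := grpObj rep res_mul
  haveI := isCommMonObj rep res_mul hcomm
  isCommutative (toBase rep)

omit grp in
/-- `Group10.overHomEquiv` is `Wiring10.overEquiv` on the underlying morphisms over `Spec R`. -/
lemma overHomEquiv_toOverHom {T : Scheme.{u}} (t : T ⟶ Spec (CommRingCat.of R))
    (x : SchemeHomOver t (toBase rep)) :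
    overHomEquiv rep t (schemeHomOverToOverHom x) = overEquiv rep t x := rfl

section Affine

variable {B : CommRingCat.{u}} (t : Spec B ⟶ Spec (CommRingCat.of R))

/-- On affine bases, the bijection between points and classes is multiplicative. -/
theorem overEquiv_mul (x y : SchemeHomOver t (toBase rep)) :
    letI := grp ⟨B, t⟩
    overEquiv rep t ((jacLaw rep res_mul).mul t x y) = overEquiv rep t x * overEquiv rep t y := by
  let _ := grpObj rep res_mul
  rw [← overHomEquiv_toOverHom, ← overHomEquiv_toOverHom, ← overHomEquiv_toOverHom]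
  exact (congrArg (overHomEquiv rep t) (toOverHom_mul (toBase rep) t x y)).trans
    (overHomEquiv_mul rep res_mul t _ _)

theorem overEquiv_one :
    letI := grp ⟨B, t⟩
    overEquiv rep t ((jacLaw rep res_mul).one t) = 1 := by
  let _ := grpObj rep res_mul
  rw [← overHomEquiv_toOverHom]
  exact (congrArg (overHomEquiv rep t) (toOverHom_one (toBase rep) t)).trans
    (overHomEquiv_one rep res_mul t)

/-- The bijection between the points over an affine base and the classes, as a multiplicative
equivalence. -/
noncomputable def overMulEquiv :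
    letI := RelativeGroupLaw.pointGroup (jacLaw rep res_mul) t
    letI := grp ⟨B, t⟩
    SchemeHomOver t (toBase rep) ≃* CutClasses P t :=
  letI := RelativeGroupLaw.pointGroup (jacLaw rep res_mul) t
  letI := grp ⟨B, t⟩
  { overEquiv rep t with
    map_mul' := fun x y => overEquiv_mul rep res_mul t x y }

lemma overMulEquiv_apply (x : SchemeHomOver t (toBase rep)) :
    overMulEquiv rep res_mul t x = overEquiv rep t x := rfl

theorem overEquiv_inv (x : SchemeHomOver t (toBase rep)) :
    letI := grp ⟨B, t⟩
    overEquiv rep t ((jacLaw rep res_mul).inv t x) = (overEquiv rep t x)⁻¹ := by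
  let _ := RelativeGroupLaw.pointGroup (jacLaw rep res_mul) t
  let _ := grp ⟨B, t⟩
  exact map_inv (overMulEquiv rep res_mul t) x

theorem overEquiv_nsmul (n : ℕ) (x : SchemeHomOver t (toBase rep)) :
    letI := grp ⟨B, t⟩
    overEquiv rep t ((jacLaw rep res_mul).nsmul t n x) = overEquiv rep t x ^ n := by
  let _ := grp ⟨B, t⟩
  induction n with
  | zero =>
    rw [RelativeGroupLaw.nsmul_zero, overEquiv_one, pow_zero]
  | succ n ih =>
    rw [RelativeGroupLaw.nsmul_succ, overEquiv_mul, ih, pow_succ]

/-- The torsion points over an affine base are the torsion classes. -/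
theorem isTorsionPoint_iff (n : ℕ) (x : SchemeHomOver t (toBase rep)) :
    letI := grp ⟨B, t⟩
    (jacLaw rep res_mul).IsTorsionPoint t n x ↔ overEquiv rep t x ^ n = 1 := by
  let _ := grp ⟨B, t⟩
  rw [RelativeGroupLaw.isTorsionPoint_def, ← overEquiv_nsmul, ← overEquiv_one rep res_mul t]
  exact ((overEquiv rep t).injective.eq_iff).symm

/-- **The count of torsion points over an affine base** is the count of torsion classes. -/
theorem natCard_isTorsionPoint (n : ℕ) :
    letI := grp ⟨B, t⟩
    Nat.card {x : SchemeHomOver t (toBase rep) // (jacLaw rep res_mul).IsTorsionPoint t n x} =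
      Nat.card {ξ : CutClasses P t // ξ ^ n = 1} :=
  Nat.card_congr ((overEquiv rep t).subtypeEquiv fun x => isTorsionPoint_iff rep res_mul t n x)

end Affine

end General

section Field

variable {K : Type u} [Field K] {C : Scheme.{u}} {c : C ⟶ Spec (CommRingCat.of K)}
  {ε : SchemeHomOver (𝟙 (Spec (CommRingCat.of K))) c} {P : SubPicCondition c ε}
  [hs : ∀ {T : Scheme.{u}} (t : T ⟶ Spec (CommRingCat.of K)), Small.{u} (CutClasses P t)]
  {J : Scheme.{u}} (rep : (G P).RepresentableBy J)
  [grp : ∀ d : AffIdx (Spec (CommRingCat.of K)), Group (CutClasses P d.2)]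
  (res_mul : ∀ {d d' : AffIdx (Spec (CommRingCat.of K))} (ψ : SchemeHomOver d'.2 d.2)
    (x y : CutClasses P d.2), cutMap ψ (x * y) = cutMap ψ x * cutMap ψ y)
  (hcomm : ∀ (d : AffIdx (Spec (CommRingCat.of K))) (x y : CutClasses P d.2), x * y = y * x)

include res_mul in
/-- The abelian scheme property bundle of the representing scheme. -/
theorem jac_abelianSchemePropertyBundle [Smooth (toBase rep)] [IsProper (toBase rep)]
    [GeometricallyConnected (toBase rep)] : AbelianSchemePropertyBundle K (toBase rep) :=
  { smooth := inferInstance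
    proper := inferInstance
    connectedFibres := fun s => (toBase rep).isConnected_preimage_singleton s
    hasGroupLaw := ⟨jacLaw rep res_mul⟩ }

include res_mul hcomm in
/-- **The torsion classes over the base field are counted by the frozen statement S26**
(consumed as the hypothesis `h26`, in its literal shape for the field `K`): the skeleton of the
final step C6 of the S27 track. -/
theorem natCard_torsion_classes
    (h26 : ∀ {A : Scheme.{u}} (f : A ⟶ Spec (CommRingCat.of K)) (L : RelativeGroupLaw K f)
      (_ : L.IsCommutative) (_ : AbelianSchemePropertyBundle K f) (g : ℕ)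
      [SmoothOfRelativeDimension g f] (n : ℕ) (_ : (n : K) ≠ 0),
      Nat.card {x : SchemeHomOver (𝟙 (Spec (CommRingCat.of K))) f //
        L.IsTorsionPoint (𝟙 (Spec (CommRingCat.of K))) n x} = n ^ (2 * g))
    [Smooth (toBase rep)] [IsProper (toBase rep)] [GeometricallyConnected (toBase rep)]
    (g : ℕ) [SmoothOfRelativeDimension g (toBase rep)] (n : ℕ) (hn : (n : K) ≠ 0) :
    letI := grp ⟨CommRingCat.of K, 𝟙 (Spec (CommRingCat.of K))⟩
    Nat.card {ξ : CutClasses P (𝟙 (Spec (CommRingCat.of K))) // ξ ^ n = 1} = n ^ (2 * g) := by
  rw [← natCard_isTorsionPoint rep res_mul (B := CommRingCat.of K)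
    (𝟙 (Spec (CommRingCat.of K))) n]
  exact h26 (toBase rep) (jacLaw rep res_mul) (jacLaw_isCommutative rep res_mul hcomm)
    (jac_abelianSchemePropertyBundle rep res_mul) g n hn

end Field

end Fermat.Agent.JAC.FF.JacGroupLaw85
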