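/-
Programme JAC, S27 track, brick C2a (helper9): the line bundle `O(D)` of a divisor `D` of a function
field `F / K` as a line diagram (`Core/Defs36.LineDiag`) over the two-chart rings
`(A₀ → A₀₁ ← A₁; t = x, s = x⁻¹)` of `ChartAlg9`:

  `M₀ = I₀(D)`, `M₁ = I₁(D)`, `M₀₁ = I₀₁(D)`  (`modFin`, `modInf`, `modBoth`: the lattices of
  `CechAdelic9` with their module structures over `A₀`, `A₁`, `A₀₁`),

the restriction maps are localisations at the powers of `x`, `x⁻¹`; `M₀`, `M₁` are invertible
(nonzero fractional ideals of Dedekind domains); linearly equivalent divisors give isomorphic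
diagrams (`isoOfMul`).
-/
import Mathlib
import Fermat.Agent.JAC.FF.ChartAlg9
import Fermat.Agent.JAC.Core.Defs36

set_option autoImplicit false
set_option linter.unusedSectionVars false

open AlgebraicCurve WithZero IsDedekindDomain
open scoped nonZeroDivisors

universe u

namespace Fermat.Agent.JAC.FF.LineDiagDiv9

open Fermat.Agent.X0.FF Fermat.Agent.X0.FFDedekind
open Fermat.Agent.JAC.FF.CechAdelic9 Fermat.Agent.JAC.FF.CechRings9 Fermat.Agent.JAC.FF.FracVal9
open Fermat.Agent.JAC.FF.LatIdeal9 Fermat.Agent.JAC.FF.ChartAlg9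
open Fermat.Agent.JAC.Core.Defs36

variable {K : Type*} {F : Type u} [Field K] [Field F] [Algebra K F]

/-! ### The three lattices as modules over the three rings -/

/-- `I₀(D)` as an `A₀`-submodule of `F`. -/
def modFin (x : F) (D : Divisor K F) : Submodule ↥(ringFin K x) F where
  carrier := {f | ∀ v : Place K F, x ∈ v.toValuationSubring → v.adicValuation f ≤ exp (D v)}
  zero_mem' := by
    intro v _
    simp
  add_mem' := by
    intro f g hf hg v hv
    exact (Valuation.map_add _ _ _).trans (max_le (hf v hv) (hg v hv))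
  smul_mem' := by
    intro a f hf v hv
    show v.adicValuation ((a : F) * f) ≤ exp (D v)
    rw [map_mul]
    exact (mul_le_of_le_one_left' (v.adicValuation_le_one_of_mem (a.2 v hv))).trans (hf v hv)

/-- `I₁(D)` as an `A₁`-submodule of `F`. -/
def modInf (x : F) (D : Divisor K F) : Submodule ↥(ringInf K x) F where
  carrier := {f | ∀ v : Place K F, x⁻¹ ∈ v.toValuationSubring → v.adicValuation f ≤ exp (D v)}
  zero_mem' := by
    intro v _
    simp
  add_mem' := by
    intro f g hf hg v hv
    exact (Valuation.map_add _ _ _).trans (max_le (hf v hv) (hg v hv))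
  smul_mem' := by
    intro a f hf v hv
    show v.adicValuation ((a : F) * f) ≤ exp (D v)
    rw [map_mul]
    exact (mul_le_of_le_one_left' (v.adicValuation_le_one_of_mem (a.2 v hv))).trans (hf v hv)

/-- `I₀₁(D)` as an `A₀₁`-submodule of `F`. -/
def modBoth (x : F) (D : Divisor K F) : Submodule ↥(ringBoth K x) F where
  carrier := {f | ∀ v : Place K F, x ∈ v.toValuationSubring → x⁻¹ ∈ v.toValuationSubring →
    v.adicValuation f ≤ exp (D v)}
  zero_mem' := by
    intro v _ _
    simp
  add_mem' := by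
    intro f g hf hg v hv hv'
    exact (Valuation.map_add _ _ _).trans (max_le (hf v hv hv') (hg v hv hv'))
  smul_mem' := by
    intro a f hf v hv hv'
    show v.adicValuation ((a : F) * f) ≤ exp (D v)
    rw [map_mul]
    exact (mul_le_of_le_one_left' (v.adicValuation_le_one_of_mem (a.2 v hv hv'))).trans
      (hf v hv hv')

theorem mem_modFin {x : F} {D : Divisor K F} {f : F} : f ∈ modFin x D ↔ f ∈ latFin x D := Iff.rfl

theorem mem_modInf {x : F} {D : Divisor K F} {f : F} : f ∈ modInf x D ↔ f ∈ latInf x D := Iff.rfl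

theorem mem_modBoth {x : F} {D : Divisor K F} {f : F} : f ∈ modBoth x D ↔ f ∈ latBoth x D :=
  Iff.rfl

/-! ### The restriction maps -/

/-- `I₀(D) → I₀₁(D)`. -/
noncomputable def rhoFin (x : F) (D : Divisor K F) :
    ↥(modFin x D) →ₗ[↥(ringFin K x)] ↥(modBoth x D) where
  toFun f := ⟨(f : F), fun v hv _ => f.2 v hv⟩
  map_add' _ _ := rfl
  map_smul' _ _ := rfl

/-- `I₁(D) → I₀₁(D)`. -/
noncomputable def rhoInf (x : F) (D : Divisor K F) :
    ↥(modInf x D) →ₗ[↥(ringInf K x)] ↥(modBoth x D) where
  toFun f := ⟨(f : F), fun v _ hv' => f.2 v hv'⟩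
  map_add' _ _ := rfl
  map_smul' _ _ := rfl

@[simp] theorem coe_rhoFin (x : F) (D : Divisor K F) (f : ↥(modFin x D)) :
    ((rhoFin x D f : ↥(modBoth x D)) : F) = (f : F) := rfl

@[simp] theorem coe_rhoInf (x : F) (D : Divisor K F) (f : ↥(modInf x D)) :
    ((rhoInf x D f : ↥(modBoth x D)) : F) = (f : F) := rfl

theorem modBoth_inv (x : F) (D : Divisor K F) (f : F) :
    f ∈ latBoth x⁻¹ D ↔ f ∈ latBoth x D := by
  rw [mem_latBoth, mem_latBoth, inv_inv]
  exact ⟨fun h v hv hv' => h v hv' hv, fun h v hv hv' => h v hv' hv⟩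

/-- Multiplication by an element of `A₀₁` invertible in `A₀₁` is bijective on `I₀₁(D)`. -/
theorem bijective_smul_modBoth {x : F} (D : Divisor K F) {R : Type*} [CommRing R]
    [Module R ↥(modBoth x D)] (r : R) (a b : ↥(ringBoth K x)) (hab : (a : F) * (b : F) = 1)
    (hr : ∀ m : ↥(modBoth x D), ((r • m : ↥(modBoth x D)) : F) = (a : F) * (m : F)) :
    Function.Bijective fun m : ↥(modBoth x D) => r • m := by
  have ha0 : (a : F) ≠ 0 := left_ne_zero_of_mul_eq_one hab
  constructor
  · intro m m' h
    apply Subtype.ext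
    have := congrArg (Subtype.val : ↥(modBoth x D) → F) h
    simp only [hr] at this
    exact mul_left_cancel₀ ha0 this
  · intro m
    refine ⟨b • m, ?_⟩
    apply Subtype.ext
    rw [hr]
    show (a : F) * ((b : F) * (m : F)) = (m : F)
    rw [← mul_assoc, hab, one_mul]

theorem isLocalizedModule_rhoFin (H : FF1Data K F) {x : F} (hx0 : x ≠ 0) (D : Divisor K F) :
    IsLocalizedModule (Submonoid.powers (tFin K x)) (rhoFin x D) where
  map_units := by
    rintro ⟨y, n, rfl⟩
    rw [Module.End.isUnit_iff]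
    refine bijective_smul_modBoth D (tFin K x ^ n) (⟨x, self_mem_ringBoth x⟩ ^ n)
      (⟨x⁻¹, inv_mem_ringBoth x⟩ ^ n) ?_ fun m => ?_
    · simp only [SubmonoidClass.coe_pow]
      rw [← mul_pow, mul_inv_cancel₀ hx0, one_pow]
    · simp only [SubmonoidClass.coe_pow]
      rfl
  surj := by
    intro y
    obtain ⟨n, hn⟩ := exists_pow_mul_mem_latFin H hx0 D y.2
    refine ⟨(⟨x ^ n * (y : F), hn⟩, ⟨tFin K x ^ n, n, rfl⟩), ?_⟩
    apply Subtype.ext
    show ((tFin K x ^ n : ↥(ringFin K x)) : F) * (y : F) = x ^ n * (y : F)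
    simp only [SubmonoidClass.coe_pow]
    rfl
  exists_of_eq := by
    intro a b hab
    refine ⟨1, ?_⟩
    have : (a : F) = (b : F) := congrArg (Subtype.val : ↥(modBoth x D) → F) hab
    rw [Subtype.ext this]

theorem isLocalizedModule_rhoInf (H : FF1Data K F) {x : F} (hx0 : x ≠ 0) (D : Divisor K F) :
    IsLocalizedModule (Submonoid.powers (sInf K x)) (rhoInf x D) where
  map_units := by
    rintro ⟨y, n, rfl⟩
    rw [Module.End.isUnit_iff]
    refine bijective_smul_modBoth D (sInf K x ^ n) (⟨x⁻¹, inv_mem_ringBoth x⟩ ^ n)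
      (⟨x, self_mem_ringBoth x⟩ ^ n) ?_ fun m => ?_
    · simp only [SubmonoidClass.coe_pow]
      rw [← mul_pow, inv_mul_cancel₀ hx0, one_pow]
    · simp only [SubmonoidClass.coe_pow]
      rfl
  surj := by
    intro y
    have hy : (y : F) ∈ latBoth x⁻¹ D := (modBoth_inv x D _).mpr y.2
    obtain ⟨n, hn⟩ := exists_pow_mul_mem_latFin H (inv_ne_zero hx0) D hy
    refine ⟨(⟨x⁻¹ ^ n * (y : F), hn⟩, ⟨sInf K x ^ n, n, rfl⟩), ?_⟩
    apply Subtype.ext
    show ((sInf K x ^ n : ↥(ringInf K x)) : F) * (y : F) = x⁻¹ ^ n * (y : F)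
    simp only [SubmonoidClass.coe_pow]
    rfl
  exists_of_eq := by
    intro a b hab
    refine ⟨1, ?_⟩
    have : (a : F) = (b : F) := congrArg (Subtype.val : ↥(modBoth x D) → F) hab
    rw [Subtype.ext this]

/-! ### Scaling -/

/-- Scaling a function by `g` shifts the integrality bound by `ord g`. -/
theorem adicValuation_mul_le_iff (v : Place K F) {g : F} (hg : g ≠ 0) (f : F) (n : ℤ) :
    v.adicValuation (g * f) ≤ exp (n - v.ord g) ↔ v.adicValuation f ≤ exp n := by
  rw [map_mul, v.adicValuation_eq_exp_neg_ord hg]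
  have h : exp (n - v.ord g) = exp (-v.ord g) * exp n := by
    rw [← exp_add]
    congr 1
    ring
  rw [h]
  exact mul_le_mul_iff_right₀ (by simp)

/-- Multiplication by `g` as a linear equivalence between two submodules of `F`. -/
noncomputable def mulEquivOfMem {R : Type*} [CommRing R] [Algebra R F] (N N' : Submodule R F)
    (g : F) (hg : g ≠ 0) (h1 : ∀ f ∈ N, g * f ∈ N') (h2 : ∀ f ∈ N', g⁻¹ * f ∈ N) :
    ↥N ≃ₗ[R] ↥N' where
  toFun f := ⟨g * f, h1 f f.2⟩
  invFun f := ⟨g⁻¹ * f, h2 f f.2⟩
  map_add' a b := by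
    apply Subtype.ext
    show g * ((a : F) + (b : F)) = g * (a : F) + g * (b : F)
    ring
  map_smul' r a := by
    apply Subtype.ext
    show g * (r • (a : F)) = r • (g * (a : F))
    rw [Algebra.smul_def, Algebra.smul_def]
    ring
  left_inv a := by
    apply Subtype.ext
    show g⁻¹ * (g * (a : F)) = (a : F)
    rw [← mul_assoc, inv_mul_cancel₀ hg, one_mul]
  right_inv a := by
    apply Subtype.ext
    show g * (g⁻¹ * (a : F)) = (a : F)
    rw [← mul_assoc, mul_inv_cancel₀ hg, one_mul]

@[simp] theorem coe_mulEquivOfMem {R : Type*} [CommRing R] [Algebra R F] (N N' : Submodule R F)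
    (g : F) (hg : g ≠ 0) (h1 : ∀ f ∈ N, g * f ∈ N') (h2 : ∀ f ∈ N', g⁻¹ * f ∈ N) (a : ↥N) :
    ((mulEquivOfMem N N' g hg h1 h2 a : ↥N') : F) = g * (a : F) := rfl

/-! ### Invertibility -/

/-- A nonzero fractional ideal of a Dedekind domain is an invertible module. -/
theorem invertible_of_fractionalIdeal {B : Type*} [CommRing B] [IsDedekindDomain B]
    [Algebra B F] [IsFractionRing B F] {I : FractionalIdeal B⁰ F} (hI : I ≠ 0) :
    Module.Invertible B ↥(I : Submodule B F) := by
  have hunit : IsUnit (I : Submodule B F) := by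
    refine IsUnit.of_mul_eq_one ((I⁻¹ : FractionalIdeal B⁰ F) : Submodule B F) ?_
    rw [← FractionalIdeal.coe_mul, mul_inv_cancel₀ hI, FractionalIdeal.coe_one]
  have h1 : Module.Invertible B ↥(hunit.unit : Submodule B F) := inferInstance
  have h2 : (hunit.unit : Submodule B F) = (I : Submodule B F) := hunit.unit_spec
  rw [h2] at h1
  exact h1

section Gen

variable [IsAlgClosed K] [CharZero K] {x : F}

theorem modFin_eq_idealOfDiv (hx : IsGen K x) (D : Divisor K F) :
    haveI := isDedekindDomain_ringFin hx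
    haveI := isFractionRing_ringFin hx
    modFin x D = ((idealOfDiv ↥(ringFin K x) D : FractionalIdeal (↥(ringFin K x))⁰ F) :
      Submodule ↥(ringFin K x) F) := by
  have := isDedekindDomain_ringFin hx
  have := isFractionRing_ringFin hx
  ext f
  rw [FractionalIdeal.mem_coe, mem_idealOfDiv_iff_chart, mem_modFin, mem_latFin]
  exact forall_congr' fun v => imp_congr_left (mem_chartSet_ringFin v).symm

theorem invertible_modFin (hx : IsGen K x) (D : Divisor K F) :
    Module.Invertible ↥(ringFin K x) ↥(modFin x D) := by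
  have := isDedekindDomain_ringFin hx
  have := isFractionRing_ringFin hx
  rw [modFin_eq_idealOfDiv hx D]
  exact invertible_of_fractionalIdeal (idealOfDiv_ne_zero _ D)

theorem invertible_modInf (hx : IsGen K x) (D : Divisor K F) :
    Module.Invertible ↥(ringInf K x) ↥(modInf x D) :=
  invertible_modFin (isGen_inv hx) D

/-- **The line bundle `O(D)` of a divisor, as a line diagram** over
`(A₀ → A₀₁ ← A₁; t = x, s = x⁻¹)`. -/
noncomputable def lineDiagOfDiv (hx : IsGen K x) (D : Divisor K F) :
    LineDiag (tFin K x) (sInf K x) ↥(ringBoth K x) where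
  M0 := ↥(modFin x D)
  M1 := ↥(modInf x D)
  M01 := ↥(modBoth x D)
  rho0 := rhoFin x D
  rho1 := rhoInf x D
  isLocalizedModule0 :=
    isLocalizedModule_rhoFin (Fermat.Agent.X0.FFGenus.ff1Data hx) hx.ne_zero D
  isLocalizedModule1 :=
    isLocalizedModule_rhoInf (Fermat.Agent.X0.FFGenus.ff1Data hx) hx.ne_zero D
  invertible0 := invertible_modFin hx D
  invertible1 := invertible_modInf hx D

/-- Linearly equivalent divisors give isomorphic line diagrams (multiplication by `g`). -/
noncomputable def isoOfMul (hx : IsGen K x) {D D' : Divisor K F} {g : F} (hg : g ≠ 0)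
    (h : ∀ v : Place K F, D' v = D v - v.ord g) :
    LineDiag.Iso (lineDiagOfDiv hx D) (lineDiagOfDiv hx D') where
  e0 := mulEquivOfMem (modFin x D) (modFin x D') g hg
    (fun f hf v hv => by rw [h v]; exact (adicValuation_mul_le_iff v hg f _).mpr (hf v hv))
    (fun f hf v hv => by
      have := hf v hv
      rw [h v] at this
      have e : f = g * (g⁻¹ * f) := by rw [← mul_assoc, mul_inv_cancel₀ hg, one_mul]
      rw [e] at this
      exact (adicValuation_mul_le_iff v hg _ _).mp this)
  e1 := mulEquivOfMem (modInf x D) (modInf x D') g hg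
    (fun f hf v hv => by rw [h v]; exact (adicValuation_mul_le_iff v hg f _).mpr (hf v hv))
    (fun f hf v hv => by
      have := hf v hv
      rw [h v] at this
      have e : f = g * (g⁻¹ * f) := by rw [← mul_assoc, mul_inv_cancel₀ hg, one_mul]
      rw [e] at this
      exact (adicValuation_mul_le_iff v hg _ _).mp this)
  e01 := mulEquivOfMem (modBoth x D) (modBoth x D') g hg
    (fun f hf v hv hv' => by
      rw [h v]; exact (adicValuation_mul_le_iff v hg f _).mpr (hf v hv hv'))
    (fun f hf v hv hv' => by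
      have := hf v hv hv'
      rw [h v] at this
      have e : f = g * (g⁻¹ * f) := by rw [← mul_assoc, mul_inv_cancel₀ hg, one_mul]
      rw [e] at this
      exact (adicValuation_mul_le_iff v hg _ _).mp this)
  comm0 _ := rfl
  comm1 _ := rfl

end Gen

end Fermat.Agent.JAC.FF.LineDiagDiv9
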