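/-
Programme JAC, S27 track, brick C2a part 2 (helper9): for the line diagrams `O(D)` of
`LineDiagDiv9` over the two-chart rings of a function field `F / K`,

  `O(D) ≅ O(D')  ↔  D - D'` is a principal divisor   (`nonempty_iso_iff`),

so `D ↦ [O(D)]` (`classOfDiv`) embeds the Prelude `Pic K F` into the isomorphism classes of line
diagrams (`classOfDiv_eq_iff`).  An isomorphism of diagrams is multiplication by a function `g`
(`exists_mul_of_equivs`), and a lattice `I₀(D)` determines `D` on its chart (`eq_of_latFin_eq`).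
-/
import Mathlib
import Fermat.Agent.JAC.FF.LineDiagDiv9
import Fermat.Agent.RR.LHypGen

set_option autoImplicit false
set_option linter.unusedSectionVars false

open AlgebraicCurve WithZero IsDedekindDomain
open scoped nonZeroDivisors

universe u

namespace Fermat.Agent.JAC.FF.LineDiagIso9

open Fermat.Agent.JAC.FF.LineDiagDiv9

open Fermat.Agent.X0.FF Fermat.Agent.X0.FFDedekind
open Fermat.Agent.JAC.FF.CechAdelic9 Fermat.Agent.JAC.FF.CechRings9 Fermat.Agent.JAC.FF.FracVal9
open Fermat.Agent.JAC.FF.LatIdeal9 Fermat.Agent.JAC.FF.ChartAlg9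
open Fermat.Agent.JAC.Core.Defs36 Fermat.Agent.RR Fermat.Agent.RR.LSpace

variable {K : Type*} {F : Type u} [Field K] [Field F] [Algebra K F]

section Converse

variable [IsAlgClosed K] [CharZero K] {x : F}

/-- A lattice `I₀(D)` determines `D` on the chart. -/
theorem eq_of_latFin_eq (hx : IsGen K x) {E D' : Divisor K F}
    (h : ∀ f : F, f ∈ latFin x E ↔ f ∈ latFin x D') (v : Place K F)
    (hv : x ∈ v.toValuationSubring) : E v = D' v := by
  have := isDedekindDomain_ringFin hx
  have := isFractionRing_ringFin hx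
  have hI : idealOfDiv ↥(ringFin K x) E = idealOfDiv ↥(ringFin K x) D' := by
    apply FractionalIdeal.coeToSubmodule_injective
    ext f
    rw [FractionalIdeal.mem_coe, FractionalIdeal.mem_coe, mem_idealOfDiv_iff_chart,
      mem_idealOfDiv_iff_chart]
    have e1 : (∀ v ∈ chartSet K ↥(ringFin K x), v.adicValuation f ≤ exp (E v)) ↔
        f ∈ latFin x E :=
      forall_congr' fun v => imp_congr_left (mem_chartSet_ringFin v)
    have e2 : (∀ v ∈ chartSet K ↥(ringFin K x), v.adicValuation f ≤ exp (D' v)) ↔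
        f ∈ latFin x D' :=
      forall_congr' fun v => imp_congr_left (mem_chartSet_ringFin v)
    rw [e1, e2]
    exact h f
  have hB := (mem_chartSet_ringFin (K := K) (x := x) v).mpr hv
  have := (idealOfDiv_eq_iff E D').mp hI (centreSpec v hB)
  rwa [ofHeightOneSpectrum_centreSpec v hB] at this

/-- `I₀(D - div g) = g · I₀(D)`. -/
theorem mem_latFin_sub_divOf (HL : LHyp K F) (x : F) (D : Divisor K F) {g : F} (hg : g ≠ 0)
    (f : F) : f ∈ latFin x (D - divOf HL hg) ↔ g⁻¹ * f ∈ latFin x D := by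
  rw [mem_latFin, mem_latFin]
  refine forall_congr' fun v => imp_congr_right fun _ => ?_
  rw [Finsupp.sub_apply, divOf_apply]
  have e : f = g * (g⁻¹ * f) := by rw [← mul_assoc, mul_inv_cancel₀ hg, one_mul]
  conv_lhs => rw [e]
  exact adicValuation_mul_le_iff v hg _ _

theorem exists_ne_zero_mem_modFin (hx : IsGen K x) (D : Divisor K F) :
    ∃ m : F, m ≠ 0 ∧ m ∈ latFin x D := by
  have := isDedekindDomain_ringFin hx
  have := isFractionRing_ringFin hx
  have hne : idealOfDiv ↥(ringFin K x) D ≠ 0 := idealOfDiv_ne_zero _ D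
  obtain ⟨m, hm, hm0⟩ := FractionalIdeal.exists_ne_zero_mem_isInteger hne
  refine ⟨algebraMap ↥(ringFin K x) F m, ?_, ?_⟩
  · rwa [Ne, IsFractionRing.to_map_eq_zero_iff]
  · rw [mem_idealOfDiv_iff_chart] at hm0
    exact fun v hv => hm0 v ((mem_chartSet_ringFin v).mpr hv)

/-- **Isomorphic line diagrams come from linearly equivalent divisors** (unbundled form). -/
theorem exists_mul_of_equivs (hx : IsGen K x) {D D' : Divisor K F}
    (e0 : ↥(modFin x D) ≃ₗ[↥(ringFin K x)] ↥(modFin x D'))
    (e1 : ↥(modInf x D) ≃ₗ[↥(ringInf K x)] ↥(modInf x D'))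
    (e01 : ↥(modBoth x D) ≃ₗ[↥(ringBoth K x)] ↥(modBoth x D'))
    (c0 : ∀ m, e01 (rhoFin x D m) = rhoFin x D' (e0 m))
    (c1 : ∀ m, e01 (rhoInf x D m) = rhoInf x D' (e1 m)) :
    ∃ g : F, g ≠ 0 ∧ ∀ v : Place K F, D' v = D v - v.ord g := by
  have HL : LHyp K F := LHypGen.lHyp_of_isGen hx
  have hFrac := isFractionRing_ringBoth hx
  obtain ⟨m₀, hm₀0, hm₀⟩ := exists_ne_zero_mem_modFin hx D
  -- the base element, in `M₀₁`
  set μ : ↥(modBoth x D) := rhoFin x D ⟨m₀, hm₀⟩ with hμ
  have hμF : (μ : F) = m₀ := rfl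
  set g : F := ((e01 μ : ↥(modBoth x D')) : F) / m₀ with hg_def
  have hg0 : g ≠ 0 := by
    apply div_ne_zero _ hm₀0
    intro h
    have h1 : e01 μ = 0 := Subtype.ext h
    have h2 : μ = 0 := by simpa using h1
    exact hm₀0 (by rw [← hμF, h2]; rfl)
  -- `e01` is multiplication by `g`
  have key : ∀ y : ↥(modBoth x D), ((e01 y : ↥(modBoth x D')) : F) = g * (y : F) := by
    intro y
    obtain ⟨p, q, hq, hpq⟩ := IsFractionRing.div_surjective (A := ↥(ringBoth K x))
      ((y : F) / m₀)
    have hq0 : algebraMap ↥(ringBoth K x) F q ≠ 0 := by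
      rw [Ne, IsFractionRing.to_map_eq_zero_iff]
      exact nonZeroDivisors.ne_zero hq
    have h1 : (q : F) * (y : F) = (p : F) * m₀ := by
      have : algebraMap ↥(ringBoth K x) F p / algebraMap ↥(ringBoth K x) F q = (y : F) / m₀ := hpq
      rw [div_eq_div_iff hq0 hm₀0] at this
      have hp' : algebraMap ↥(ringBoth K x) F p = (p : F) := rfl
      have hq' : algebraMap ↥(ringBoth K x) F q = (q : F) := rfl
      rw [hp', hq'] at this
      linear_combination -this
    have h2 : q • y = p • μ := by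
      apply Subtype.ext
      show (q : F) * (y : F) = (p : F) * (μ : F)
      rw [hμF, h1]
    have h3 : q • e01 y = p • e01 μ := by
      rw [← map_smul, ← map_smul, h2]
    have h4 : (q : F) * ((e01 y : ↥(modBoth x D')) : F) =
        (p : F) * ((e01 μ : ↥(modBoth x D')) : F) :=
      congrArg (Subtype.val : ↥(modBoth x D') → F) h3
    have hq0' : (q : F) ≠ 0 := hq0
    have h5 : ((e01 μ : ↥(modBoth x D')) : F) = g * m₀ := by
      rw [hg_def, div_mul_cancel₀ _ hm₀0]
    apply mul_left_cancel₀ hq0'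
    rw [h4, h5]
    linear_combination g * h1.symm
  -- hence so are `e0`, `e1`
  have key0 : ∀ m : ↥(modFin x D), ((e0 m : ↥(modFin x D')) : F) = g * (m : F) := by
    intro m
    have := key (rhoFin x D m)
    rw [c0] at this
    exact this
  have key1 : ∀ m : ↥(modInf x D), ((e1 m : ↥(modInf x D')) : F) = g * (m : F) := by
    intro m
    have := key (rhoInf x D m)
    rw [c1] at this
    exact this
  -- compare the lattices
  have hfin : ∀ f : F, f ∈ latFin x (D - divOf HL hg0) ↔ f ∈ latFin x D' := by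
    intro f
    rw [mem_latFin_sub_divOf]
    constructor
    · intro hf
      have := key0 ⟨g⁻¹ * f, hf⟩
      have e : g * (g⁻¹ * f) = f := by rw [← mul_assoc, mul_inv_cancel₀ hg0, one_mul]
      rw [show ((⟨g⁻¹ * f, hf⟩ : ↥(modFin x D)) : F) = g⁻¹ * f from rfl, e] at this
      rw [← this]
      exact (e0 ⟨g⁻¹ * f, hf⟩).2
    · intro hf
      obtain ⟨m, hm⟩ := e0.surjective ⟨f, hf⟩
      have := key0 m
      rw [hm] at this
      have e : g⁻¹ * f = (m : F) := by
        rw [show ((⟨f, hf⟩ : ↥(modFin x D')) : F) = f from rfl] at this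
        rw [this, ← mul_assoc, inv_mul_cancel₀ hg0, one_mul]
      rw [e]
      exact m.2
  have hinf : ∀ f : F, f ∈ latFin x⁻¹ (D - divOf HL hg0) ↔ f ∈ latFin x⁻¹ D' := by
    intro f
    rw [mem_latFin_sub_divOf]
    constructor
    · intro hf
      have := key1 ⟨g⁻¹ * f, hf⟩
      have e : g * (g⁻¹ * f) = f := by rw [← mul_assoc, mul_inv_cancel₀ hg0, one_mul]
      rw [show ((⟨g⁻¹ * f, hf⟩ : ↥(modInf x D)) : F) = g⁻¹ * f from rfl, e] at this
      rw [← this]
      exact (e1 ⟨g⁻¹ * f, hf⟩).2
    · intro hf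
      obtain ⟨m, hm⟩ := e1.surjective ⟨f, hf⟩
      have := key1 m
      rw [hm] at this
      have e : g⁻¹ * f = (m : F) := by
        rw [show ((⟨f, hf⟩ : ↥(modInf x D')) : F) = f from rfl] at this
        rw [this, ← mul_assoc, inv_mul_cancel₀ hg0, one_mul]
      rw [e]
      exact m.2
  refine ⟨g, hg0, fun v => ?_⟩
  rcases v.toValuationSubring.mem_or_inv_mem x with hv | hv
  · have := eq_of_latFin_eq hx hfin v hv
    rw [Finsupp.sub_apply, divOf_apply] at this
    exact this.symm
  · have := eq_of_latFin_eq (isGen_inv hx) hinf v hv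
    rw [Finsupp.sub_apply, divOf_apply] at this
    exact this.symm

/-- **`O(D) ≅ O(D')` iff `D - D'` is principal.** -/
theorem nonempty_iso_iff (hx : IsGen K x) (D D' : Divisor K F) :
    Nonempty (LineDiag.Iso (lineDiagOfDiv hx D) (lineDiagOfDiv hx D')) ↔
      D - D' ∈ Divisor.principal (K := K) (F := F) := by
  constructor
  · rintro ⟨e⟩
    obtain ⟨g, hg, h⟩ := exists_mul_of_equivs hx e.e0 e.e1 e.e01 e.comm0 e.comm1
    refine ⟨g, hg, fun v => ?_⟩
    rw [Finsupp.sub_apply, h v]
    ring
  · rintro ⟨g, hg, h⟩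
    refine ⟨isoOfMul hx hg fun v => ?_⟩
    have := h v
    rw [Finsupp.sub_apply] at this
    omega

/-- The class of `O(D)`. -/
noncomputable def classOfDiv (hx : IsGen K x) (D : Divisor K F) :
    LineDiag.Classes (tFin K x) (sInf K x) ↥(ringBoth K x) :=
  Quotient.mk _ (lineDiagOfDiv hx D)

/-- The class map `D ↦ [O(D)]` has the principal divisors as its fibres: it induces an injection
of `Pic K F` into the isomorphism classes of line diagrams. -/
theorem classOfDiv_eq_iff (hx : IsGen K x) (D D' : Divisor K F) :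
    classOfDiv hx D = classOfDiv hx D' ↔ D - D' ∈ Divisor.principal (K := K) (F := F) := by
  refine Iff.trans ?_ (nonempty_iso_iff hx D D')
  exact Quotient.eq (r := LineDiag.setoid (tFin K x) (sInf K x) ↥(ringBoth K x))

end Converse

end Fermat.Agent.JAC.FF.LineDiagIso9
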