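/-
Programme JAC, S27 track, brick (U) (helper9): **isomorphism invariance** of the function-field
objects of the Prelude (`Place`, `Divisor`, `degree`, `principal`, `Pic0`, `Pic0.torsion`,
`genusFF`, `IsCurveOver`) along a compatible pair of field isomorphisms
`σ : K ≃+* K'`, `τ : F ≃+* F'` (any universes).
-/
import Mathlib
import Fermat.Prelude.Def_AlgebraicCurve_DivisorClassGroup
import Fermat.Prelude.Def_AlgebraicCurve_IsCurveOver
import Fermat.Prelude.Def_AlgebraicCurve_Repartitions

set_option autoImplicit false
set_option linter.unusedSectionVars false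
set_option linter.style.haveILetI false

open AlgebraicCurve WithZero

namespace Fermat.Agent.JAC.FF.Transport9

/-- A compatible pair of isomorphisms `K ≃ K'`, `F ≃ F'`. -/
structure FieldIso (K F K' F' : Type*) [Field K] [Field F] [Algebra K F] [Field K'] [Field F']
    [Algebra K' F'] where
  /-- the isomorphism of the constant fields -/
  σ : K ≃+* K'
  /-- the isomorphism of the function fields -/
  τ : F ≃+* F'
  comm : ∀ a : K, τ (algebraMap K F a) = algebraMap K' F' (σ a)

variable {K F K' F' : Type*} [Field K] [Field F] [Algebra K F] [Field K'] [Field F']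
  [Algebra K' F']

namespace FieldIso

/-- The inverse pair. -/
def symm (e : FieldIso K F K' F') : FieldIso K' F' K F where
  σ := e.σ.symm
  τ := e.τ.symm
  comm := fun a => by
    apply e.τ.injective
    rw [RingEquiv.apply_symm_apply, e.comm, RingEquiv.apply_symm_apply]

@[simp] theorem symm_τ (e : FieldIso K F K' F') : e.symm.τ = e.τ.symm := rfl
@[simp] theorem symm_σ (e : FieldIso K F K' F') : e.symm.σ = e.σ.symm := rfl

variable (e : FieldIso K F K' F')

/-- The image of a place. -/
def mapPlace (v : Place K F) : Place K' F' where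
  toValuationSubring := v.toValuationSubring.comap (e.τ.symm : F' →+* F)
  algebraMap_mem' := fun a => by
    rw [ValuationSubring.mem_comap]
    have : (e.τ.symm : F' →+* F) (algebraMap K' F' a) = algebraMap K F (e.σ.symm a) :=
      e.symm.comm a
    rw [this]
    exact v.algebraMap_mem' _
  ne_top' := fun h => v.ne_top' <| by
    ext x
    simp only [ValuationSubring.mem_top, iff_true]
    have : e.τ x ∈ v.toValuationSubring.comap (e.τ.symm : F' →+* F) := by
      rw [h]; exact ValuationSubring.mem_top _
    rw [ValuationSubring.mem_comap] at this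
    simpa using this
  isPrincipalIdealRing' := by
    let φ : v.toValuationSubring →+* v.toValuationSubring.comap (e.τ.symm : F' →+* F) :=
      { toFun := fun x => ⟨e.τ x, by rw [ValuationSubring.mem_comap]; simp⟩
        map_one' := by ext; simp
        map_mul' := fun x y => by ext; simp
        map_zero' := by ext; simp
        map_add' := fun x y => by ext; simp }
    have hφ : Function.Surjective φ := by
      rintro ⟨y, hy⟩
      rw [ValuationSubring.mem_comap] at hy
      exact ⟨⟨e.τ.symm y, hy⟩, by ext; simp [φ]⟩
    exact IsPrincipalIdealRing.of_surjective φ hφ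

theorem mem_mapPlace {v : Place K F} {y : F'} :
    y ∈ (e.mapPlace v).toValuationSubring ↔ e.τ.symm y ∈ v.toValuationSubring := Iff.rfl

theorem apply_mem_mapPlace {v : Place K F} {x : F} :
    e.τ x ∈ (e.mapPlace v).toValuationSubring ↔ x ∈ v.toValuationSubring := by
  rw [mem_mapPlace, RingEquiv.symm_apply_apply]

/-- The ring isomorphism between the valuation rings. -/
def ringEquivPlace (v : Place K F) :
    v.toValuationSubring ≃+* (e.mapPlace v).toValuationSubring where
  toFun x := ⟨e.τ x, (e.apply_mem_mapPlace).mpr x.2⟩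
  invFun y := ⟨e.τ.symm y, y.2⟩
  left_inv x := by ext; simp
  right_inv y := by ext; simp
  map_mul' x y := by ext; simp
  map_add' x y := by ext; simp

@[simp] theorem coe_ringEquivPlace (v : Place K F) (x : v.toValuationSubring) :
    ((e.ringEquivPlace v x : (e.mapPlace v).toValuationSubring) : F') = e.τ x := rfl

theorem mapPlace_symm_mapPlace (v : Place K F) : e.symm.mapPlace (e.mapPlace v) = v := by
  apply Place.ext
  ext x
  show (e.symm.τ.symm : F →+* F') x ∈ (e.mapPlace v).toValuationSubring ↔ _
  rw [mem_mapPlace]
  simp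

/-- The bijection between the places. -/
def placeEquiv : Place K F ≃ Place K' F' where
  toFun := e.mapPlace
  invFun := e.symm.mapPlace
  left_inv := e.mapPlace_symm_mapPlace
  right_inv := e.symm.mapPlace_symm_mapPlace

end FieldIso

/-! ### Orders, valuations, residue fields -/

namespace FieldIso

variable (e : FieldIso K F K' F')

theorem ord_mapPlace (v : Place K F) (f : F) : (e.mapPlace v).ord (e.τ f) = v.ord f := by
  rcases eq_or_ne f 0 with rfl | hf
  · simp
  obtain ⟨π, hπ⟩ := IsDiscreteValuationRing.exists_irreducible v.toValuationSubring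
  obtain ⟨u, hu⟩ := v.exists_unit_mul_zpow hf hπ
  set n := v.ord f with hn
  set ε := e.ringEquivPlace v with hε
  have hπ' : Irreducible (ε π) := (MulEquiv.irreducible_iff ε).mpr hπ
  have hu' : IsUnit (ε (u : v.toValuationSubring)) := u.isUnit.map ε
  have hcoeu : ((hu'.unit : (e.mapPlace v).toValuationSubring) : F')
      = e.τ ((u : v.toValuationSubring) : F) := by
    rw [IsUnit.unit_spec]
    rfl
  have hcoeπ : ((ε π : (e.mapPlace v).toValuationSubring) : F') = e.τ (π : F) := rfl
  have key : e.τ f = ((hu'.unit : (e.mapPlace v).toValuationSubring) : F')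
      * (((ε π : (e.mapPlace v).toValuationSubring) : F') ^ n) := by
    rw [hcoeu, hcoeπ, hu, map_mul, map_zpow₀]
  rw [key, (e.mapPlace v).ord_unit_smul_zpow hu'.unit hπ' n]

theorem adicValuation_mapPlace (v : Place K F) (f : F) :
    (e.mapPlace v).adicValuation (e.τ f) = v.adicValuation f := by
  rcases eq_or_ne f 0 with rfl | hf
  · simp
  have hf' : e.τ f ≠ 0 := by simpa using hf
  rw [(e.mapPlace v).adicValuation_eq_exp_neg_ord hf', v.adicValuation_eq_exp_neg_ord hf,
    e.ord_mapPlace]

theorem ord_placeEquiv_symm (w : Place K' F') (f : F) :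
    (e.placeEquiv.symm w).ord f = w.ord (e.τ f) := by
  have h := e.ord_mapPlace (e.placeEquiv.symm w) f
  have h2 : e.mapPlace (e.placeEquiv.symm w) = w := e.placeEquiv.apply_symm_apply w
  rw [h2] at h
  exact h.symm

theorem adicValuation_placeEquiv_symm (w : Place K' F') (f : F) :
    (e.placeEquiv.symm w).adicValuation f = w.adicValuation (e.τ f) := by
  have h := e.adicValuation_mapPlace (e.placeEquiv.symm w) f
  have h2 : e.mapPlace (e.placeEquiv.symm w) = w := e.placeEquiv.apply_symm_apply w
  rw [h2] at h
  exact h.symm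

/-- The isomorphism of residue fields. -/
noncomputable def residueEquiv (v : Place K F) : v.ResidueField ≃+* (e.mapPlace v).ResidueField :=
  IsLocalRing.ResidueField.mapEquiv (e.ringEquivPlace v)

theorem residueEquiv_algebraMap (v : Place K F) (a : K) :
    e.residueEquiv v (algebraMap K v.ResidueField a) =
      algebraMap K' (e.mapPlace v).ResidueField (e.σ a) := by
  have h3 : (e.ringEquivPlace v) (algebraMap K v.toValuationSubring a)
      = algebraMap K' (e.mapPlace v).toValuationSubring (e.σ a) := by
    ext
    rw [coe_ringEquivPlace, Place.coe_algebraMap, Place.coe_algebraMap, e.comm]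
  show IsLocalRing.ResidueField.mapEquiv _ (IsLocalRing.residue _ _) = IsLocalRing.residue _ _
  rw [IsLocalRing.ResidueField.mapEquiv_apply, IsLocalRing.ResidueField.map_residue]
  exact congrArg _ h3

theorem deg_mapPlace (v : Place K F) : (e.mapPlace v).deg = v.deg := by
  refine (Algebra.finrank_eq_of_equiv_equiv e.σ (e.residueEquiv v) ?_).symm
  ext a
  exact (e.residueEquiv_algebraMap v a).symm

theorem finite_residue_mapPlace (v : Place K F) (h : Module.Finite K v.ResidueField) :
    Module.Finite K' (e.mapPlace v).ResidueField := by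
  refine Module.Finite.of_equiv_equiv e.σ (e.residueEquiv v) ?_
  ext a
  exact (e.residueEquiv_algebraMap v a).symm

end FieldIso

/-! ### Divisors and the class group -/

namespace FieldIso

variable (e : FieldIso K F K' F')

/-- The isomorphism of divisor groups. -/
noncomputable def divEquiv : Divisor K F ≃+ Divisor K' F' :=
  Finsupp.domCongr e.placeEquiv

@[simp] theorem divEquiv_apply (D : Divisor K F) (w : Place K' F') :
    e.divEquiv D w = D (e.placeEquiv.symm w) := rfl

theorem divEquiv_apply_mapPlace (D : Divisor K F) (v : Place K F) :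
    e.divEquiv D (e.mapPlace v) = D v := by
  rw [divEquiv_apply]
  congr 1
  exact e.placeEquiv.symm_apply_apply v

theorem divEquiv_single (v : Place K F) (n : ℤ) :
    e.divEquiv (Finsupp.single v n) = Finsupp.single (e.mapPlace v) n := by
  show Finsupp.domCongr e.placeEquiv (Finsupp.single v n) = _
  rw [Finsupp.domCongr_apply, Finsupp.equivMapDomain_single]
  rfl

theorem degree_divEquiv (D : Divisor K F) :
    Divisor.degree (e.divEquiv D) = Divisor.degree D := by
  induction D using Finsupp.induction with
  | zero => simp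
  | single_add v n D _ _ ih =>
      rw [map_add, map_add, map_add, ih, divEquiv_single, Divisor.degree_single,
        Divisor.degree_single, deg_mapPlace]

theorem divEquiv_mem_principal {D : Divisor K F} (hD : D ∈ Divisor.principal (K := K) (F := F)) :
    e.divEquiv D ∈ Divisor.principal (K := K') (F := F') := by
  obtain ⟨f, hf, hD⟩ := hD
  refine ⟨e.τ f, by simpa using hf, fun w => ?_⟩
  rw [divEquiv_apply, hD, ord_placeEquiv_symm]

theorem divEquiv_symm (D : Divisor K' F') : e.divEquiv.symm D = e.symm.divEquiv D := by
  ext v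
  rfl

theorem divEquiv_mem_principal_iff {D : Divisor K F} :
    e.divEquiv D ∈ Divisor.principal (K := K') (F := F') ↔
      D ∈ Divisor.principal (K := K) (F := F) := by
  refine ⟨fun h => ?_, e.divEquiv_mem_principal⟩
  have := e.symm.divEquiv_mem_principal h
  rwa [← divEquiv_symm, AddEquiv.symm_apply_apply] at this

/-- The isomorphism of the groups of degree-zero divisors. -/
noncomputable def degZeroEquiv :
    Divisor.degZero (K := K) (F := F) ≃+ Divisor.degZero (K := K') (F := F') where
  toFun D := ⟨e.divEquiv D.1, by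
    rw [Divisor.mem_degZero, degree_divEquiv]; exact D.2⟩
  invFun D := ⟨e.divEquiv.symm D.1, by
    rw [Divisor.mem_degZero, ← e.degree_divEquiv, AddEquiv.apply_symm_apply]; exact D.2⟩
  left_inv D := Subtype.ext (e.divEquiv.symm_apply_apply _)
  right_inv D := Subtype.ext (e.divEquiv.apply_symm_apply _)
  map_add' D E := Subtype.ext (map_add e.divEquiv D.1 E.1)

/-- **The isomorphism of the degree-zero class groups.** -/
noncomputable def pic0Equiv : Pic0 K F ≃+ Pic0 K' F' :=
  QuotientAddGroup.congr _ _ e.degZeroEquiv (by
    ext D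
    simp only [AddSubgroup.mem_map, AddSubgroup.mem_addSubgroupOf]
    constructor
    · rintro ⟨D0, hD0, rfl⟩
      exact e.divEquiv_mem_principal hD0
    · intro hD
      refine ⟨e.degZeroEquiv.symm D, ?_, by simp⟩
      have h1 : ((e.degZeroEquiv.symm D : Divisor.degZero (K := K) (F := F)) : Divisor K F) =
          e.divEquiv.symm D.1 := rfl
      rw [h1, ← e.divEquiv_mem_principal_iff, AddEquiv.apply_symm_apply]
      exact hD)

include e in
/-- The torsion subgroups of the class groups are in bijection. -/
theorem natCard_torsion (n : ℕ) :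
    Nat.card (Pic0.torsion K F n) = Nat.card (Pic0.torsion K' F' n) := by
  refine Nat.card_congr (Equiv.subtypeEquiv e.pic0Equiv.toEquiv ?_)
  intro x
  show x ∈ Pic0.torsion K F n ↔ e.pic0Equiv x ∈ Pic0.torsion K' F' n
  rw [Pic0.mem_torsion, Pic0.mem_torsion, ← map_zsmul, map_eq_zero_iff _ e.pic0Equiv.injective]

end FieldIso

/-! ### Repartitions and the genus -/

namespace FieldIso

variable (e : FieldIso K F K' F')

/-- Transport of families of functions indexed by the places. -/
def famEquiv : (Place K F → F) ≃+* (Place K' F' → F') where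
  toFun α := fun w => e.τ (α (e.placeEquiv.symm w))
  invFun β := fun v => e.τ.symm (β (e.placeEquiv v))
  left_inv α := by funext v; simp
  right_inv β := by funext w; simp
  map_mul' α β := by funext w; simp
  map_add' α β := by funext w; simp

@[simp] theorem famEquiv_apply (α : Place K F → F) (w : Place K' F') :
    e.famEquiv α w = e.τ (α (e.placeEquiv.symm w)) := rfl

theorem famEquiv_algebraMap (f : F) :
    e.famEquiv (algebraMap F (Place K F → F) f) = algebraMap F' (Place K' F' → F') (e.τ f) := by
  funext w
  simp [Pi.algebraMap_apply]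

theorem famEquiv_mem_repartitions {α : Place K F → F} (hα : α ∈ repartitions K F) :
    e.famEquiv α ∈ repartitions K' F' := by
  unfold repartitions at hα
  induction hα using Algebra.adjoin_induction with
  | mem x hx =>
    apply mem_repartitions_of_finite
    have : {w : Place K' F' | ¬ w.adicValuation (e.famEquiv x w) ≤ 1} =
        e.placeEquiv.symm ⁻¹' {v : Place K F | ¬ v.adicValuation (x v) ≤ 1} := by
      ext w
      simp only [Set.mem_ofPred_eq, Set.mem_preimage, famEquiv_apply,
        adicValuation_placeEquiv_symm]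
    rw [this]
    exact hx.preimage e.placeEquiv.symm.injective.injOn
  | algebraMap f =>
    rw [famEquiv_algebraMap]
    exact Subalgebra.algebraMap_mem _ _
  | add x y _ _ hx hy =>
    rw [map_add]
    exact Subalgebra.add_mem _ hx hy
  | mul x y _ _ hx hy =>
    rw [map_mul]
    exact Subalgebra.mul_mem _ hx hy

theorem famEquiv_symm_eq (β : Place K' F' → F') : e.famEquiv.symm β = e.symm.famEquiv β := rfl

/-- Transport of repartitions. -/
def repEquiv : ↥(repartitions K F) ≃+ ↥(repartitions K' F') where
  toFun α := ⟨e.famEquiv α.1, e.famEquiv_mem_repartitions α.2⟩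
  invFun β := ⟨e.famEquiv.symm β.1, by
    rw [famEquiv_symm_eq]; exact e.symm.famEquiv_mem_repartitions β.2⟩
  left_inv α := Subtype.ext (e.famEquiv.symm_apply_apply _)
  right_inv β := Subtype.ext (e.famEquiv.apply_symm_apply _)
  map_add' α β := Subtype.ext (map_add e.famEquiv α.1 β.1)

@[simp] theorem coe_repEquiv (α : ↥(repartitions K F)) (w : Place K' F') :
    (e.repEquiv α : Place K' F' → F') w = e.τ ((α : Place K F → F) (e.placeEquiv.symm w)) := rfl

theorem repEquiv_smul (c : K) (α : ↥(repartitions K F)) :
    e.repEquiv (c • α) = e.σ c • e.repEquiv α := by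
  apply Subtype.ext
  funext w
  show e.τ ((c • (α : Place K F → F)) (e.placeEquiv.symm w)) =
    e.σ c • e.τ ((α : Place K F → F) (e.placeEquiv.symm w))
  rw [Pi.smul_apply, Algebra.smul_def, Algebra.smul_def, map_mul, e.comm]

theorem repEquiv_mem_repartitionsOf_iff (D : Divisor K F) (α : ↥(repartitions K F)) :
    e.repEquiv α ∈ repartitionsOf (e.divEquiv D) ↔ α ∈ repartitionsOf D := by
  show (∀ w : Place K' F', w.adicValuation ((e.repEquiv α : Place K' F' → F') w) ≤
    exp (e.divEquiv D w)) ↔ ∀ v : Place K F, v.adicValuation ((α : Place K F → F) v) ≤ exp (D v)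
  constructor
  · intro h v
    have hv : e.placeEquiv.symm (e.placeEquiv v) = v := e.placeEquiv.symm_apply_apply v
    have h1 := h (e.placeEquiv v)
    rw [coe_repEquiv, divEquiv_apply, hv] at h1
    have h2 : e.placeEquiv v = e.mapPlace v := rfl
    rw [h2, adicValuation_mapPlace] at h1
    exact h1
  · intro h w
    have h1 := h (e.placeEquiv.symm w)
    rw [adicValuation_placeEquiv_symm] at h1
    rw [coe_repEquiv, divEquiv_apply]
    exact h1

theorem repEquiv_mem_principalRepartitions_iff (α : ↥(repartitions K F)) :
    e.repEquiv α ∈ principalRepartitions K' F' ↔ α ∈ principalRepartitions K F := by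
  rw [mem_principalRepartitions_iff, mem_principalRepartitions_iff]
  constructor
  · rintro ⟨g, hg⟩
    refine ⟨e.τ.symm g, ?_⟩
    funext v
    have := congrFun hg (e.placeEquiv v)
    simp only [coe_repEquiv, Equiv.symm_apply_apply] at this
    rw [← this, RingEquiv.symm_apply_apply]
  · rintro ⟨f, hf⟩
    refine ⟨e.τ f, ?_⟩
    funext w
    rw [coe_repEquiv, hf]

end FieldIso

namespace FieldIso

variable (e : FieldIso K F K' F')

theorem repEquiv_mem_sup_iff (D : Divisor K F) (α : ↥(repartitions K F)) :
    e.repEquiv α ∈ repartitionsOf (e.divEquiv D) ⊔ principalRepartitions K' F' ↔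
      α ∈ repartitionsOf D ⊔ principalRepartitions K F := by
  constructor
  · intro h
    obtain ⟨β, hβ, γ, hγ, hsum⟩ := Submodule.mem_sup.mp h
    refine Submodule.mem_sup.mpr ⟨e.repEquiv.symm β, ?_, e.repEquiv.symm γ, ?_, ?_⟩
    · rw [← e.repEquiv_mem_repartitionsOf_iff, AddEquiv.apply_symm_apply]; exact hβ
    · rw [← e.repEquiv_mem_principalRepartitions_iff, AddEquiv.apply_symm_apply]; exact hγ
    · rw [← map_add, hsum, AddEquiv.symm_apply_apply]
  · intro h
    obtain ⟨β, hβ, γ, hγ, hsum⟩ := Submodule.mem_sup.mp h
    refine Submodule.mem_sup.mpr ⟨e.repEquiv β, ?_, e.repEquiv γ, ?_, ?_⟩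
    · rw [e.repEquiv_mem_repartitionsOf_iff]; exact hβ
    · rw [e.repEquiv_mem_principalRepartitions_iff]; exact hγ
    · rw [← map_add, hsum]

/-- The additive isomorphism `H¹(D) ≃ H¹(D')`. -/
noncomputable def h1Equiv (D : Divisor K F) : H1 D ≃+ H1 (e.divEquiv D) :=
  QuotientAddGroup.congr
    (repartitionsOf D ⊔ principalRepartitions K F).toAddSubgroup
    (repartitionsOf (e.divEquiv D) ⊔ principalRepartitions K' F').toAddSubgroup e.repEquiv (by
      ext β
      simp only [AddSubgroup.mem_map, Submodule.mem_toAddSubgroup]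
      constructor
      · rintro ⟨α, hα, rfl⟩
        exact (e.repEquiv_mem_sup_iff D α).mpr hα
      · intro hβ
        refine ⟨e.repEquiv.symm β, ?_, by simp⟩
        rw [← e.repEquiv_mem_sup_iff, AddEquiv.apply_symm_apply]
        exact hβ)

theorem h1Equiv_mk (D : Divisor K F) (α : ↥(repartitions K F)) :
    e.h1Equiv D (Submodule.Quotient.mk α) = Submodule.Quotient.mk (e.repEquiv α) := rfl

theorem h1Equiv_smul (D : Divisor K F) (c : K) (m : H1 D) :
    e.h1Equiv D (c • m) = e.σ c • e.h1Equiv D m := by
  obtain ⟨α, rfl⟩ := Submodule.Quotient.mk_surjective _ m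
  rw [← Submodule.Quotient.mk_smul, h1Equiv_mk, h1Equiv_mk, repEquiv_smul,
    Submodule.Quotient.mk_smul]

theorem finrank_H1 (D : Divisor K F) :
    Module.finrank K (H1 D) = Module.finrank K' (H1 (e.divEquiv D)) := by
  have h := lift_rank_eq_of_equiv_equiv (e.σ : K → K') (e.h1Equiv D) e.σ.bijective
    (e.h1Equiv_smul D)
  have h2 := congrArg Cardinal.toNat h
  simpa [Module.finrank] using h2

include e in
/-- **The genus is invariant under isomorphism.** -/
theorem genusFF_eq : genusFF K F = genusFF K' F' := by
  unfold genusFF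
  rw [e.finrank_H1 0, map_zero]

end FieldIso

/-! ### Kähler differentials and `IsCurveOver` -/

section Kaehler

open KaehlerDifferential

universe u1 u2 u3 u4

variable {K : Type u1} {F : Type u2} {K' : Type u3} {F' : Type u4} [Field K] [Field F]
  [Algebra K F] [Field K'] [Field F'] [Algebra K' F']

theorem FieldIso.lift_rank_kaehler_le (e : FieldIso K F K' F') :
    Cardinal.lift.{u2} (Module.rank F' Ω[F'⁄K']) ≤ Cardinal.lift.{u4} (Module.rank F Ω[F⁄K]) := by
  letI : Algebra K K' := e.σ.toRingHom.toAlgebra
  letI : Algebra F F' := e.τ.toRingHom.toAlgebra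
  letI : Algebra K F' := ((algebraMap K' F').comp e.σ.toRingHom).toAlgebra
  haveI : IsScalarTower K F F' := IsScalarTower.of_algebraMap_eq (fun a => (e.comm a).symm)
  haveI : IsScalarTower K K' F' := IsScalarTower.of_algebraMap_eq (fun a => rfl)
  have hsurj := KaehlerDifferential.map_surjective_of_surjective K K' F F' e.τ.surjective
  have h1 := LinearMap.lift_rank_le_of_surjective (KaehlerDifferential.map K K' F F') hsurj
  have h2 := lift_rank_eq_of_equiv_equiv (e.τ : F → F') (AddEquiv.refl Ω[F'⁄K']) e.τ.bijective
    (fun r m => by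
      show r • m = e.τ r • m
      rw [← algebraMap_smul F' r m]
      rfl)
  rw [Cardinal.lift_id, Cardinal.lift_id] at h2
  rw [← h2]
  exact h1

theorem FieldIso.lift_rank_kaehler_eq (e : FieldIso K F K' F') :
    Cardinal.lift.{u2} (Module.rank F' Ω[F'⁄K']) = Cardinal.lift.{u4} (Module.rank F Ω[F⁄K]) :=
  le_antisymm e.lift_rank_kaehler_le e.symm.lift_rank_kaehler_le

theorem FieldIso.finrank_kaehler_eq (e : FieldIso K F K' F') :
    Module.finrank F' Ω[F'⁄K'] = Module.finrank F Ω[F⁄K] := by
  have h2 := congrArg Cardinal.toNat e.lift_rank_kaehler_eq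
  simpa [Module.finrank] using h2

/-- **`IsCurveOver` is invariant under isomorphism.** -/
theorem FieldIso.isCurveOver (e : FieldIso K F K' F') [h : IsCurveOver K F] :
    IsCurveOver K' F' where
  exists_divisor := fun f' hf' => by
    have hf : e.τ.symm f' ≠ 0 := by simpa using hf'
    obtain ⟨D, hD, hdeg⟩ := h.exists_divisor (e.τ.symm f') hf
    refine ⟨e.divEquiv D, fun w => ?_, by rw [e.degree_divEquiv, hdeg]⟩
    rw [FieldIso.divEquiv_apply, hD, e.ord_placeEquiv_symm, RingEquiv.apply_symm_apply]
  finiteResidue := fun w => by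
    obtain ⟨v, rfl⟩ := e.placeEquiv.surjective w
    exact e.finite_residue_mapPlace v (h.finiteResidue v)
  kaehler_free_rank_one := ⟨Module.Free.of_divisionRing F' Ω[F'⁄K'], by
    rw [e.finrank_kaehler_eq]; exact h.kaehler_free_rank_one.2⟩

/-- Algebraic closedness is invariant under ring isomorphisms (universe-polymorphic version of
`IsAlgClosed.of_ringEquiv`). -/
theorem isAlgClosed_of_ringEquiv {k : Type*} {k' : Type*} [Field k] [Field k'] (e : k ≃+* k')
    [IsAlgClosed k] : IsAlgClosed k' := by
  apply IsAlgClosed.of_exists_root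
  intro p hmp hp
  have hpe : (p.map e.symm.toRingHom).degree ≠ 0 := by
    rw [Polynomial.degree_map]
    exact ne_of_gt (Polynomial.degree_pos_of_irreducible hp)
  rcases IsAlgClosed.exists_root (k := k) (p.map e.symm.toRingHom) hpe with ⟨x, hx⟩
  use e x
  rw [Polynomial.IsRoot] at hx
  apply e.symm.injective
  rw [map_zero, ← hx]
  clear hx hpe hp hmp
  induction p using Polynomial.induction_on <;> simp_all

include F F' in
theorem FieldIso.isAlgClosed (e : FieldIso K F K' F') [IsAlgClosed K] : IsAlgClosed K' :=
  isAlgClosed_of_ringEquiv e.σ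

include F F' in
theorem FieldIso.charZero (e : FieldIso K F K' F') [CharZero K] : CharZero K' :=
  charZero_of_injective_ringHom (e.σ : K →+* K').injective

theorem FieldIso.essFiniteType (e : FieldIso K F K' F') [Algebra.EssFiniteType K F] :
    Algebra.EssFiniteType K' F' := by
  letI : Algebra K K' := e.σ.toRingHom.toAlgebra
  letI : Algebra K F' := ((algebraMap K' F').comp e.σ.toRingHom).toAlgebra
  haveI : IsScalarTower K K' F' := IsScalarTower.of_algebraMap_eq (fun a => rfl)
  let τ' : F ≃ₐ[K] F' := { e.τ with commutes' := fun a => e.comm a }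
  haveI : Algebra.EssFiniteType K F' := (Algebra.EssFiniteType.iff_of_algEquiv τ').mp inferInstance
  exact Algebra.EssFiniteType.of_comp K K' F'

end Kaehler

/-! ### Special cases: `K`-algebra isomorphisms and universe lifts -/

section Special

universe u v

/-- A `K`-algebra isomorphism of function fields. -/
def FieldIso.ofAlgEquiv {K F F' : Type*} [Field K] [Field F] [Algebra K F] [Field F']
    [Algebra K F'] (τ : F ≃ₐ[K] F') : FieldIso K F K F' where
  σ := RingEquiv.refl K
  τ := τ.toRingEquiv
  comm := fun a => τ.commutes a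

/-- The algebra structure of the universe lifts. -/
@[reducible] def uliftAlgebra (K : Type u) (F : Type v) [Field K] [Field F] [Algebra K F] :
    Algebra (ULift.{v} K) (ULift.{u} F) :=
  ((ULift.ringEquiv.symm : F ≃+* ULift.{u} F).toRingHom.comp
    ((algebraMap K F).comp (ULift.ringEquiv : ULift.{v} K ≃+* K).toRingHom)).toAlgebra

/-- The universe lift of a pair `(K, F)`. -/
def FieldIso.ulift (K : Type u) (F : Type v) [Field K] [Field F] [Algebra K F] :
    letI := uliftAlgebra K F
    FieldIso K F (ULift.{v} K) (ULift.{u} F) :=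
  letI := uliftAlgebra K F
  { σ := ULift.ringEquiv.symm
    τ := ULift.ringEquiv.symm
    comm := fun _ => rfl }

/-- **Universe reduction for S27**: if the torsion count holds for all function fields with `K` and
`F` in one universe, it holds in general. -/
theorem torsion_card_of_same_universe
    (H : ∀ (K F : Type (max u v)) [Field K] [Field F] [Algebra K F] [IsAlgClosed K] [CharZero K]
      [IsCurveOver K F] [Algebra.EssFiniteType K F] (ℓ : ℕ) [Fact ℓ.Prime] (k : ℕ),
      Nat.card (Pic0.torsion K F (ℓ ^ k)) = ℓ ^ (2 * genusFF K F * k))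
    (K : Type u) (F : Type v) [Field K] [Field F] [Algebra K F] [IsAlgClosed K] [CharZero K]
    [IsCurveOver K F] [Algebra.EssFiniteType K F] (ℓ : ℕ) [Fact ℓ.Prime] (k : ℕ) :
    Nat.card (Pic0.torsion K F (ℓ ^ k)) = ℓ ^ (2 * genusFF K F * k) := by
  letI := uliftAlgebra K F
  let e : FieldIso K F (ULift.{v} K) (ULift.{u} F) := FieldIso.ulift K F
  haveI : IsAlgClosed (ULift.{v} K) := FieldIso.isAlgClosed (K := K) (F := F) (K' := ULift.{v} K) (F' := ULift.{u} F) e
  haveI : CharZero (ULift.{v} K) := FieldIso.charZero (K := K) (F := F) (K' := ULift.{v} K) (F' := ULift.{u} F) e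
  haveI : IsCurveOver (ULift.{v} K) (ULift.{u} F) := e.isCurveOver
  haveI : Algebra.EssFiniteType (ULift.{v} K) (ULift.{u} F) := e.essFiniteType
  rw [e.natCard_torsion, e.genusFF_eq]
  exact H (ULift.{v} K) (ULift.{u} F) ℓ k

end Special

end Fermat.Agent.JAC.FF.Transport9
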